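import Mathlib
import Fermat.Prelude.Def_GaloisRep_DeformationCondition

/-!
# Abstract pro-representability (statement only; used by S53)

`X` is a set of "coordinates", `F A ⊆ (X → A)` a "closed subfunctor of affine space".
-/

set_option autoImplicit false

namespace FADeform

open IsLocalRing GaloisRep

/-- The `𝒪`-algebra structure on the dual numbers used by `GaloisRep.TangentFinite`. -/
@[reducible] noncomputable def dualNumberAlgebra (𝒪 : Type) [CommRing 𝒪] [IsLocalRing 𝒪] :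
    Algebra 𝒪 (DualNumber (ResidueField 𝒪)) :=
  ((algebraMap (ResidueField 𝒪) (DualNumber (ResidueField 𝒪))).comp
      (algebraMap 𝒪 (ResidueField 𝒪))).toAlgebra

/-- Hypotheses on a "functor of points" `F`. -/
structure IsProRepData (𝒪 : Type) [CommRing 𝒪] [IsLocalRing 𝒪] (X : Type)
    (F : ∀ (A : Type) [CommRing A] [IsLocalRing A] [Algebra 𝒪 A], Set (X → A))
    (u0 : X → 𝒪) : Prop where
  res : ∀ (A : Type) [CommRing A] [IsLocalRing A] [Algebra 𝒪 A], IsArtinianTestAlgebra 𝒪 A →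
    ∀ u ∈ F A, ∀ x, u x - algebraMap 𝒪 A (u0 x) ∈ maximalIdeal A
  map : ∀ (A B : Type) [CommRing A] [IsLocalRing A] [Algebra 𝒪 A]
    [CommRing B] [IsLocalRing B] [Algebra 𝒪 B],
    IsArtinianTestAlgebra 𝒪 A → IsArtinianTestAlgebra 𝒪 B →
    ∀ (φ : A →ₐ[𝒪] B), ∀ u ∈ F A, (fun x => φ (u x)) ∈ F B
  inj : ∀ (A B : Type) [CommRing A] [IsLocalRing A] [Algebra 𝒪 A]
    [CommRing B] [IsLocalRing B] [Algebra 𝒪 B],
    IsArtinianTestAlgebra 𝒪 A → IsArtinianTestAlgebra 𝒪 B →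
    ∀ (φ : A →ₐ[𝒪] B), Function.Injective φ → ∀ u : X → A, (fun x => φ (u x)) ∈ F B → u ∈ F A
  prod : ∀ (A B C P : Type) [CommRing A] [IsLocalRing A] [Algebra 𝒪 A]
    [CommRing B] [IsLocalRing B] [Algebra 𝒪 B] [CommRing C] [IsLocalRing C] [Algebra 𝒪 C]
    [CommRing P] [IsLocalRing P] [Algebra 𝒪 P],
    IsArtinianTestAlgebra 𝒪 A → IsArtinianTestAlgebra 𝒪 B → IsArtinianTestAlgebra 𝒪 C →
    IsArtinianTestAlgebra 𝒪 P →
    ∀ (f : A →ₐ[𝒪] C) (g : B →ₐ[𝒪] C) (pA : P →ₐ[𝒪] A) (pB : P →ₐ[𝒪] B),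
      f.comp pA = g.comp pB →
      Function.Injective (fun x => (pA x, pB x)) →
      (∀ a b, f a = g b → ∃ x, pA x = a ∧ pB x = b) →
      ∀ u : X → P, (fun x => pA (u x)) ∈ F A → (fun x => pB (u x)) ∈ F B → u ∈ F P
  complete : ∀ (A : Type) [CommRing A] [IsLocalRing A] [IsNoetherianRing A]
    [IsAdicComplete (maximalIdeal A) A] [Algebra 𝒪 A],
    IsLocalHom (algebraMap 𝒪 A) → Function.Surjective (IsLocalRing.residue A ∘ algebraMap 𝒪 A) →
    ∀ u : X → A, u ∈ F A ↔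
      ∀ (B : Type) [CommRing B] [IsLocalRing B] [Algebra 𝒪 B], IsArtinianTestAlgebra 𝒪 B →
        ∀ (q : A →ₐ[𝒪] B), Function.Surjective q → (fun x => q (u x)) ∈ F B
  tangent : letI := dualNumberAlgebra 𝒪
    (F (DualNumber (ResidueField 𝒪))).Finite
  base : (fun x => algebraMap 𝒪 (ResidueField 𝒪) (u0 x)) ∈ F (ResidueField 𝒪)

/-- The conclusion: a universal pair. -/
def HasUniversal (𝒪 : Type) [CommRing 𝒪] [IsLocalRing 𝒪] (X : Type)
    (F : ∀ (A : Type) [CommRing A] [IsLocalRing A] [Algebra 𝒪 A], Set (X → A)) : Prop :=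
  ∃ (R : Type) (_ : CommRing R) (_ : IsLocalRing R) (_ : IsNoetherianRing R)
    (_ : IsAdicComplete (maximalIdeal R) R) (_ : Algebra 𝒪 R) (_ : IsLocalHom (algebraMap 𝒪 R)),
    Function.Surjective (IsLocalRing.residue R ∘ algebraMap 𝒪 R) ∧
    ∃ u ∈ F R, ∀ (A : Type) [CommRing A] [IsLocalRing A] [IsNoetherianRing A]
      [IsAdicComplete (maximalIdeal A) A] [Algebra 𝒪 A] [IsLocalHom (algebraMap 𝒪 A)],
      Function.Surjective (IsLocalRing.residue A ∘ algebraMap 𝒪 A) →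
      ∀ v ∈ F A, ∃! φ : R →ₐ[𝒪] A, ∀ x, φ (u x) = v x

end FADeform
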