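import Mathlib

/-!
# A Mittag-Leffler type lemma in an adically complete ring (helper for `exists_limit`, S53)
-/

set_option autoImplicit false

namespace FADeform

variable {P : Type} [CommRing P] (𝔫 : Ideal P)

/-- successive approximation -/
theorem exists_limit_of_approx [IsPrecomplete 𝔫 P] (T : ℕ → Set P)
    (hstep : ∀ m, ∀ a ∈ T m, ∃ b ∈ T (m + 1), b - a ∈ 𝔫 ^ (m + 1))
    (hadd : ∀ m, ∀ a ∈ T m, ∀ c ∈ 𝔫 ^ (m + 1), a + c ∈ T m)
    (n₀ : ℕ) (a₀ : P) (ha₀ : a₀ ∈ T n₀) :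
    ∃ y : P, y - a₀ ∈ 𝔫 ^ (n₀ + 1) ∧ ∀ i, y ∈ T (n₀ + i) := by
  classical
  -- the sequence
  let F : (i : ℕ) → {a : P // a ∈ T (n₀ + i)} := fun i =>
    Nat.rec (motive := fun i => {a : P // a ∈ T (n₀ + i)}) ⟨a₀, ha₀⟩
      (fun i a => ⟨(hstep (n₀ + i) a.1 a.2).choose, (hstep (n₀ + i) a.1 a.2).choose_spec.1⟩) i
  have hF : ∀ i, (F (i + 1)).1 - (F i).1 ∈ 𝔫 ^ (n₀ + i + 1) := fun i =>
    (hstep (n₀ + i) (F i).1 (F i).2).choose_spec.2
  have hF0 : (F 0).1 = a₀ := rfl
  -- telescoping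
  have htel : ∀ i k, (F (i + k)).1 - (F i).1 ∈ 𝔫 ^ (n₀ + i + 1) := by
    intro i k
    induction k with
    | zero => simp
    | succ k ih =>
      have h1 := hF (i + k)
      have h2 : (F (i + (k + 1))).1 - (F i).1 =
          ((F (i + k + 1)).1 - (F (i + k)).1) + ((F (i + k)).1 - (F i).1) := by
        change (F (i + k + 1)).1 - (F i).1 = _
        ring
      rw [h2]
      exact Ideal.add_mem _ (Ideal.pow_le_pow_right (by omega) h1) ih
  -- Cauchy
  have hcauchy : ∀ {m n : ℕ}, m ≤ n →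
      (F m).1 ≡ (F n).1 [SMOD (𝔫 ^ m • ⊤ : Submodule P P)] := by
    intro m n hmn
    obtain ⟨k, rfl⟩ := Nat.exists_eq_add_of_le hmn
    rw [SModEq.sub_mem, smul_eq_mul, Ideal.mul_top]
    have h1 := htel m k
    have h2 : (F m).1 - (F (m + k)).1 = -((F (m + k)).1 - (F m).1) := by ring
    rw [h2]
    exact Ideal.neg_mem_iff _ |>.mpr (Ideal.pow_le_pow_right (by omega) h1)
  obtain ⟨y, hy⟩ := IsPrecomplete.prec ‹_› (f := fun i => (F i).1) hcauchy
  have hy' : ∀ i, y - (F i).1 ∈ 𝔫 ^ (n₀ + i + 1) := by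
    intro i
    have h1 := hy (i + (n₀ + i + 1))
    rw [SModEq.sub_mem, smul_eq_mul, Ideal.mul_top] at h1
    have h2 := htel i (n₀ + i + 1)
    have h3 : y - (F i).1 = -((F (i + (n₀ + i + 1))).1 - y) +
        ((F (i + (n₀ + i + 1))).1 - (F i).1) := by ring
    rw [h3]
    exact Ideal.add_mem _ (Ideal.neg_mem_iff _ |>.mpr (Ideal.pow_le_pow_right (by omega) h1)) h2
  refine ⟨y, by simpa [hF0] using hy' 0, fun i => ?_⟩
  have h1 := hadd (n₀ + i) (F i).1 (F i).2 _ (hy' i)
  simpa using h1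

/-- Mittag-Leffler lemma for a decreasing sequence of open ideals. -/
theorem mittagLeffler [IsPrecomplete 𝔫 P]
    (J : ℕ → Ideal P) (hpow : ∀ n, 𝔫 ^ (n + 1) ≤ J n) (hanti : ∀ n, J (n + 1) ≤ J n)
    (hstep : ∀ n, J n ≤ J (n + 1) ⊔ 𝔫 ^ (n + 1)) :
    (∀ n, J n = (⨅ m, J m) ⊔ 𝔫 ^ (n + 1)) ∧
    (∀ x : ℕ → P, (∀ n, x (n + 1) - x n ∈ J n) → ∃ y : P, ∀ n, y - x n ∈ J n) := by
  have hanti' : Antitone J := antitone_nat_of_succ_le hanti
  constructor
  · intro n
    apply le_antisymm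
    · intro a ha
      obtain ⟨y, hy1, hy2⟩ := exists_limit_of_approx 𝔫 (fun m => (J m : Set P))
        (by
          intro m a ha
          obtain ⟨b, hb, c, hc, rfl⟩ := Submodule.mem_sup.mp (hstep m ha)
          exact ⟨b, hb, by simpa using (Ideal.neg_mem_iff _).mpr hc⟩)
        (fun m a ha c hc => Ideal.add_mem _ ha (hpow m hc)) n a ha
      have hyJ : y ∈ ⨅ m, J m := by
        rw [Ideal.mem_iInf]
        intro m
        rcases le_total n m with h | h
        · obtain ⟨k, rfl⟩ := Nat.exists_eq_add_of_le h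
          exact hy2 k
        · exact hanti' h (by simpa using hy2 0)
      have : a = y + -(y - a) := by ring
      rw [this]
      exact Submodule.add_mem_sup hyJ ((Ideal.neg_mem_iff _).mpr hy1)
    · exact sup_le (iInf_le _ n) (hpow n)
  · intro x hx
    obtain ⟨y, -, hy2⟩ := exists_limit_of_approx 𝔫 (fun m => {a : P | a - x m ∈ J m})
      (by
        intro m a ha
        have h1 : x (m + 1) - a ∈ J m := by
          have : x (m + 1) - a = (x (m + 1) - x m) - (a - x m) := by ring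
          rw [this]
          exact Ideal.sub_mem _ (hx m) ha
        obtain ⟨b, hb, c, hc, hbc⟩ := Submodule.mem_sup.mp (hstep m h1)
        refine ⟨a + c, ?_, by simpa using hc⟩
        have : a + c - x (m + 1) = -b := by
          have : c = x (m + 1) - a - b := by rw [← hbc]; ring
          rw [this]; ring
        simp only [Set.mem_ofPred_eq, this]
        exact (Ideal.neg_mem_iff _).mpr hb)
      (by
        intro m a ha c hc
        have : a + c - x m = (a - x m) + c := by ring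
        simp only [Set.mem_ofPred_eq, this]
        exact Ideal.add_mem _ ha (hpow m hc)) 0 (x 0) (by simp)
    exact ⟨y, fun n => by simpa using hy2 n⟩

end FADeform
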