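import Mathlib

/-!
# `MvPowerSeries (Fin d) 𝒪` is complete for its maximal ideal (helper for `exists_limit`, S53)
-/

set_option autoImplicit false

namespace FADeform

open IsLocalRing PowerSeries

section OneVar

variable {B : Type} [CommRing B] [IsLocalRing B]

/-- The ideal of power series whose `i`-th coefficient lies in `𝔪 ^ (n - i)`. -/
def psFilt (B : Type) [CommRing B] [IsLocalRing B] (n : ℕ) : Ideal B⟦X⟧ where
  carrier := {f | ∀ i, coeff i f ∈ maximalIdeal B ^ (n - i)}
  add_mem' := by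
    intro f g hf hg i
    rw [map_add]
    exact Ideal.add_mem _ (hf i) (hg i)
  zero_mem' := by
    intro i
    simp
  smul_mem' := by
    intro c f hf i
    rw [smul_eq_mul, coeff_mul]
    refine Ideal.sum_mem _ fun p hp => ?_
    have hp' : p.1 + p.2 = i := Finset.HasAntidiagonal.mem_antidiagonal.mp hp
    exact Ideal.mul_mem_left _ _ (Ideal.pow_le_pow_right (by omega) (hf p.2))

lemma mem_psFilt {n : ℕ} {f : B⟦X⟧} :
    f ∈ psFilt B n ↔ ∀ i, coeff i f ∈ maximalIdeal B ^ (n - i) := Iff.rfl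

lemma psFilt_mul_le (a b : ℕ) : psFilt B a * psFilt B b ≤ psFilt B (a + b) := by
  rw [Ideal.mul_le]
  intro f hf g hg i
  rw [coeff_mul]
  refine Ideal.sum_mem _ fun p hp => ?_
  have hp' : p.1 + p.2 = i := Finset.HasAntidiagonal.mem_antidiagonal.mp hp
  have h1 : coeff p.1 f * coeff p.2 g ∈ maximalIdeal B ^ ((a - p.1) + (b - p.2)) := by
    rw [pow_add]
    exact Ideal.mul_mem_mul (hf p.1) (hg p.2)
  exact Ideal.pow_le_pow_right (by omega) h1

lemma maximalIdeal_le_psFilt_one : maximalIdeal B⟦X⟧ ≤ psFilt B 1 := by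
  intro f hf i
  rw [mem_maximalIdeal, mem_nonunits_iff, PowerSeries.isUnit_iff_constantCoeff] at hf
  rcases Nat.eq_zero_or_pos i with rfl | hi
  · simpa using hf
  · have : 1 - i = 0 := by omega
    rw [this, pow_zero, Ideal.one_eq_top]
    trivial

lemma maximalIdeal_pow_le_psFilt (n : ℕ) : maximalIdeal B⟦X⟧ ^ n ≤ psFilt B n := by
  induction n with
  | zero =>
    intro f _ i
    simp
  | succ n ih =>
    rw [pow_succ]
    exact (Ideal.mul_mono ih maximalIdeal_le_psFilt_one).trans (psFilt_mul_le n 1)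

lemma X_mem_maximalIdeal : (X : B⟦X⟧) ∈ maximalIdeal B⟦X⟧ := by
  rw [mem_maximalIdeal, mem_nonunits_iff, PowerSeries.isUnit_iff_constantCoeff]
  simp

lemma C_mem_maximalIdeal_pow {j : ℕ} {b : B} (hb : b ∈ maximalIdeal B ^ j) :
    (C b : B⟦X⟧) ∈ maximalIdeal B⟦X⟧ ^ j := by
  have h1 : (maximalIdeal B).map (C (R := B)) ≤ maximalIdeal B⟦X⟧ := by
    rw [Ideal.map_le_iff_le_comap]
    intro b hb
    rw [Ideal.mem_comap, mem_maximalIdeal, mem_nonunits_iff,
      PowerSeries.isUnit_iff_constantCoeff]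
    simpa using hb
  have h2 : (C b : B⟦X⟧) ∈ ((maximalIdeal B) ^ j).map (C (R := B)) := Ideal.mem_map_of_mem _ hb
  rw [Ideal.map_pow] at h2
  exact Ideal.pow_right_mono h1 j h2

lemma psFilt_le_maximalIdeal_pow (n : ℕ) : psFilt B n ≤ maximalIdeal B⟦X⟧ ^ n := by
  intro f hf
  rw [eq_shift_mul_X_pow_add_trunc n f]
  refine Ideal.add_mem _ (Ideal.mul_mem_left _ _ (Ideal.pow_mem_pow X_mem_maximalIdeal n)) ?_
  rw [trunc_apply, ← Polynomial.coeToPowerSeries.ringHom_apply, map_sum]
  refine Ideal.sum_mem _ fun i hi => ?_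
  have hi' : i < n := (Finset.mem_Ico.mp hi).2
  rw [Polynomial.coeToPowerSeries.ringHom_apply, Polynomial.coe_monomial,
    PowerSeries.monomial_eq_C_mul_X_pow]
  have h1 : (C (coeff i f) : B⟦X⟧) * X ^ i ∈ maximalIdeal B⟦X⟧ ^ (n - i) * maximalIdeal B⟦X⟧ ^ i :=
    Ideal.mul_mem_mul (C_mem_maximalIdeal_pow (hf i)) (Ideal.pow_mem_pow X_mem_maximalIdeal i)
  rw [← pow_add] at h1
  have h2 : n - i + i = n := by omega
  rwa [h2] at h1

lemma psFilt_eq (n : ℕ) : psFilt B n = maximalIdeal B⟦X⟧ ^ n :=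
  le_antisymm (psFilt_le_maximalIdeal_pow n) (maximalIdeal_pow_le_psFilt n)

theorem isPrecomplete_powerSeries [IsPrecomplete (maximalIdeal B) B] :
    IsPrecomplete (maximalIdeal B⟦X⟧) B⟦X⟧ := by
  refine ⟨fun f hf => ?_⟩
  -- coefficientwise Cauchy sequences
  have hc : ∀ i : ℕ, ∃ L : B, ∀ n, coeff i (f (n + i)) ≡ L
      [SMOD (maximalIdeal B ^ n • ⊤ : Submodule B B)] := by
    intro i
    refine IsPrecomplete.prec ‹_› (f := fun n => coeff i (f (n + i))) ?_
    intro m n hmn
    have h1 := hf (m := m + i) (n := n + i) (by omega)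
    rw [SModEq.sub_mem, smul_eq_mul, Ideal.mul_top, ← psFilt_eq] at h1
    have h2 := h1 i
    rw [SModEq.sub_mem, smul_eq_mul, Ideal.mul_top, ← map_sub]
    have h3 : m + i - i = m := by omega
    rwa [h3] at h2
  choose L hL using hc
  refine ⟨PowerSeries.mk L, fun n => ?_⟩
  rw [SModEq.sub_mem, smul_eq_mul, Ideal.mul_top, ← psFilt_eq]
  intro i
  rw [map_sub, coeff_mk]
  rcases le_or_gt i n with hi | hi
  · have h1 := hL i (n - i)
    rw [SModEq.sub_mem, smul_eq_mul, Ideal.mul_top] at h1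
    have h2 : n - i + i = n := by omega
    rwa [h2] at h1
  · have : n - i = 0 := by omega
    rw [this, pow_zero, Ideal.one_eq_top]
    trivial

end OneVar

lemma isAdicComplete_of_ringEquiv {B B' : Type} [CommRing B] [IsLocalRing B] [CommRing B']
    [IsLocalRing B'] (e : B ≃+* B') [h : IsAdicComplete (maximalIdeal B) B] :
    IsAdicComplete (maximalIdeal B') B' := by
  have h1 : (maximalIdeal B).map e = maximalIdeal B' :=
    IsLocalRing.eq_maximalIdeal (Ideal.map_isMaximal_of_equiv e)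
  rw [← h1]
  exact (IsAdicComplete.congr_ringEquiv (maximalIdeal B) e).mpr h

theorem isAdicComplete_powerSeries {B : Type} [CommRing B] [IsLocalRing B] [IsNoetherianRing B]
    [IsAdicComplete (maximalIdeal B) B] : IsAdicComplete (maximalIdeal B⟦X⟧) B⟦X⟧ :=
  { toIsHausdorff := inferInstance
    toIsPrecomplete := isPrecomplete_powerSeries }

/-- The power series ring in finitely many variables over a complete Noetherian local ring is
complete for its maximal ideal. -/
theorem isAdicComplete_mvPowerSeries (𝒪 : Type) [CommRing 𝒪] [IsLocalRing 𝒪]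
    [IsNoetherianRing 𝒪] [IsAdicComplete (maximalIdeal 𝒪) 𝒪] (d : ℕ) :
    IsAdicComplete (maximalIdeal (MvPowerSeries (Fin d) 𝒪)) (MvPowerSeries (Fin d) 𝒪) := by
  induction d with
  | zero =>
    exact isAdicComplete_of_ringEquiv (MvPowerSeries.isEmptyEquiv (Fin 0) 𝒪).toRingEquiv.symm
  | succ n ih =>
    haveI := ih
    haveI : IsAdicComplete (maximalIdeal (MvPowerSeries (Fin n) 𝒪)⟦X⟧)
      (MvPowerSeries (Fin n) 𝒪)⟦X⟧ := isAdicComplete_powerSeries
    exact isAdicComplete_of_ringEquiv (MvPowerSeries.finSuccEquiv 𝒪 n).toRingEquiv.symm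

end FADeform
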