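import Mathlib
import Fermat.Agent.Deform.AbstractStmt
import Fermat.Agent.Deform.PSComplete
import Fermat.Agent.Deform.MittagLeffler
import Fermat.Prelude.Thm_IsLocalRing_isAdicComplete_of_module_finite

/-!
# [LIM] of the S53 blueprint: the limit of a tower of test algebras
-/

set_option autoImplicit false
set_option linter.style.haveILetI false
set_option linter.unusedSectionVars false

namespace FADeform

open IsLocalRing GaloisRep

/-- iterate `⊤ ≤ N ⊔ I • ⊤`. -/
lemma top_le_sup_pow_smul_top {R M : Type*} [CommRing R] [AddCommGroup M] [Module R M]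
    (I : Ideal R) (N : Submodule R M) (h : (⊤ : Submodule R M) ≤ N ⊔ I • ⊤) (j : ℕ) :
    (⊤ : Submodule R M) ≤ N ⊔ I ^ j • ⊤ := by
  induction j with
  | zero => simp
  | succ j ih =>
    refine ih.trans (sup_le le_sup_left ?_)
    calc I ^ j • (⊤ : Submodule R M) ≤ I ^ j • (N ⊔ I • ⊤) := Submodule.smul_mono le_rfl h
      _ = I ^ j • N ⊔ I ^ j • (I • ⊤) := Submodule.smul_sup _ _ _
      _ ≤ N ⊔ I ^ (j + 1) • ⊤ := by
        refine sup_le_sup Submodule.smul_le_right ?_
        rw [← Submodule.mul_smul, pow_succ]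

/-- If the maximal ideal of `B` is nilpotent and generated by `x i`, and `𝒪 → B/𝔪` is onto,
then `B` is generated by the `x i` as an `𝒪`-algebra. -/
lemma aeval_surjective_of_span_eq {𝒪 B : Type} [CommRing 𝒪] [CommRing B] [IsLocalRing B]
    [Algebra 𝒪 B] (hres : Function.Surjective (IsLocalRing.residue B ∘ algebraMap 𝒪 B))
    {d : ℕ} (x : Fin d → B) (hx : Ideal.span (Set.range x) = maximalIdeal B) (N : ℕ)
    (hN : maximalIdeal B ^ N = ⊥) :
    Function.Surjective (MvPolynomial.aeval x : MvPolynomial (Fin d) 𝒪 →ₐ[𝒪] B) := by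
  letI : Algebra (MvPolynomial (Fin d) 𝒪) B :=
    (MvPolynomial.aeval x : MvPolynomial (Fin d) 𝒪 →ₐ[𝒪] B).toRingHom.toAlgebra
  have halg : ∀ p : MvPolynomial (Fin d) 𝒪, algebraMap (MvPolynomial (Fin d) 𝒪) B p =
      MvPolynomial.aeval x p := fun p => rfl
  have hI : (MvPolynomial.idealOfVars (Fin d) 𝒪).map (algebraMap (MvPolynomial (Fin d) 𝒪) B) =
      maximalIdeal B := by
    rw [MvPolynomial.idealOfVars, Ideal.map_span, ← hx, ← Set.range_comp]
    congr 2
    ext i
    simp [halg]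
  have h0 : (⊤ : Submodule (MvPolynomial (Fin d) 𝒪) B) ≤
      1 ⊔ (MvPolynomial.idealOfVars (Fin d) 𝒪) • ⊤ := by
    intro y _
    obtain ⟨c, hc⟩ := hres (IsLocalRing.residue B y)
    have h1 : y - algebraMap 𝒪 B c ∈ maximalIdeal B := by
      rw [← IsLocalRing.residue_eq_zero_iff, map_sub, sub_eq_zero]
      exact hc.symm
    have h2 : y = algebraMap 𝒪 B c + (y - algebraMap 𝒪 B c) := by ring
    rw [h2]
    refine Submodule.add_mem_sup ?_ ?_
    · rw [Submodule.mem_one]
      exact ⟨MvPolynomial.C c, by rw [halg]; simp⟩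
    · rw [Ideal.smul_top_eq_map, hI]
      exact h1
  have h1 := top_le_sup_pow_smul_top _ _ h0 N
  rw [Ideal.smul_top_eq_map, Ideal.map_pow, hI, hN] at h1
  intro y
  have h2 : y ∈ (1 : Submodule (MvPolynomial (Fin d) 𝒪) B) := by
    have := h1 (Submodule.mem_top (x := y))
    simpa using this
  obtain ⟨p, hp⟩ := Submodule.mem_one.mp h2
  exact ⟨p, hp⟩


section Tower

variable {𝒪 : Type} [CommRing 𝒪]
  (R : ℕ → Type) [∀ n, CommRing (R n)] [∀ n, IsLocalRing (R n)] [∀ n, Algebra 𝒪 (R n)]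
  (t : ∀ n, R (n + 1) →ₐ[𝒪] R n) (ht : ∀ n, Function.Surjective (t n))

include ht in
lemma tower_exists_family (y : R 1) :
    ∃ a : ∀ n, R n, (∀ n, t n (a (n + 1)) = a n) ∧ a 1 = y := by
  classical
  let b : ∀ m, R (m + 1) := fun m =>
    Nat.rec (motive := fun m => R (m + 1)) y (fun m z => Function.surjInv (ht (m + 1)) z) m
  have hb : ∀ m, t (m + 1) (b (m + 1)) = b m := fun m => Function.surjInv_eq (ht (m + 1)) (b m)
  refine ⟨fun n => match n with
    | 0 => t 0 y
    | m + 1 => b m, ?_, rfl⟩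
  intro n
  cases n with
  | zero => rfl
  | succ m => exact hb m

include ht in
lemma tower_map_maximalIdeal (n : ℕ) :
    (maximalIdeal (R (n + 1))).map (t n : R (n + 1) →+* R n) = maximalIdeal (R n) :=
  map_maximalIdeal_of_surjective _ (ht n)

include ht in
lemma tower_pow_eq_bot (hker : ∀ n, RingHom.ker (t n) = maximalIdeal (R (n + 1)) ^ (n + 1))
    (n : ℕ) : maximalIdeal (R n) ^ (n + 1) = ⊥ := by
  rw [← tower_map_maximalIdeal R t ht, ← Ideal.map_pow, ← hker n]
  exact (Ideal.map_eq_bot_iff_le_ker _).mpr le_rfl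

include ht in
lemma tower_span_eq [∀ n, IsNoetherianRing (R n)]
    (hker : ∀ n, RingHom.ker (t n) = maximalIdeal (R (n + 1)) ^ (n + 1))
    {d : ℕ} (x : ∀ n, Fin d → R n) (hx : ∀ n i, t n (x (n + 1) i) = x n i)
    (hx1 : Ideal.span (Set.range (x 1)) = maximalIdeal (R 1)) (n : ℕ) :
    Ideal.span (Set.range (x (n + 1))) = maximalIdeal (R (n + 1)) := by
  induction n with
  | zero => exact hx1
  | succ n ih =>
    have hmap : (Ideal.span (Set.range (x (n + 2)))).map (t (n + 1) : R (n + 2) →+* R (n + 1)) =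
        maximalIdeal (R (n + 1)) := by
      rw [Ideal.map_span, ← ih, ← Set.range_comp]
      congr 2
      ext i
      exact hx (n + 1) i
    apply le_antisymm
    · rw [Ideal.span_le]
      rintro _ ⟨i, rfl⟩
      have h1 : x (n + 1) i ∈ maximalIdeal (R (n + 1)) := by
        rw [← ih]; exact Ideal.subset_span ⟨i, rfl⟩
      rw [SetLike.mem_coe, mem_maximalIdeal, mem_nonunits_iff]
      intro hu
      rw [← hx (n + 1) i, mem_maximalIdeal, mem_nonunits_iff] at h1
      exact h1 (hu.map (t (n + 1)))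
    · refine Submodule.le_of_le_smul_of_le_jacobson_bot
        (I := maximalIdeal (R (n + 2))) (IsNoetherian.noetherian _)
        (IsLocalRing.maximalIdeal_le_jacobson _) ?_
      intro y hy
      have h1 : (t (n + 1)) y ∈ (Ideal.span (Set.range (x (n + 2)))).map
          (t (n + 1) : R (n + 2) →+* R (n + 1)) := by
        rw [hmap, ← tower_map_maximalIdeal R t ht]
        exact Ideal.mem_map_of_mem _ hy
      obtain ⟨z, hz, hzy⟩ := (Ideal.mem_map_iff_of_surjective _ (ht (n + 1))).mp h1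
      have h2 : y - z ∈ RingHom.ker (t (n + 1)) := by
        rw [RingHom.mem_ker, map_sub, sub_eq_zero]
        exact hzy.symm
      rw [hker (n + 1)] at h2
      have h3 : maximalIdeal (R (n + 2)) ^ (n + 1 + 1) ≤
          maximalIdeal (R (n + 2)) • maximalIdeal (R (n + 2)) := by
        rw [smul_eq_mul, ← pow_two]
        exact Ideal.pow_le_pow_right (by omega)
      have h4 : y = z + (y - z) := by ring
      rw [h4]
      exact Submodule.add_mem_sup hz (h3 h2)

end Tower


section PsEval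

variable {𝒪 B : Type} [CommRing 𝒪] [CommRing B] [Algebra 𝒪 B] {d : ℕ} (x : Fin d → B) (N : ℕ)
  (hN : Ideal.span (Set.range x) ^ N = ⊥)

include hN in
lemma aeval_eq_zero_of_mem_pow_idealOfVars (p : MvPolynomial (Fin d) 𝒪)
    (hp : p ∈ MvPolynomial.idealOfVars (Fin d) 𝒪 ^ N) : MvPolynomial.aeval x p = 0 := by
  have h1 : (MvPolynomial.aeval x : MvPolynomial (Fin d) 𝒪 →ₐ[𝒪] B) p ∈
      (MvPolynomial.idealOfVars (Fin d) 𝒪 ^ N).map
        (MvPolynomial.aeval x : MvPolynomial (Fin d) 𝒪 →ₐ[𝒪] B) := Ideal.mem_map_of_mem _ hp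
  rw [Ideal.map_pow, MvPolynomial.idealOfVars, Ideal.map_span, ← Set.range_comp] at h1
  have h2 : ((MvPolynomial.aeval x : MvPolynomial (Fin d) 𝒪 →ₐ[𝒪] B) ∘ MvPolynomial.X) = x := by
    ext i; simp
  rw [h2, hN] at h1
  simpa using h1

/-- evaluation of power series at a nilpotent family -/
noncomputable def psEval : MvPowerSeries (Fin d) 𝒪 →ₐ[𝒪] B :=
  (Ideal.Quotient.liftₐ (MvPolynomial.idealOfVars (Fin d) 𝒪 ^ N)
    (MvPolynomial.aeval x : MvPolynomial (Fin d) 𝒪 →ₐ[𝒪] B)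
    (aeval_eq_zero_of_mem_pow_idealOfVars x N hN)).comp
    ((MvPowerSeries.truncTotalAlgHom (Fin d) 𝒪 N).restrictScalars 𝒪)

lemma psEval_apply (f : MvPowerSeries (Fin d) 𝒪) :
    psEval x N hN f = MvPolynomial.aeval x (MvPowerSeries.truncTotal N f) := rfl

lemma psEval_coe (p : MvPolynomial (Fin d) 𝒪) :
    psEval x N hN (p : MvPowerSeries (Fin d) 𝒪) = MvPolynomial.aeval x p := by
  rw [psEval_apply, ← sub_eq_zero, ← map_sub]
  apply aeval_eq_zero_of_mem_pow_idealOfVars x N hN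
  rw [MvPolynomial.mem_pow_idealOfVars_iff']
  intro y h
  rw [MvPolynomial.coeff_sub, sub_eq_zero, MvPowerSeries.coeff_truncTotal _ h,
    MvPolynomial.coeff_coe]

end PsEval


theorem exists_limit
    (𝒪 : Type) [CommRing 𝒪] [IsDomain 𝒪] [IsDiscreteValuationRing 𝒪]
    [IsAdicComplete (maximalIdeal 𝒪) 𝒪] [Finite (ResidueField 𝒪)]
    (R : ℕ → Type) [∀ n, CommRing (R n)] [∀ n, IsLocalRing (R n)] [∀ n, Algebra 𝒪 (R n)]
    (htest : ∀ n, IsArtinianTestAlgebra 𝒪 (R n))
    (t : ∀ n, R (n + 1) →ₐ[𝒪] R n) (ht : ∀ n, Function.Surjective (t n))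
    (hker : ∀ n, RingHom.ker (t n) = maximalIdeal (R (n + 1)) ^ (n + 1)) 
    (h0 : maximalIdeal (R 0) = ⊥) :
    ∃ (Rinf : Type) (_ : CommRing Rinf) (_ : IsLocalRing Rinf) (_ : IsNoetherianRing Rinf)
      (_ : IsAdicComplete (maximalIdeal Rinf) Rinf) (_ : Algebra 𝒪 Rinf)
      (_ : IsLocalHom (algebraMap 𝒪 Rinf)),
      Function.Surjective (IsLocalRing.residue Rinf ∘ algebraMap 𝒪 Rinf) ∧
      ∃ p : ∀ n, Rinf →ₐ[𝒪] R n, (∀ n, Function.Surjective (p n)) ∧
        (∀ n, (t n).comp (p (n + 1)) = p n) ∧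
        (∀ n, RingHom.ker (p n) = maximalIdeal Rinf ^ (n + 1)) ∧
        (∀ a : ∀ n, R n, (∀ n, t n (a (n + 1)) = a n) → ∃ b : Rinf, ∀ n, p n b = a n) := by
  classical
  haveI : ∀ n, IsArtinianRing (R n) := fun n => (htest n).isArtinian
  haveI : ∀ n, IsNoetherianRing (R n) := fun n => inferInstance
  -- generators of the maximal ideal of `R 1`, lifted compatibly
  obtain ⟨d, x1, hx1⟩ := Submodule.fg_iff_exists_fin_generating_family.mp
    (IsNoetherian.noetherian (maximalIdeal (R 1)))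
  choose a ha ha1 using fun i => tower_exists_family R t ht (x1 i)
  let x : ∀ n, Fin d → R n := fun n i => a i n
  have hx : ∀ n i, t n (x (n + 1) i) = x n i := fun n i => ha i n
  have hx1' : Ideal.span (Set.range (x 1)) = maximalIdeal (R 1) := by
    have : x 1 = x1 := funext ha1
    rw [this]; exact hx1
  have hspan : ∀ n, Ideal.span (Set.range (x n)) = maximalIdeal (R n) := by
    intro n
    cases n with
    | zero =>
      rw [h0, Ideal.span_eq_bot]
      rintro _ ⟨i, rfl⟩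
      have h1 : x 1 i ∈ maximalIdeal (R 1) := by
        rw [← hx1']; exact Ideal.subset_span ⟨i, rfl⟩
      have h2 : t 0 (x 1 i) ∈ maximalIdeal (R 0) := by
        rw [← tower_map_maximalIdeal R t ht 0]
        exact Ideal.mem_map_of_mem _ h1
      rw [h0, hx 0 i] at h2
      simpa using h2
    | succ n => exact tower_span_eq R t ht hker x hx hx1' n
  have hpow : ∀ n, maximalIdeal (R n) ^ (n + 1) = ⊥ := tower_pow_eq_bot R t ht hker
  have hN : ∀ n, Ideal.span (Set.range (x n)) ^ (n + 1) = ⊥ := by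
    intro n; rw [hspan, hpow]
  -- the maps from the power series ring
  let π : ∀ n, MvPowerSeries (Fin d) 𝒪 →ₐ[𝒪] R n := fun n => psEval (x n) (n + 1) (hN n)
  have hπsurj : ∀ n, Function.Surjective (π n) := by
    intro n y
    obtain ⟨p, hp⟩ := aeval_surjective_of_span_eq (𝒪 := 𝒪) (htest n).residue_surjective (x n)
      (hspan n) (n + 1) (hpow n) y
    exact ⟨(p : MvPowerSeries (Fin d) 𝒪), by rw [← hp]; exact psEval_coe _ _ _ p⟩
  have hπt : ∀ n, (t n).comp (π (n + 1)) = π n := by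
    intro n
    ext f
    change t n (psEval (x (n + 1)) (n + 1 + 1) (hN (n + 1)) f) = psEval (x n) (n + 1) (hN n) f
    rw [psEval_apply, psEval_apply]
    have h1 : ∀ p : MvPolynomial (Fin d) 𝒪,
        t n (MvPolynomial.aeval (x (n + 1)) p) = MvPolynomial.aeval (x n) p := by
      intro p
      have : (t n).comp (MvPolynomial.aeval (x (n + 1)) : MvPolynomial (Fin d) 𝒪 →ₐ[𝒪] _) =
          MvPolynomial.aeval (x n) := by
        apply MvPolynomial.algHom_ext
        intro i
        simp [hx n i]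
      exact DFunLike.congr_fun this p
    rw [h1, ← sub_eq_zero, ← map_sub]
    exact aeval_eq_zero_of_mem_pow_idealOfVars (x n) (n + 1) (hN n) _
      (MvPowerSeries.truncTotal_sub_truncTotal_mem_pow_idealOfVars (by omega) le_rfl f)
  have hπmax : ∀ n, (maximalIdeal (MvPowerSeries (Fin d) 𝒪)).map
      (π n : MvPowerSeries (Fin d) 𝒪 →+* R n) = maximalIdeal (R n) :=
    fun n => map_maximalIdeal_of_surjective _ (hπsurj n)
  -- the kernels
  let J : ℕ → Ideal (MvPowerSeries (Fin d) 𝒪) := fun n =>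
    RingHom.ker (π n : MvPowerSeries (Fin d) 𝒪 →+* R n)
  have hJpow : ∀ n, maximalIdeal (MvPowerSeries (Fin d) 𝒪) ^ (n + 1) ≤ J n := by
    intro n
    rw [← Ideal.map_eq_bot_iff_le_ker, Ideal.map_pow, hπmax, hpow]
  have hJanti : ∀ n, J (n + 1) ≤ J n := by
    intro n f hf
    have h1 : π (n + 1) f = 0 := hf
    have h2 : π n f = t n (π (n + 1) f) := by rw [← hπt n]; rfl
    change π n f = 0
    rw [h2, h1, map_zero]
  have hJstep : ∀ n, J n ≤ J (n + 1) ⊔ maximalIdeal (MvPowerSeries (Fin d) 𝒪) ^ (n + 1) := by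
    intro n f hf
    have h1 : π n f = 0 := hf
    have h2 : π (n + 1) f ∈ RingHom.ker (t n) := by
      rw [RingHom.mem_ker]
      have : π n f = t n (π (n + 1) f) := by rw [← hπt n]; rfl
      rw [← this, h1]
    rw [hker n, ← hπmax (n + 1), ← Ideal.map_pow] at h2
    obtain ⟨g, hg, hgf⟩ := (Ideal.mem_map_iff_of_surjective _ (hπsurj (n + 1))).mp h2
    have h3 : f = (f - g) + g := by ring
    rw [h3]
    refine Submodule.add_mem_sup ?_ hg
    change π (n + 1) (f - g) = 0
    rw [map_sub, sub_eq_zero]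
    exact hgf.symm
  haveI hScomp := isAdicComplete_mvPowerSeries 𝒪 d
  obtain ⟨hML1, hML2⟩ := mittagLeffler (maximalIdeal (MvPowerSeries (Fin d) 𝒪)) J hJpow hJanti hJstep
  let Jinf : Ideal (MvPowerSeries (Fin d) 𝒪) := ⨅ m, J m
  have hJinf_le : ∀ n, Jinf ≤ J n := fun n => iInf_le _ n
  have hJne : Jinf ≠ ⊤ := by
    intro h
    have h1 : (1 : MvPowerSeries (Fin d) 𝒪) ∈ J 0 := hJinf_le 0 (h ▸ Submodule.mem_top)
    have h2 : π 0 1 = 0 := h1
    rw [map_one] at h2
    exact one_ne_zero h2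
  haveI : Nontrivial (MvPowerSeries (Fin d) 𝒪 ⧸ Jinf) := Ideal.Quotient.nontrivial_iff.mpr hJne
  haveI hloc : IsLocalRing (MvPowerSeries (Fin d) 𝒪 ⧸ Jinf) :=
    IsLocalRing.of_surjective' (Ideal.Quotient.mk Jinf) Ideal.Quotient.mk_surjective
  haveI hlh : IsLocalHom (algebraMap (MvPowerSeries (Fin d) 𝒪) (MvPowerSeries (Fin d) 𝒪 ⧸ Jinf)) :=
    IsLocalHom.of_surjective _ Ideal.Quotient.mk_surjective
  haveI hcomp : IsAdicComplete (maximalIdeal (MvPowerSeries (Fin d) 𝒪 ⧸ Jinf))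
      (MvPowerSeries (Fin d) 𝒪 ⧸ Jinf) :=
    IsLocalRing.isAdicComplete_of_module_finite (𝒪 := MvPowerSeries (Fin d) 𝒪)
  have hlhC : IsLocalHom (algebraMap 𝒪 (MvPowerSeries (Fin d) 𝒪)) := by
    constructor
    intro c hc
    rw [MvPowerSeries.isUnit_iff_constantCoeff] at hc
    simpa [MvPowerSeries.algebraMap_apply] using hc
  have hlh𝒪 : IsLocalHom (algebraMap 𝒪 (MvPowerSeries (Fin d) 𝒪 ⧸ Jinf)) := by
    have : algebraMap 𝒪 (MvPowerSeries (Fin d) 𝒪 ⧸ Jinf) =
        (algebraMap (MvPowerSeries (Fin d) 𝒪) (MvPowerSeries (Fin d) 𝒪 ⧸ Jinf)).comp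
          (algebraMap 𝒪 (MvPowerSeries (Fin d) 𝒪)) := rfl
    rw [this]
    exact RingHom.isLocalHom_comp _ _
  have hmaxinf : (maximalIdeal (MvPowerSeries (Fin d) 𝒪)).map (Ideal.Quotient.mk Jinf) =
      maximalIdeal (MvPowerSeries (Fin d) 𝒪 ⧸ Jinf) :=
    map_maximalIdeal_of_surjective _ Ideal.Quotient.mk_surjective
  refine ⟨MvPowerSeries (Fin d) 𝒪 ⧸ Jinf, inferInstance, hloc, inferInstance, hcomp, inferInstance,
    hlh𝒪, ?_, ?_⟩
  · intro z
    obtain ⟨b, rfl⟩ := IsLocalRing.residue_surjective z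
    obtain ⟨f, rfl⟩ := Ideal.Quotient.mk_surjective b
    refine ⟨MvPowerSeries.constantCoeff f, ?_⟩
    rw [Function.comp_apply, ← sub_eq_zero, ← map_sub, IsLocalRing.residue_eq_zero_iff, ← hmaxinf]
    have h1 : algebraMap 𝒪 (MvPowerSeries (Fin d) 𝒪 ⧸ Jinf) (MvPowerSeries.constantCoeff f) -
        Ideal.Quotient.mk Jinf f =
        Ideal.Quotient.mk Jinf (MvPowerSeries.C (MvPowerSeries.constantCoeff f) - f) := by
      rw [map_sub]; rfl
    rw [h1]
    apply Ideal.mem_map_of_mem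
    rw [mem_maximalIdeal, mem_nonunits_iff, MvPowerSeries.isUnit_iff_constantCoeff]
    simp
  · let p : ∀ n, (MvPowerSeries (Fin d) 𝒪 ⧸ Jinf) →ₐ[𝒪] R n := fun n =>
      Ideal.Quotient.liftₐ Jinf (π n) (fun a ha => hJinf_le n ha)
    have hp : ∀ n f, p n (Ideal.Quotient.mk Jinf f) = π n f := fun n f => rfl
    refine ⟨p, ?_, ?_, ?_, ?_⟩
    · intro n y
      obtain ⟨f, rfl⟩ := hπsurj n y
      exact ⟨Ideal.Quotient.mk Jinf f, hp n f⟩
    · intro n
      ext b
      obtain ⟨f, rfl⟩ := Ideal.Quotient.mk_surjective b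
      change t n (p (n + 1) (Ideal.Quotient.mk Jinf f)) = p n (Ideal.Quotient.mk Jinf f)
      rw [hp, hp, ← hπt n]
      rfl
    · intro n
      rw [← hmaxinf, ← Ideal.map_pow]
      ext b
      obtain ⟨f, rfl⟩ := Ideal.Quotient.mk_surjective b
      rw [RingHom.mem_ker]
      constructor
      · intro h
        have h1 : f ∈ J n := h
        rw [hML1 n] at h1
        obtain ⟨g, hg, c, hc, rfl⟩ := Submodule.mem_sup.mp h1
        rw [map_add, Ideal.Quotient.eq_zero_iff_mem.mpr hg, zero_add]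
        exact Ideal.mem_map_of_mem _ hc
      · intro h
        obtain ⟨g, hg, hgf⟩ := (Ideal.mem_map_iff_of_surjective _
          Ideal.Quotient.mk_surjective).mp h
        rw [← hgf]
        exact hJpow n hg
    · intro a ha
      choose y hy using fun n => hπsurj n (a n)
      obtain ⟨z, hz⟩ := hML2 y (by
        intro n
        change π n (y (n + 1) - y n) = 0
        rw [map_sub, sub_eq_zero, hy n, ← ha n, ← hy (n + 1), ← hπt n]
        rfl)
      refine ⟨Ideal.Quotient.mk Jinf z, fun n => ?_⟩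
      rw [hp, ← hy n, ← sub_eq_zero, ← map_sub]
      exact hz n

end FADeform
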