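import Mathlib
import Fermat.Agent.Deform.AbstractStmt

/-!
# Toolbox for `GaloisRep.IsArtinianTestAlgebra` (work package A1 of S53)
-/

set_option autoImplicit false
set_option linter.style.haveILetI false
set_option linter.unusedSectionVars false
set_option linter.overlappingInstances false

namespace FADeform

open IsLocalRing GaloisRep

section Basic

variable {𝒪 : Type} [CommRing 𝒪] [IsLocalRing 𝒪]
variable {A : Type} [CommRing A] [IsLocalRing A] [Algebra 𝒪 A]

/-- every element of a local `𝒪`-algebra with residue field `k` is congruent to a scalar. -/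
theorem exists_sub_algebraMap_mem
    (hs : Function.Surjective (IsLocalRing.residue A ∘ algebraMap 𝒪 A)) (a : A) :
    ∃ c : 𝒪, a - algebraMap 𝒪 A c ∈ maximalIdeal A := by
  obtain ⟨c, hc⟩ := hs (residue A a)
  refine ⟨c, ?_⟩
  rw [← residue_eq_zero_iff, map_sub, sub_eq_zero]
  exact hc.symm

theorem algebraMap_mem_maximalIdeal_iff (hl : IsLocalHom (algebraMap 𝒪 A)) (c : 𝒪) :
    algebraMap 𝒪 A c ∈ maximalIdeal A ↔ c ∈ maximalIdeal 𝒪 := by
  rw [mem_maximalIdeal, mem_maximalIdeal, mem_nonunits_iff, mem_nonunits_iff, not_iff_not]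
  exact ⟨fun h => hl.map_nonunit c h, fun h => h.map _⟩

namespace TestAlg

variable (h : IsArtinianTestAlgebra 𝒪 A)
include h

theorem exists_sub_mem (a : A) : ∃ c : 𝒪, a - algebraMap 𝒪 A c ∈ maximalIdeal A :=
  exists_sub_algebraMap_mem h.residue_surjective a

theorem algebraMap_mem_iff (c : 𝒪) :
    algebraMap 𝒪 A c ∈ maximalIdeal A ↔ c ∈ maximalIdeal 𝒪 :=
  algebraMap_mem_maximalIdeal_iff h.isLocalHom c

/-- The maximal ideal of a test algebra is nilpotent. -/
theorem exists_pow_eq_bot : ∃ n : ℕ, maximalIdeal A ^ n = ⊥ := by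
  haveI := h.isArtinian
  have h1 : IsNilpotent (⊥ : Ideal A).jacobson := IsArtinianRing.isNilpotent_jacobson_bot
  rw [jacobson_eq_maximalIdeal ⊥ bot_ne_top] at h1
  exact h1

theorem isNilpotent_of_mem {a : A} (ha : a ∈ maximalIdeal A) : IsNilpotent a := by
  obtain ⟨n, hn⟩ := exists_pow_eq_bot h
  refine ⟨n, ?_⟩
  have : a ^ n ∈ maximalIdeal A ^ n := Ideal.pow_mem_pow ha n
  rwa [hn, Ideal.mem_bot] at this

theorem mem_maximalIdeal_iff_isNilpotent {a : A} : a ∈ maximalIdeal A ↔ IsNilpotent a :=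
  ⟨isNilpotent_of_mem h, fun ha => (mem_maximalIdeal a).mpr (mem_nonunits_iff.mpr ha.not_isUnit)⟩

theorem finite_residueField [Finite (ResidueField 𝒪)] : Finite (ResidueField A) := by
  haveI := h.isLocalHom
  refine Finite.of_surjective (ResidueField.map (algebraMap 𝒪 A)) ?_
  intro x
  obtain ⟨c, hc⟩ := h.residue_surjective x
  exact ⟨residue 𝒪 c, by rw [ResidueField.map_residue]; exact hc⟩

/-- A test algebra over `𝒪` with finite residue field is finite. -/
theorem finite [Finite (ResidueField 𝒪)] : Finite A := by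
  haveI := h.isArtinian
  haveI : Finite (A ⧸ maximalIdeal A) := finite_residueField h
  obtain ⟨n, hn⟩ := exists_pow_eq_bot h
  haveI : Finite (A ⧸ maximalIdeal A ^ n) :=
    Ideal.finite_quotient_pow (IsNoetherian.noetherian _) n
  rw [hn] at this
  exact Finite.of_equiv _ (RingEquiv.quotientBot A).toEquiv

end TestAlg

end Basic

section Criterion

variable {𝒪 : Type} [CommRing 𝒪] [IsLocalRing 𝒪]
variable {E : Type} [CommRing E] [Nontrivial E] [Algebra 𝒪 E]

/-- Criterion: an `𝒪`-algebra all of whose elements are "scalar + nilpotent", and in which the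
maximal ideal of `𝒪` becomes nilpotent, is local. -/
theorem isUnit_iff_of_nilpotent
    (h2 : ∀ c ∈ maximalIdeal 𝒪, IsNilpotent (algebraMap 𝒪 E c))
    {x : E} {c : 𝒪} (hc : IsNilpotent (x - algebraMap 𝒪 E c)) : IsUnit x ↔ IsUnit c := by
  constructor
  · intro hx
    by_contra hcu
    have h3 : IsNilpotent (algebraMap 𝒪 E c) := h2 c ((mem_maximalIdeal c).mpr hcu)
    have h4 : IsNilpotent x := by
      have := (Commute.all (x - algebraMap 𝒪 E c) (algebraMap 𝒪 E c)).isNilpotent_add hc h3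
      rwa [sub_add_cancel] at this
    exact h4.not_isUnit hx
  · intro hcu
    have := hc.isUnit_add_right_of_commute (hcu.map (algebraMap 𝒪 E)) (Commute.all _ _)
    rwa [sub_add_cancel] at this

theorem not_isUnit_iff_isNilpotent
    (h1 : ∀ x : E, ∃ c : 𝒪, IsNilpotent (x - algebraMap 𝒪 E c))
    (h2 : ∀ c ∈ maximalIdeal 𝒪, IsNilpotent (algebraMap 𝒪 E c)) (x : E) :
    ¬ IsUnit x ↔ IsNilpotent x := by
  refine ⟨fun hx => ?_, fun hx => hx.not_isUnit⟩
  obtain ⟨c, hc⟩ := h1 x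
  rw [isUnit_iff_of_nilpotent h2 hc] at hx
  have h3 : IsNilpotent (algebraMap 𝒪 E c) := h2 c ((mem_maximalIdeal c).mpr hx)
  have := (Commute.all (x - algebraMap 𝒪 E c) (algebraMap 𝒪 E c)).isNilpotent_add hc h3
  rwa [sub_add_cancel] at this

theorem isLocalRing_of_nilpotent
    (h1 : ∀ x : E, ∃ c : 𝒪, IsNilpotent (x - algebraMap 𝒪 E c))
    (h2 : ∀ c ∈ maximalIdeal 𝒪, IsNilpotent (algebraMap 𝒪 E c)) : IsLocalRing E := by
  refine IsLocalRing.of_nonunits_add fun a b ha hb => ?_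
  rw [mem_nonunits_iff, not_isUnit_iff_isNilpotent h1 h2] at ha hb ⊢
  exact (Commute.all a b).isNilpotent_add ha hb

theorem mem_maximalIdeal_iff_of_nilpotent [IsLocalRing E]
    (h1 : ∀ x : E, ∃ c : 𝒪, IsNilpotent (x - algebraMap 𝒪 E c))
    (h2 : ∀ c ∈ maximalIdeal 𝒪, IsNilpotent (algebraMap 𝒪 E c)) (x : E) :
    x ∈ maximalIdeal E ↔ IsNilpotent x := by
  rw [mem_maximalIdeal, mem_nonunits_iff, not_isUnit_iff_isNilpotent h1 h2]

/-- The criterion produces test algebras (finiteness is used for the Artinian property). -/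
theorem isArtinianTestAlgebra_of_nilpotent [IsLocalRing E] [Finite E]
    (h1 : ∀ x : E, ∃ c : 𝒪, IsNilpotent (x - algebraMap 𝒪 E c))
    (h2 : ∀ c ∈ maximalIdeal 𝒪, IsNilpotent (algebraMap 𝒪 E c)) :
    IsArtinianTestAlgebra 𝒪 E where
  isLocalHom := ⟨fun c hc => by
    have : IsNilpotent (algebraMap 𝒪 E c - algebraMap 𝒪 E c) := by rw [sub_self]; exact IsNilpotent.zero
    exact (isUnit_iff_of_nilpotent h2 this).mp hc⟩
  residue_surjective := fun y => by
    obtain ⟨x, rfl⟩ := residue_surjective y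
    obtain ⟨c, hc⟩ := h1 x
    refine ⟨c, ?_⟩
    rw [Function.comp_apply, eq_comm, ← sub_eq_zero, ← map_sub, residue_eq_zero_iff,
      mem_maximalIdeal_iff_of_nilpotent h1 h2]
    exact hc
  isArtinian := inferInstance

end Criterion

section Subalgebra

variable {𝒪 : Type} [CommRing 𝒪] [IsLocalRing 𝒪]

/-- "every element is scalar + nilpotent, and `𝔪_𝒪` becomes nilpotent". -/
def NilpScalar (𝒪 : Type) [CommRing 𝒪] [IsLocalRing 𝒪] (E : Type) [CommRing E] [Algebra 𝒪 E] :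
    Prop :=
  (∀ x : E, ∃ c : 𝒪, IsNilpotent (x - algebraMap 𝒪 E c)) ∧
    ∀ c ∈ maximalIdeal 𝒪, IsNilpotent (algebraMap 𝒪 E c)

theorem TestAlg.nilpScalar {A : Type} [CommRing A] [IsLocalRing A] [Algebra 𝒪 A]
    (h : IsArtinianTestAlgebra 𝒪 A) : NilpScalar 𝒪 A :=
  ⟨fun x => by
    obtain ⟨c, hc⟩ := TestAlg.exists_sub_mem h x
    exact ⟨c, TestAlg.isNilpotent_of_mem h hc⟩,
   fun c hc => TestAlg.isNilpotent_of_mem h ((TestAlg.algebraMap_mem_iff h c).mpr hc)⟩

theorem NilpScalar.of_injective {E A : Type} [CommRing E] [Algebra 𝒪 E] [CommRing A] [Algebra 𝒪 A]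
    (hA : NilpScalar 𝒪 A) (j : E →ₐ[𝒪] A) (hj : Function.Injective j) : NilpScalar 𝒪 E := by
  refine ⟨fun x => ?_, fun c hc => ?_⟩
  · obtain ⟨c, hc⟩ := hA.1 (j x)
    refine ⟨c, ?_⟩
    rw [← IsNilpotent.map_iff hj, map_sub, AlgHom.commutes]
    exact hc
  · rw [← IsNilpotent.map_iff hj, AlgHom.commutes]
    exact hA.2 c hc

theorem NilpScalar.isLocalRing {E : Type} [CommRing E] [Nontrivial E] [Algebra 𝒪 E]
    (hE : NilpScalar 𝒪 E) : IsLocalRing E :=
  isLocalRing_of_nilpotent hE.1 hE.2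

theorem NilpScalar.isArtinianTestAlgebra {E : Type} [CommRing E] [IsLocalRing E] [Finite E]
    [Algebra 𝒪 E] (hE : NilpScalar 𝒪 E) : IsArtinianTestAlgebra 𝒪 E :=
  isArtinianTestAlgebra_of_nilpotent hE.1 hE.2

theorem NilpScalar.mem_maximalIdeal_iff {E : Type} [CommRing E] [IsLocalRing E]
    [Algebra 𝒪 E] (hE : NilpScalar 𝒪 E) (x : E) : x ∈ maximalIdeal E ↔ IsNilpotent x :=
  mem_maximalIdeal_iff_of_nilpotent hE.1 hE.2 x

variable {A : Type} [CommRing A] [IsLocalRing A] [Algebra 𝒪 A]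

/-- Every `𝒪`-subalgebra of a test algebra is local. -/
theorem TestAlg.isLocalRing_subalgebra (h : IsArtinianTestAlgebra 𝒪 A) (E : Subalgebra 𝒪 A) :
    IsLocalRing E :=
  ((TestAlg.nilpScalar h).of_injective E.val Subtype.val_injective).isLocalRing

/-- Every `𝒪`-subalgebra of a test algebra is a test algebra. -/
theorem TestAlg.subalgebra [Finite (ResidueField 𝒪)] (h : IsArtinianTestAlgebra 𝒪 A)
    (E : Subalgebra 𝒪 A) [IsLocalRing E] : IsArtinianTestAlgebra 𝒪 E :=
  haveI := TestAlg.finite h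
  ((TestAlg.nilpScalar h).of_injective E.val Subtype.val_injective).isArtinianTestAlgebra

theorem TestAlg.mem_maximalIdeal_subalgebra_iff (h : IsArtinianTestAlgebra 𝒪 A)
    (E : Subalgebra 𝒪 A) [IsLocalRing E] (x : E) :
    x ∈ maximalIdeal E ↔ (x : A) ∈ maximalIdeal A := by
  rw [((TestAlg.nilpScalar h).of_injective E.val Subtype.val_injective).mem_maximalIdeal_iff,
    TestAlg.mem_maximalIdeal_iff_isNilpotent h]
  exact (IsNilpotent.map_iff (f := E.val) Subtype.val_injective).symm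

/-- `𝒪`-algebra maps between test algebras map the maximal ideal into the maximal ideal. -/
theorem TestAlg.map_mem_maximalIdeal {B : Type} [CommRing B] [IsLocalRing B] [Algebra 𝒪 B]
    (h : IsArtinianTestAlgebra 𝒪 A) (φ : A →ₐ[𝒪] B) {a : A} (ha : a ∈ maximalIdeal A) :
    φ a ∈ maximalIdeal B := by
  have h1 : IsNilpotent (φ a) := (TestAlg.isNilpotent_of_mem h ha).map φ
  exact (mem_maximalIdeal _).mpr (mem_nonunits_iff.mpr h1.not_isUnit)

theorem TestAlg.map_mem_maximalIdeal_pow {B : Type} [CommRing B] [IsLocalRing B] [Algebra 𝒪 B]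
    (h : IsArtinianTestAlgebra 𝒪 A) (φ : A →ₐ[𝒪] B) {a : A} {n : ℕ}
    (ha : a ∈ maximalIdeal A ^ n) : φ a ∈ maximalIdeal B ^ n := by
  have hle : (maximalIdeal A).map (φ : A →+* B) ≤ maximalIdeal B :=
    Ideal.map_le_iff_le_comap.mpr fun a ha => TestAlg.map_mem_maximalIdeal h φ ha
  have h1 : (φ : A →+* B) a ∈ (maximalIdeal A ^ n).map (φ : A →+* B) := Ideal.mem_map_of_mem _ ha
  rw [Ideal.map_pow] at h1
  exact Ideal.pow_right_mono hle n h1

theorem TestAlg.isLocalHom_algHom {B : Type} [CommRing B] [IsLocalRing B] [Algebra 𝒪 B]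
    (h : IsArtinianTestAlgebra 𝒪 A) (φ : A →ₐ[𝒪] B) : IsLocalHom (φ : A →+* B) :=
  ⟨fun a ha => by
    by_contra hna
    exact (mem_maximalIdeal _).mp (TestAlg.map_mem_maximalIdeal h φ ((mem_maximalIdeal a).mpr hna)) ha⟩

/-- If `φ` is injective and `𝔪_B ^ n = 0` then `𝔪_A ^ n = 0`. -/
theorem TestAlg.pow_eq_bot_of_injective {B : Type} [CommRing B] [IsLocalRing B] [Algebra 𝒪 B]
    (h : IsArtinianTestAlgebra 𝒪 A) (φ : A →ₐ[𝒪] B) (hφ : Function.Injective φ) {n : ℕ}
    (hB : maximalIdeal B ^ n = ⊥) : maximalIdeal A ^ n = ⊥ := by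
  rw [eq_bot_iff]
  intro a ha
  have := TestAlg.map_mem_maximalIdeal_pow h φ ha
  rw [hB, Ideal.mem_bot] at this
  rw [Ideal.mem_bot]
  exact hφ (by rw [this, map_zero])

end Subalgebra

section Resk

variable {𝒪 : Type} [CommRing 𝒪] [IsLocalRing 𝒪]
variable {A : Type} [CommRing A] [IsLocalRing A] [Algebra 𝒪 A]

theorem residueFieldMap_bijective (hl : IsLocalHom (algebraMap 𝒪 A))
    (hs : Function.Surjective (IsLocalRing.residue A ∘ algebraMap 𝒪 A)) :
    Function.Bijective (ResidueField.map (algebraMap 𝒪 A)) := by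
  refine ⟨(ResidueField.map (algebraMap 𝒪 A)).injective, fun x => ?_⟩
  obtain ⟨c, hc⟩ := hs x
  exact ⟨residue 𝒪 c, by rw [ResidueField.map_residue]; exact hc⟩

/-- The reduction map `A → k = ResidueField 𝒪` of a local `𝒪`-algebra with residue field `k`. -/
noncomputable def reskOf (hl : IsLocalHom (algebraMap 𝒪 A))
    (hs : Function.Surjective (IsLocalRing.residue A ∘ algebraMap 𝒪 A)) :
    A →ₐ[𝒪] ResidueField 𝒪 where
  toRingHom := ((RingEquiv.ofBijective _ (residueFieldMap_bijective hl hs)).symm :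
    ResidueField A →+* ResidueField 𝒪).comp (residue A)
  commutes' c := by
    show (RingEquiv.ofBijective _ (residueFieldMap_bijective hl hs)).symm
      (residue A (algebraMap 𝒪 A c)) = residue 𝒪 c
    rw [RingEquiv.symm_apply_eq]
    show _ = ResidueField.map (algebraMap 𝒪 A) (residue 𝒪 c)
    rw [ResidueField.map_residue]

theorem reskOf_eq_zero_iff (hl : IsLocalHom (algebraMap 𝒪 A))
    (hs : Function.Surjective (IsLocalRing.residue A ∘ algebraMap 𝒪 A)) (a : A) :
    reskOf hl hs a = 0 ↔ a ∈ maximalIdeal A := by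
  show (RingEquiv.ofBijective _ (residueFieldMap_bijective hl hs)).symm (residue A a) = 0 ↔ _
  rw [map_eq_zero_iff _ (RingEquiv.injective _), residue_eq_zero_iff]

theorem ker_reskOf (hl : IsLocalHom (algebraMap 𝒪 A))
    (hs : Function.Surjective (IsLocalRing.residue A ∘ algebraMap 𝒪 A)) :
    RingHom.ker (reskOf hl hs) = maximalIdeal A := by
  ext a
  rw [RingHom.mem_ker]
  exact reskOf_eq_zero_iff hl hs a

theorem reskOf_surjective (hl : IsLocalHom (algebraMap 𝒪 A))
    (hs : Function.Surjective (IsLocalRing.residue A ∘ algebraMap 𝒪 A)) :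
    Function.Surjective (reskOf hl hs) := by
  intro y
  obtain ⟨c, rfl⟩ := residue_surjective y
  exact ⟨algebraMap 𝒪 A c, (reskOf hl hs).commutes c⟩

/-- `resk a = residue c` iff `a ≡ c` modulo the maximal ideal. -/
theorem reskOf_eq_residue_iff (hl : IsLocalHom (algebraMap 𝒪 A))
    (hs : Function.Surjective (IsLocalRing.residue A ∘ algebraMap 𝒪 A)) (a : A) (c : 𝒪) :
    reskOf hl hs a = residue 𝒪 c ↔ a - algebraMap 𝒪 A c ∈ maximalIdeal A := by
  rw [← reskOf_eq_zero_iff hl hs, map_sub, AlgHom.commutes, sub_eq_zero]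
  rfl

/-- The reduction map of a test algebra. -/
noncomputable def TestAlg.resk (h : IsArtinianTestAlgebra 𝒪 A) : A →ₐ[𝒪] ResidueField 𝒪 :=
  reskOf h.isLocalHom h.residue_surjective

theorem TestAlg.resk_eq_zero_iff (h : IsArtinianTestAlgebra 𝒪 A) (a : A) :
    TestAlg.resk h a = 0 ↔ a ∈ maximalIdeal A := reskOf_eq_zero_iff _ _ a

theorem TestAlg.ker_resk (h : IsArtinianTestAlgebra 𝒪 A) :
    RingHom.ker (TestAlg.resk h) = maximalIdeal A := ker_reskOf _ _

theorem TestAlg.resk_surjective (h : IsArtinianTestAlgebra 𝒪 A) :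
    Function.Surjective (TestAlg.resk h) := reskOf_surjective _ _

theorem TestAlg.resk_eq_residue_iff (h : IsArtinianTestAlgebra 𝒪 A) (a : A) (c : 𝒪) :
    TestAlg.resk h a = residue 𝒪 c ↔ a - algebraMap 𝒪 A c ∈ maximalIdeal A :=
  reskOf_eq_residue_iff _ _ a c

end Resk

section FibProd

variable (𝒪 : Type) [CommRing 𝒪] [IsLocalRing 𝒪]
variable (A : Type) [CommRing A] [IsLocalRing A] [Algebra 𝒪 A]
variable (B : Type) [CommRing B] [IsLocalRing B] [Algebra 𝒪 B]

/-- The fibre product `A ×_k B` of two local `𝒪`-algebras with residue field `k`. -/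
def fibProd : Subalgebra 𝒪 (A × B) where
  carrier := {x | ∃ c : 𝒪, x.1 - algebraMap 𝒪 A c ∈ maximalIdeal A ∧
    x.2 - algebraMap 𝒪 B c ∈ maximalIdeal B}
  mul_mem' := by
    rintro ⟨a, b⟩ ⟨a', b'⟩ ⟨c, h1, h2⟩ ⟨c', h1', h2'⟩
    refine ⟨c * c', ?_, ?_⟩
    · have : a * a' - algebraMap 𝒪 A (c * c') =
          a * (a' - algebraMap 𝒪 A c') + (a - algebraMap 𝒪 A c) * algebraMap 𝒪 A c' := by
        rw [map_mul]; ring
      show a * a' - algebraMap 𝒪 A (c * c') ∈ _
      rw [this]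
      exact Ideal.add_mem _ (Ideal.mul_mem_left _ _ h1') (Ideal.mul_mem_right _ _ h1)
    · have : b * b' - algebraMap 𝒪 B (c * c') =
          b * (b' - algebraMap 𝒪 B c') + (b - algebraMap 𝒪 B c) * algebraMap 𝒪 B c' := by
        rw [map_mul]; ring
      show b * b' - algebraMap 𝒪 B (c * c') ∈ _
      rw [this]
      exact Ideal.add_mem _ (Ideal.mul_mem_left _ _ h2') (Ideal.mul_mem_right _ _ h2)
  add_mem' := by
    rintro ⟨a, b⟩ ⟨a', b'⟩ ⟨c, h1, h2⟩ ⟨c', h1', h2'⟩
    refine ⟨c + c', ?_, ?_⟩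
    · have : a + a' - algebraMap 𝒪 A (c + c') =
          (a - algebraMap 𝒪 A c) + (a' - algebraMap 𝒪 A c') := by
        rw [map_add]; ring
      show a + a' - algebraMap 𝒪 A (c + c') ∈ _
      rw [this]
      exact Ideal.add_mem _ h1 h1'
    · have : b + b' - algebraMap 𝒪 B (c + c') =
          (b - algebraMap 𝒪 B c) + (b' - algebraMap 𝒪 B c') := by
        rw [map_add]; ring
      show b + b' - algebraMap 𝒪 B (c + c') ∈ _
      rw [this]
      exact Ideal.add_mem _ h2 h2'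
  algebraMap_mem' c := ⟨c, by simp, by simp⟩

variable {𝒪 A B}

theorem mem_fibProd {x : A × B} : x ∈ fibProd 𝒪 A B ↔
    ∃ c : 𝒪, x.1 - algebraMap 𝒪 A c ∈ maximalIdeal A ∧
      x.2 - algebraMap 𝒪 B c ∈ maximalIdeal B := Iff.rfl

variable (𝒪 A B) in
/-- First projection. -/
def fibProd.fst : fibProd 𝒪 A B →ₐ[𝒪] A := (AlgHom.fst 𝒪 A B).comp (fibProd 𝒪 A B).val

variable (𝒪 A B) in
/-- Second projection. -/
def fibProd.snd : fibProd 𝒪 A B →ₐ[𝒪] B := (AlgHom.snd 𝒪 A B).comp (fibProd 𝒪 A B).val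

@[simp] theorem fibProd.fst_apply (x : fibProd 𝒪 A B) : fibProd.fst 𝒪 A B x = (x : A × B).1 := rfl
@[simp] theorem fibProd.snd_apply (x : fibProd 𝒪 A B) : fibProd.snd 𝒪 A B x = (x : A × B).2 := rfl

theorem fibProd.injective_pair :
    Function.Injective (fun x : fibProd 𝒪 A B => (fibProd.fst 𝒪 A B x, fibProd.snd 𝒪 A B x)) :=
  fun _ _ h => Subtype.ext h

instance : Nontrivial (fibProd 𝒪 A B) := inferInstance

theorem fibProd.nilpScalar (hA : IsArtinianTestAlgebra 𝒪 A) (hB : IsArtinianTestAlgebra 𝒪 B) :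
    NilpScalar 𝒪 (fibProd 𝒪 A B) := by
  have key : ∀ (a : A) (b : B), a ∈ maximalIdeal A → b ∈ maximalIdeal B →
      IsNilpotent ((a, b) : A × B) := by
    intro a b ha hb
    obtain ⟨n, hn⟩ := TestAlg.isNilpotent_of_mem hA ha
    obtain ⟨m, hm⟩ := TestAlg.isNilpotent_of_mem hB hb
    refine ⟨n + m, ?_⟩
    rw [Prod.pow_mk, pow_add, hn, zero_mul, pow_add, hm, mul_zero]
    rfl
  refine ⟨fun x => ?_, fun c hc => ?_⟩
  · obtain ⟨c, h1, h2⟩ := x.2
    refine ⟨c, ?_⟩
    rw [← IsNilpotent.map_iff (f := (fibProd 𝒪 A B).val) Subtype.val_injective]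
    exact key _ _ h1 h2
  · rw [← IsNilpotent.map_iff (f := (fibProd 𝒪 A B).val) Subtype.val_injective]
    exact key _ _ ((TestAlg.algebraMap_mem_iff hA c).mpr hc) ((TestAlg.algebraMap_mem_iff hB c).mpr hc)

theorem fibProd.isLocalRing (hA : IsArtinianTestAlgebra 𝒪 A) (hB : IsArtinianTestAlgebra 𝒪 B) :
    IsLocalRing (fibProd 𝒪 A B) :=
  (fibProd.nilpScalar hA hB).isLocalRing

theorem fibProd.isArtinianTestAlgebra [Finite (ResidueField 𝒪)]
    (hA : IsArtinianTestAlgebra 𝒪 A) (hB : IsArtinianTestAlgebra 𝒪 B)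
    [IsLocalRing (fibProd 𝒪 A B)] : IsArtinianTestAlgebra 𝒪 (fibProd 𝒪 A B) :=
  haveI := TestAlg.finite hA
  haveI := TestAlg.finite hB
  (fibProd.nilpScalar hA hB).isArtinianTestAlgebra

theorem fibProd.resk_comp (hA : IsArtinianTestAlgebra 𝒪 A) (hB : IsArtinianTestAlgebra 𝒪 B) :
    (TestAlg.resk hA).comp (fibProd.fst 𝒪 A B) = (TestAlg.resk hB).comp (fibProd.snd 𝒪 A B) := by
  ext x
  obtain ⟨c, h1, h2⟩ := x.2
  rw [AlgHom.comp_apply, AlgHom.comp_apply, fibProd.fst_apply, fibProd.snd_apply,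
    (TestAlg.resk_eq_residue_iff hA _ c).mpr h1, (TestAlg.resk_eq_residue_iff hB _ c).mpr h2]

theorem fibProd.exists_of_resk_eq (hA : IsArtinianTestAlgebra 𝒪 A)
    (hB : IsArtinianTestAlgebra 𝒪 B) (a : A) (b : B)
    (hab : TestAlg.resk hA a = TestAlg.resk hB b) :
    ∃ x : fibProd 𝒪 A B, fibProd.fst 𝒪 A B x = a ∧ fibProd.snd 𝒪 A B x = b := by
  obtain ⟨c, hc⟩ := TestAlg.exists_sub_mem hA a
  have h1 := (TestAlg.resk_eq_residue_iff hA a c).mpr hc
  rw [hab, TestAlg.resk_eq_residue_iff] at h1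
  exact ⟨⟨(a, b), c, hc, h1⟩, rfl, rfl⟩

theorem fibProd.pow_eq_bot (hA : IsArtinianTestAlgebra 𝒪 A) (hB : IsArtinianTestAlgebra 𝒪 B)
    [IsLocalRing (fibProd 𝒪 A B)] [Finite (ResidueField 𝒪)] {n : ℕ}
    (hAn : maximalIdeal A ^ n = ⊥) (hBn : maximalIdeal B ^ n = ⊥) :
    maximalIdeal (fibProd 𝒪 A B) ^ n = ⊥ := by
  have hP := fibProd.isArtinianTestAlgebra hA hB
  rw [eq_bot_iff]
  intro x hx
  have h1 := TestAlg.map_mem_maximalIdeal_pow hP (fibProd.fst 𝒪 A B) hx
  have h2 := TestAlg.map_mem_maximalIdeal_pow hP (fibProd.snd 𝒪 A B) hx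
  rw [hAn, Ideal.mem_bot] at h1
  rw [hBn, Ideal.mem_bot] at h2
  rw [Ideal.mem_bot]
  exact fibProd.injective_pair (Prod.ext h1 h2)

end FibProd

section Quotient

variable {𝒪 : Type} [CommRing 𝒪] [IsLocalRing 𝒪]
variable {A : Type} [CommRing A] [IsLocalRing A] [Algebra 𝒪 A]

theorem isLocalRing_quotient {I : Ideal A} (hI : I ≠ ⊤) : IsLocalRing (A ⧸ I) :=
  haveI : Nontrivial (A ⧸ I) := Ideal.Quotient.nontrivial_iff.mpr hI
  IsLocalRing.of_surjective' (Ideal.Quotient.mk I) Ideal.Quotient.mk_surjective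

theorem mk_mem_maximalIdeal_iff {I : Ideal A} [IsLocalRing (A ⧸ I)] (a : A) :
    Ideal.Quotient.mk I a ∈ maximalIdeal (A ⧸ I) ↔ a ∈ maximalIdeal A := by
  haveI : IsLocalHom (Ideal.Quotient.mk I) :=
    IsLocalHom.of_surjective _ Ideal.Quotient.mk_surjective
  rw [mem_maximalIdeal, mem_maximalIdeal, mem_nonunits_iff, mem_nonunits_iff, not_iff_not]
  exact ⟨fun h => isUnit_of_map_unit (Ideal.Quotient.mk I) a h, fun h => h.map _⟩

theorem maximalIdeal_quotient {I : Ideal A} [IsLocalRing (A ⧸ I)] :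
    maximalIdeal (A ⧸ I) = (maximalIdeal A).map (Ideal.Quotient.mk I) := by
  apply le_antisymm
  · intro x hx
    obtain ⟨a, rfl⟩ := Ideal.Quotient.mk_surjective x
    exact Ideal.mem_map_of_mem _ ((mk_mem_maximalIdeal_iff a).mp hx)
  · rw [Ideal.map_le_iff_le_comap]
    intro a ha
    exact (mk_mem_maximalIdeal_iff a).mpr ha

/-- Quotients of a Noetherian local `𝒪`-algebra (local structure map, residue field `k` finite) by an
ideal containing a power of the maximal ideal are test algebras. -/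
theorem isArtinianTestAlgebra_quotient [Finite (ResidueField 𝒪)] [IsNoetherianRing A]
    (hl : IsLocalHom (algebraMap 𝒪 A))
    (hs : Function.Surjective (IsLocalRing.residue A ∘ algebraMap 𝒪 A))
    {I : Ideal A} [IsLocalRing (A ⧸ I)] {n : ℕ} (hn : maximalIdeal A ^ n ≤ I) :
    IsArtinianTestAlgebra 𝒪 (A ⧸ I) where
  isLocalHom := ⟨fun c hc => by
    by_contra hcu
    have h1 : algebraMap 𝒪 A c ∈ maximalIdeal A :=
      (algebraMap_mem_maximalIdeal_iff hl c).mpr ((mem_maximalIdeal c).mpr hcu)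
    have h2 : Ideal.Quotient.mk I (algebraMap 𝒪 A c) ∈ maximalIdeal (A ⧸ I) :=
      (mk_mem_maximalIdeal_iff _).mpr h1
    exact (mem_maximalIdeal _).mp h2 hc⟩
  residue_surjective := fun y => by
    obtain ⟨x, rfl⟩ := residue_surjective y
    obtain ⟨a, rfl⟩ := Ideal.Quotient.mk_surjective x
    obtain ⟨c, hc⟩ := exists_sub_algebraMap_mem hs a
    refine ⟨c, ?_⟩
    rw [Function.comp_apply, eq_comm, ← sub_eq_zero, ← map_sub, residue_eq_zero_iff]
    have : Ideal.Quotient.mk I a - algebraMap 𝒪 (A ⧸ I) c =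
        Ideal.Quotient.mk I (a - algebraMap 𝒪 A c) := by
      rw [map_sub]; rfl
    rw [this]
    exact (mk_mem_maximalIdeal_iff _).mpr hc
  isArtinian := by
    haveI : Finite (A ⧸ maximalIdeal A) :=
      Finite.of_surjective _ (residueFieldMap_bijective hl hs).2
    haveI : Finite (A ⧸ maximalIdeal A ^ n) :=
      Ideal.finite_quotient_pow (IsNoetherian.noetherian _) n
    haveI : Finite (A ⧸ I) :=
      Finite.of_surjective (Ideal.Quotient.factor hn) (Ideal.Quotient.factor_surjective hn)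
    infer_instance

theorem maximalIdeal_quotient_pow_eq_bot {I : Ideal A} [IsLocalRing (A ⧸ I)] {n : ℕ}
    (hn : maximalIdeal A ^ n ≤ I) : maximalIdeal (A ⧸ I) ^ n = ⊥ := by
  rw [maximalIdeal_quotient, ← Ideal.map_pow, Ideal.map_eq_bot_iff_le_ker, Ideal.mk_ker]
  exact hn

end Quotient

section Examples

variable (𝒪 : Type) [CommRing 𝒪] [IsLocalRing 𝒪]

/-- The residue field is a test algebra. -/
theorem isArtinianTestAlgebra_residueField : IsArtinianTestAlgebra 𝒪 (ResidueField 𝒪) where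
  isLocalHom := ⟨fun c hc => by
    by_contra hcu
    have : residue 𝒪 c = 0 := (residue_eq_zero_iff c).mpr ((mem_maximalIdeal c).mpr hcu)
    have h2 : algebraMap 𝒪 (ResidueField 𝒪) c = 0 := this
    rw [h2] at hc
    exact not_isUnit_zero hc⟩
  residue_surjective := fun y => by
    obtain ⟨x, rfl⟩ := residue_surjective y
    obtain ⟨c, rfl⟩ := residue_surjective x
    exact ⟨c, rfl⟩
  isArtinian := inferInstance

theorem maximalIdeal_residueField : maximalIdeal (ResidueField 𝒪) = ⊥ :=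
  IsLocalRing.isField_iff_maximalIdeal_eq.mp (Field.toIsField _)

theorem adjoin_residueField_eq_top (s : Set (ResidueField 𝒪)) : Algebra.adjoin 𝒪 s = ⊤ := by
  rw [eq_top_iff]
  intro y _
  obtain ⟨c, rfl⟩ := residue_surjective y
  exact Subalgebra.algebraMap_mem _ c

theorem dualNumber_algebraMap_apply (c : 𝒪) :
    letI := dualNumberAlgebra 𝒪
    algebraMap 𝒪 (DualNumber (ResidueField 𝒪)) c = TrivSqZeroExt.inl (residue 𝒪 c) := rfl

theorem dualNumber_mem_maximalIdeal_iff {k : Type} [Field k] (x : DualNumber k) :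
    x ∈ maximalIdeal (DualNumber k) ↔ x.fst = 0 := by
  rw [mem_maximalIdeal, mem_nonunits_iff, TrivSqZeroExt.isUnit_iff_isUnit_fst, isUnit_iff_ne_zero,
    not_not]

/-- The dual numbers over the residue field are a test algebra. -/
theorem isArtinianTestAlgebra_dualNumber :
    letI := dualNumberAlgebra 𝒪
    IsArtinianTestAlgebra 𝒪 (DualNumber (ResidueField 𝒪)) := by
  letI := dualNumberAlgebra 𝒪
  refine ⟨⟨fun c hc => ?_⟩, fun y => ?_, ?_⟩
  · rw [dualNumber_algebraMap_apply, TrivSqZeroExt.isUnit_iff_isUnit_fst, TrivSqZeroExt.fst_inl] at hc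
    exact isUnit_of_map_unit (residue 𝒪) c hc
  · obtain ⟨x, rfl⟩ := residue_surjective y
    obtain ⟨c, hc⟩ := residue_surjective x.fst
    refine ⟨c, ?_⟩
    rw [Function.comp_apply, eq_comm, ← sub_eq_zero, ← map_sub, residue_eq_zero_iff,
      dualNumber_mem_maximalIdeal_iff, dualNumber_algebraMap_apply, TrivSqZeroExt.fst_sub,
      TrivSqZeroExt.fst_inl, hc, sub_self]
  · haveI : Module.Finite (ResidueField 𝒪) (DualNumber (ResidueField 𝒪)) :=
      inferInstanceAs (Module.Finite (ResidueField 𝒪) (ResidueField 𝒪 × ResidueField 𝒪))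
    exact IsArtinianRing.of_finite (ResidueField 𝒪) _

theorem maximalIdeal_dualNumber_sq {k : Type} [Field k] :
    maximalIdeal (DualNumber k) ^ 2 = ⊥ := by
  rw [eq_bot_iff, pow_two, Ideal.mul_le]
  intro x hx y hy
  rw [dualNumber_mem_maximalIdeal_iff] at hx hy
  rw [Ideal.mem_bot]
  ext
  · rw [TrivSqZeroExt.fst_mul, hx, zero_mul, TrivSqZeroExt.fst_zero]
  · rw [TrivSqZeroExt.snd_mul, hx, hy]
    simp

end Examples

end FADeform
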