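import Mathlib
import Fermat.Agent.Deform.TestAlg
import Fermat.Agent.Deform.Limit

/-!
# [A2] of the S53 blueprint: cardinality bound for minimal pairs of level `n`

`exists_card_bound`: the cotangent space of a test algebra generated by a point of `F` has
dimension bounded by the (finite) number of points of `F` over the dual numbers, hence the
algebra is a quotient of one of finitely many finite rings.
-/

set_option autoImplicit false
set_option linter.style.haveILetI false

namespace FADeform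

open IsLocalRing GaloisRep

section Tangent

variable {𝒪 : Type} [CommRing 𝒪] [IsLocalRing 𝒪]
variable {A : Type} [CommRing A] [IsLocalRing A] [Algebra 𝒪 A]

/-- the derivation attached to a "linear form" on the maximal ideal. -/
noncomputable def tanD (hA : IsArtinianTestAlgebra 𝒪 A) (L : maximalIdeal A →+ ResidueField 𝒪)
    (a : A) : ResidueField 𝒪 :=
  L ⟨a - algebraMap 𝒪 A (TestAlg.exists_sub_mem hA a).choose,
    (TestAlg.exists_sub_mem hA a).choose_spec⟩

theorem tanD_eq (hA : IsArtinianTestAlgebra 𝒪 A) (L : maximalIdeal A →+ ResidueField 𝒪)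
    (h0 : ∀ (c : 𝒪) (hc : algebraMap 𝒪 A c ∈ maximalIdeal A), L ⟨_, hc⟩ = 0)
    (a : A) (c : 𝒪) (hc : a - algebraMap 𝒪 A c ∈ maximalIdeal A) :
    tanD hA L a = L ⟨a - algebraMap 𝒪 A c, hc⟩ := by
  unfold tanD
  set c' := (TestAlg.exists_sub_mem hA a).choose with hc'
  have hc's : a - algebraMap 𝒪 A c' ∈ maximalIdeal A := (TestAlg.exists_sub_mem hA a).choose_spec
  have h1 : algebraMap 𝒪 A (c - c') ∈ maximalIdeal A := by
    have : algebraMap 𝒪 A (c - c') = (a - algebraMap 𝒪 A c') - (a - algebraMap 𝒪 A c) := by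
      rw [map_sub]; ring
    rw [this]
    exact Ideal.sub_mem _ hc's hc
  have h2 : (⟨a - algebraMap 𝒪 A c', hc's⟩ : maximalIdeal A) =
      ⟨a - algebraMap 𝒪 A c, hc⟩ + ⟨_, h1⟩ := by
    ext
    simp only [Submodule.coe_add, map_sub]
    ring
  rw [h2, map_add, h0, add_zero]

theorem tanD_of_mem (hA : IsArtinianTestAlgebra 𝒪 A) (L : maximalIdeal A →+ ResidueField 𝒪)
    (h0 : ∀ (c : 𝒪) (hc : algebraMap 𝒪 A c ∈ maximalIdeal A), L ⟨_, hc⟩ = 0)
    (m : maximalIdeal A) : tanD hA L m = L m := by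
  rw [tanD_eq hA L h0 m 0 (by simp)]
  congr 1
  ext
  simp

theorem tanD_algebraMap (hA : IsArtinianTestAlgebra 𝒪 A) (L : maximalIdeal A →+ ResidueField 𝒪)
    (h0 : ∀ (c : 𝒪) (hc : algebraMap 𝒪 A c ∈ maximalIdeal A), L ⟨_, hc⟩ = 0)
    (c : 𝒪) : tanD hA L (algebraMap 𝒪 A c) = 0 := by
  rw [tanD_eq hA L h0 _ c (by simp)]
  have : (⟨algebraMap 𝒪 A c - algebraMap 𝒪 A c, by simp⟩ : maximalIdeal A) = 0 := by
    ext; simp
  rw [this, map_zero]

theorem tanD_add (hA : IsArtinianTestAlgebra 𝒪 A) (L : maximalIdeal A →+ ResidueField 𝒪)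
    (h0 : ∀ (c : 𝒪) (hc : algebraMap 𝒪 A c ∈ maximalIdeal A), L ⟨_, hc⟩ = 0)
    (a b : A) : tanD hA L (a + b) = tanD hA L a + tanD hA L b := by
  obtain ⟨c, hc⟩ := TestAlg.exists_sub_mem hA a
  obtain ⟨d, hd⟩ := TestAlg.exists_sub_mem hA b
  have hcd : a + b - algebraMap 𝒪 A (c + d) ∈ maximalIdeal A := by
    have : a + b - algebraMap 𝒪 A (c + d) = (a - algebraMap 𝒪 A c) + (b - algebraMap 𝒪 A d) := by
      rw [map_add]; ring
    rw [this]
    exact Ideal.add_mem _ hc hd
  rw [tanD_eq hA L h0 a c hc, tanD_eq hA L h0 b d hd, tanD_eq hA L h0 _ _ hcd, ← map_add]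
  congr 1
  ext
  simp only [Submodule.coe_add, map_add]
  ring

theorem tanD_mul (hA : IsArtinianTestAlgebra 𝒪 A) (L : maximalIdeal A →+ ResidueField 𝒪)
    (h0 : ∀ (c : 𝒪) (hc : algebraMap 𝒪 A c ∈ maximalIdeal A), L ⟨_, hc⟩ = 0)
    (hs : ∀ (a : A) (m : maximalIdeal A), L (a • m) = TestAlg.resk hA a * L m)
    (a b : A) : tanD hA L (a * b) =
      TestAlg.resk hA a * tanD hA L b + TestAlg.resk hA b * tanD hA L a := by
  obtain ⟨c, hc⟩ := TestAlg.exists_sub_mem hA a
  obtain ⟨d, hd⟩ := TestAlg.exists_sub_mem hA b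
  have hcd : a * b - algebraMap 𝒪 A (c * d) ∈ maximalIdeal A := by
    have : a * b - algebraMap 𝒪 A (c * d) =
        b * (a - algebraMap 𝒪 A c) + algebraMap 𝒪 A c * (b - algebraMap 𝒪 A d) := by
      rw [map_mul]; ring
    rw [this]
    exact Ideal.add_mem _ (Ideal.mul_mem_left _ _ hc) (Ideal.mul_mem_left _ _ hd)
  have hac : TestAlg.resk hA a = TestAlg.resk hA (algebraMap 𝒪 A c) := by
    rw [← sub_eq_zero, ← map_sub, TestAlg.resk_eq_zero_iff]
    exact hc
  rw [tanD_eq hA L h0 a c hc, tanD_eq hA L h0 b d hd, tanD_eq hA L h0 _ _ hcd, hac, ← hs, ← hs,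
    ← map_add]
  congr 1
  ext
  simp only [Submodule.coe_add, map_mul, Submodule.coe_smul, smul_eq_mul]
  ring

/-- The `𝒪`-algebra map to the dual numbers attached to a linear form. -/
noncomputable def tanHom (hA : IsArtinianTestAlgebra 𝒪 A) (L : maximalIdeal A →+ ResidueField 𝒪)
    (h0 : ∀ (c : 𝒪) (hc : algebraMap 𝒪 A c ∈ maximalIdeal A), L ⟨_, hc⟩ = 0)
    (hs : ∀ (a : A) (m : maximalIdeal A), L (a • m) = TestAlg.resk hA a * L m) :
    letI := dualNumberAlgebra 𝒪
    A →ₐ[𝒪] DualNumber (ResidueField 𝒪) :=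
  letI := dualNumberAlgebra 𝒪
  { toFun := fun a => TrivSqZeroExt.inl (TestAlg.resk hA a) + TrivSqZeroExt.inr (tanD hA L a)
    map_one' := by
      have : tanD hA L 1 = 0 := by
        have := tanD_algebraMap hA L h0 1
        rwa [map_one] at this
      rw [this, map_one]
      simp
    map_mul' := fun a b => by
      rw [tanD_mul hA L h0 hs, map_mul]
      ext
      · simp
      · simp [mul_comm]
    map_zero' := by
      have : tanD hA L 0 = 0 := by
        have := tanD_algebraMap hA L h0 0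
        rwa [map_zero] at this
      rw [this, map_zero]
      simp
    map_add' := fun a b => by
      rw [tanD_add hA L h0, map_add]
      ext
      · simp
      · simp
    commutes' := fun c => by
      rw [tanD_algebraMap hA L h0, dualNumber_algebraMap_apply, AlgHom.commutes]
      simp }

theorem tanHom_snd (hA : IsArtinianTestAlgebra 𝒪 A) (L : maximalIdeal A →+ ResidueField 𝒪)
    (h0 : ∀ (c : 𝒪) (hc : algebraMap 𝒪 A c ∈ maximalIdeal A), L ⟨_, hc⟩ = 0)
    (hs : ∀ (a : A) (m : maximalIdeal A), L (a • m) = TestAlg.resk hA a * L m)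
    (m : maximalIdeal A) :
    letI := dualNumberAlgebra 𝒪
    (tanHom hA L h0 hs (m : A)).snd = L m := by
  show (TrivSqZeroExt.inl (TestAlg.resk hA (m : A)) + TrivSqZeroExt.inr (tanD hA L m)).snd = L m
  rw [tanD_of_mem hA L h0]
  simp


/-- The identification of residue fields. -/
noncomputable def resEquiv (hA : IsArtinianTestAlgebra 𝒪 A) : ResidueField A ≃+* ResidueField 𝒪 :=
  (RingEquiv.ofBijective _ (residueFieldMap_bijective hA.isLocalHom hA.residue_surjective)).symm

theorem resk_eq_resEquiv (hA : IsArtinianTestAlgebra 𝒪 A) (a : A) :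
    TestAlg.resk hA a = resEquiv hA (residue A a) := rfl

/-- the additive form on the maximal ideal attached to a functional on the cotangent space. -/
noncomputable def formOfDual (hA : IsArtinianTestAlgebra 𝒪 A)
    (l : Module.Dual (ResidueField A) (CotangentSpace A)) : maximalIdeal A →+ ResidueField 𝒪 :=
  ((resEquiv hA : ResidueField A →+* ResidueField 𝒪) : ResidueField A →+ ResidueField 𝒪).comp
    (l.toAddMonoidHom.comp (maximalIdeal A).toCotangent.toAddMonoidHom)

theorem formOfDual_apply (hA : IsArtinianTestAlgebra 𝒪 A)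
    (l : Module.Dual (ResidueField A) (CotangentSpace A)) (m : maximalIdeal A) :
    formOfDual hA l m = resEquiv hA (l ((maximalIdeal A).toCotangent m)) := rfl

theorem formOfDual_smul (hA : IsArtinianTestAlgebra 𝒪 A)
    (l : Module.Dual (ResidueField A) (CotangentSpace A)) (a : A) (m : maximalIdeal A) :
    formOfDual hA l (a • m) = TestAlg.resk hA a * formOfDual hA l m := by
  rw [formOfDual_apply, formOfDual_apply, resk_eq_resEquiv, ← map_mul, map_smul]
  congr 1
  have : a • (maximalIdeal A).toCotangent m = residue A a • (maximalIdeal A).toCotangent m :=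
    (algebraMap_smul (ResidueField A) a ((maximalIdeal A).toCotangent m)).symm
  rw [this]
  exact map_smul l _ _

end Tangent

section Bound

variable (𝒪 : Type) [CommRing 𝒪] [IsDomain 𝒪] [IsDiscreteValuationRing 𝒪]
  [Finite (ResidueField 𝒪)] (X : Type)
  (F : ∀ (A : Type) [CommRing A] [IsLocalRing A] [Algebra 𝒪 A], Set (X → A))
  (u0 : X → 𝒪)

theorem finrank_cotangentSpace_le (h : IsProRepData 𝒪 X F u0)
    (A : Type) [CommRing A] [IsLocalRing A] [Algebra 𝒪 A] (hA : IsArtinianTestAlgebra 𝒪 A)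
    (u : X → A) (hu : u ∈ F A) (hgen : Algebra.adjoin 𝒪 (Set.range u) = ⊤) :
    letI := dualNumberAlgebra 𝒪
    Module.finrank (ResidueField A) (CotangentSpace A) ≤
      Nat.card (F (DualNumber (ResidueField 𝒪))) := by
  letI := dualNumberAlgebra 𝒪
  have hfinA : Finite A := TestAlg.finite hA
  have hart : IsArtinianRing A := hA.isArtinian
  have hfinκ : Finite (ResidueField A) := TestAlg.finite_residueField hA
  obtain ⟨ϖ, hϖ⟩ := IsDiscreteValuationRing.exists_irreducible 𝒪
  have hϖm : algebraMap 𝒪 A ϖ ∈ maximalIdeal A := by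
    rw [TestAlg.algebraMap_mem_iff hA]
    exact (mem_maximalIdeal _).mpr hϖ.not_isUnit
  set v₀ : CotangentSpace A := (maximalIdeal A).toCotangent ⟨_, hϖm⟩ with hv₀
  set W : Submodule (ResidueField A) (CotangentSpace A) := Submodule.span _ {v₀} with hW
  have h0 : ∀ l ∈ W.dualAnnihilator, ∀ (c : 𝒪) (hc : algebraMap 𝒪 A c ∈ maximalIdeal A),
      formOfDual hA l ⟨_, hc⟩ = 0 := by
    intro l hl c hc
    have hc' : c ∈ maximalIdeal 𝒪 := (TestAlg.algebraMap_mem_iff hA c).mp hc
    rw [hϖ.maximalIdeal_eq, Ideal.mem_span_singleton] at hc'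
    obtain ⟨d, rfl⟩ := hc'
    have h1 : (⟨algebraMap 𝒪 A (ϖ * d), hc⟩ : maximalIdeal A) =
        algebraMap 𝒪 A d • ⟨_, hϖm⟩ := by
      ext
      simp only [map_mul, Submodule.coe_smul, smul_eq_mul]
      ring
    rw [h1, formOfDual_smul, formOfDual_apply]
    have h2 : l v₀ = 0 := (Submodule.mem_dualAnnihilator l).mp hl v₀
      (Submodule.mem_span_singleton_self v₀)
    rw [← hv₀, h2, map_zero, mul_zero]
  have hfinF : Finite (F (DualNumber (ResidueField 𝒪))) := h.tangent.to_subtype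
  let Φ : W.dualAnnihilator → F (DualNumber (ResidueField 𝒪)) := fun l =>
    ⟨fun x => tanHom hA (formOfDual hA l) (h0 l l.2) (formOfDual_smul hA l) (u x),
      h.map A _ hA (isArtinianTestAlgebra_dualNumber 𝒪) _ u hu⟩
  have hΦ : Function.Injective Φ := by
    intro l l' hll
    have h1 : tanHom hA (formOfDual hA l) (h0 l l.2) (formOfDual_smul hA l) =
        tanHom hA (formOfDual hA l') (h0 l' l'.2) (formOfDual_smul hA l') := by
      refine AlgHom.ext_of_adjoin_eq_top hgen ?_
      rintro _ ⟨x, rfl⟩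
      exact congrFun (congrArg Subtype.val hll) x
    ext v
    obtain ⟨m, rfl⟩ := Ideal.toCotangent_surjective _ v
    have h2 := tanHom_snd hA (formOfDual hA l) (h0 l l.2) (formOfDual_smul hA l) m
    have h3 := tanHom_snd hA (formOfDual hA l') (h0 l' l'.2) (formOfDual_smul hA l') m
    rw [h1, h3, formOfDual_apply, formOfDual_apply] at h2
    exact ((resEquiv hA).injective h2).symm
  have hcard : Nat.card W.dualAnnihilator ≤ Nat.card (F (DualNumber (ResidueField 𝒪))) :=
    Nat.card_le_card_of_injective Φ hΦ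
  have hpow : Nat.card W.dualAnnihilator =
      Nat.card (ResidueField A) ^ Module.finrank (ResidueField A) W.dualAnnihilator :=
    Module.natCard_eq_pow_finrank (K := ResidueField A) (V := W.dualAnnihilator)
  have hdim := Subspace.finrank_add_finrank_dualAnnihilator_eq W
  have hW1 : Module.finrank (ResidueField A) W ≤ 1 := by
    have := finrank_span_le_card (R := ResidueField A) ({v₀} : Set (CotangentSpace A))
    simpa using this
  have h2 : 2 ≤ Nat.card (ResidueField A) := by
    exact Finite.one_lt_card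
  have hlt : Module.finrank (ResidueField A) W.dualAnnihilator <
      Nat.card (ResidueField A) ^ Module.finrank (ResidueField A) W.dualAnnihilator :=
    Nat.lt_pow_self h2
  omega


end Bound

theorem exists_card_bound
    (𝒪 : Type) [CommRing 𝒪] [IsDomain 𝒪] [IsDiscreteValuationRing 𝒪]
    [Finite (ResidueField 𝒪)] (X : Type)
    (F : ∀ (A : Type) [CommRing A] [IsLocalRing A] [Algebra 𝒪 A], Set (X → A))
    (u0 : X → 𝒪) (h : IsProRepData 𝒪 X F u0) (n : ℕ) :
    ∃ c : ℕ, ∀ (A : Type) [CommRing A] [IsLocalRing A] [Algebra 𝒪 A], IsArtinianTestAlgebra 𝒪 A →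
      maximalIdeal A ^ n = ⊥ → ∀ u ∈ F A, Algebra.adjoin 𝒪 (Set.range u) = ⊤ → Nat.card A ≤ c := by
  letI := dualNumberAlgebra 𝒪
  set τ := Nat.card (F (DualNumber (ResidueField 𝒪))) with hτ
  let ψ : ∀ g : ℕ, MvPolynomial (Fin g) 𝒪 →ₐ[𝒪] ResidueField 𝒪 :=
    fun g => MvPolynomial.aeval (fun _ => 0)
  let J : ∀ g : ℕ, Ideal (MvPolynomial (Fin g) 𝒪) := fun g => RingHom.ker (ψ g)
  refine ⟨(Finset.range (τ + 1)).sup (fun g => Nat.card (MvPolynomial (Fin g) 𝒪 ⧸ J g ^ n)), ?_⟩
  intro A _ _ _ hA hn u hu hgen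
  have hfr := finrank_cotangentSpace_le 𝒪 X F u0 h A hA u hu hgen
  have hart : IsArtinianRing A := hA.isArtinian
  rw [← spanFinrank_maximalIdeal_eq_finrank_cotangentSpace] at hfr
  obtain ⟨s, hs, hspan⟩ := Submodule.FG.exists_span_finset_card_eq_spanFinrank
    (maximalIdeal A).fg_of_isNoetherianRing
  set g := s.card with hg
  let w : Fin g → A := fun i => (s.equivFin.symm i : A)
  have hw : Ideal.span (Set.range w) = maximalIdeal A := by
    rw [← hspan]
    congr 1
    ext a
    constructor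
    · rintro ⟨i, rfl⟩
      exact (s.equivFin.symm i).2
    · intro ha
      exact ⟨s.equivFin ⟨a, ha⟩, by simp [w]⟩
  have hsurj := aeval_surjective_of_span_eq (𝒪 := 𝒪) hA.residue_surjective w hw n hn
  have hψ : (TestAlg.resk hA).comp (MvPolynomial.aeval w) = ψ g := by
    refine MvPolynomial.algHom_ext fun i => ?_
    simp only [AlgHom.comp_apply, MvPolynomial.aeval_X, ψ]
    rw [TestAlg.resk_eq_zero_iff, ← hw]
    exact Ideal.subset_span ⟨i, rfl⟩
  have hJ : (J g).map (MvPolynomial.aeval w : MvPolynomial (Fin g) 𝒪 →ₐ[𝒪] A).toRingHom ≤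
      maximalIdeal A := by
    rw [Ideal.map_le_iff_le_comap]
    intro p hp
    rw [Ideal.mem_comap, ← TestAlg.resk_eq_zero_iff hA]
    have : ψ g p = 0 := hp
    rw [← hψ] at this
    exact this
  have hJn : J g ^ n ≤ RingHom.ker (MvPolynomial.aeval w : MvPolynomial (Fin g) 𝒪 →ₐ[𝒪] A).toRingHom := by
    intro p hp
    have h1 := Ideal.mem_map_of_mem (MvPolynomial.aeval w : MvPolynomial (Fin g) 𝒪 →ₐ[𝒪] A).toRingHom hp
    rw [Ideal.map_pow] at h1
    have h2 := Ideal.pow_right_mono hJ n h1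
    rw [hn] at h2
    exact h2
  have hfinq : Finite (MvPolynomial (Fin g) 𝒪 ⧸ J g) := by
    have : Function.Injective (Ideal.Quotient.lift (J g) (ψ g).toRingHom (fun a ha => ha)) :=
      RingHom.lift_injective_of_ker_le_ideal _ _ le_rfl
    exact Finite.of_injective _ this
  have hfin : Finite (MvPolynomial (Fin g) 𝒪 ⧸ J g ^ n) :=
    Ideal.finite_quotient_pow (IsNoetherian.noetherian _) n
  have hle : Nat.card A ≤ Nat.card (MvPolynomial (Fin g) 𝒪 ⧸ J g ^ n) := by
    refine Nat.card_le_card_of_surjective (Ideal.Quotient.lift (J g ^ n)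
      (MvPolynomial.aeval w : MvPolynomial (Fin g) 𝒪 →ₐ[𝒪] A).toRingHom (fun a ha => hJn ha)) ?_
    exact Ideal.Quotient.lift_surjective_of_surjective _ _ hsurj
  refine hle.trans ?_
  exact Finset.le_sup (f := fun g => Nat.card (MvPolynomial (Fin g) 𝒪 ⧸ J g ^ n))
    (Finset.mem_range.mpr (by omega))

end FADeform
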