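import Fermat.Agent.Deform.UnivLevelAux
import Fermat.Agent.Deform.CardBound

/-!
# Universal pair of level `n` (WP-A3 of S53): wrapper around `exists_universal_level_of_bound`.
-/

set_option autoImplicit false

namespace FADeform

open IsLocalRing GaloisRep

theorem exists_universal_level
    (𝒪 : Type) [CommRing 𝒪] [IsDomain 𝒪] [IsDiscreteValuationRing 𝒪]
    [Finite (ResidueField 𝒪)] (X : Type)
    (F : ∀ (A : Type) [CommRing A] [IsLocalRing A] [Algebra 𝒪 A], Set (X → A))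
    (u0 : X → 𝒪) (h : IsProRepData 𝒪 X F u0) (n : ℕ) :
    ∃ (R : Type) (_ : CommRing R) (_ : IsLocalRing R) (_ : Algebra 𝒪 R),
      IsArtinianTestAlgebra 𝒪 R ∧ maximalIdeal R ^ (n + 1) = ⊥ ∧
      ∃ u ∈ F R, Algebra.adjoin 𝒪 (Set.range u) = ⊤ ∧
        ∀ (A : Type) [CommRing A] [IsLocalRing A] [Algebra 𝒪 A], IsArtinianTestAlgebra 𝒪 A →
          maximalIdeal A ^ (n + 1) = ⊥ → ∀ v ∈ F A, ∃ φ : R →ₐ[𝒪] A, ∀ x, φ (u x) = v x :=
  exists_universal_level_of_bound 𝒪 X F u0 h n (exists_card_bound 𝒪 X F u0 h (n + 1))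

end FADeform
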