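import Fermat.Agent.Deform.AbstractStmt
import Fermat.Agent.Deform.UnivLevel
import Fermat.Agent.Deform.Limit

/-!
# Abstract pro-representability: assembly (WP-A5 of S53)
-/

set_option autoImplicit false

namespace FADeform

open IsLocalRing GaloisRep

section Aux

variable {𝒪 : Type} [CommRing 𝒪] [IsLocalRing 𝒪]

/-- `𝒪`-algebra homs into local algebras with residue field `k` send the maximal ideal into the
maximal ideal. -/
theorem A5_map_mem_maximalIdeal
    {A B : Type} [CommRing A] [IsLocalRing A] [Algebra 𝒪 A] [CommRing B] [IsLocalRing B] [Algebra 𝒪 B]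
    (hB : Function.Surjective (IsLocalRing.residue B ∘ algebraMap 𝒪 B))
    (φ : A →ₐ[𝒪] B) {a : A} (ha : a ∈ maximalIdeal A) : φ a ∈ maximalIdeal B := by
  by_contra hb
  have hbu : IsUnit (φ a) := by
    by_contra h
    exact hb ((mem_maximalIdeal _).mpr h)
  obtain ⟨c, hc⟩ := hB (IsLocalRing.residue B (φ a))
  have hc' : φ a - algebraMap 𝒪 B c ∈ maximalIdeal B := by
    rw [← IsLocalRing.residue_eq_zero_iff, map_sub, sub_eq_zero]
    exact hc.symm
  have hcB : IsUnit (algebraMap 𝒪 B c) := by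
    by_contra h
    have h1 : algebraMap 𝒪 B c ∈ maximalIdeal B := (mem_maximalIdeal _).mpr h
    have h2 : φ a ∈ maximalIdeal B := by
      have := (maximalIdeal B).add_mem hc' h1
      simpa using this
    exact hb h2
  have hcO : IsUnit c := by
    by_contra h
    -- then `c ∈ 𝔪_𝒪`; `1 + c * y` is a unit for all `y`
    obtain ⟨y, hy⟩ := hB (IsLocalRing.residue B (↑(hcB.unit⁻¹) : B))
    have h1 : IsUnit (1 - c * y) := by
      have hmem : c * y ∈ maximalIdeal 𝒪 := Ideal.mul_mem_right _ _ ((mem_maximalIdeal _).mpr h)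
      by_contra h2
      have h3 : (1 - c * y) ∈ maximalIdeal 𝒪 := (mem_maximalIdeal _).mpr h2
      have : (1 : 𝒪) ∈ maximalIdeal 𝒪 := by
        have := (maximalIdeal 𝒪).add_mem h3 hmem
        simpa using this
      exact (Ideal.ne_top_iff_one _).mp (Ideal.IsMaximal.ne_top inferInstance) this
    have h4 : IsUnit (algebraMap 𝒪 B (1 - c * y)) := h1.map _
    have h5 : IsLocalRing.residue B (algebraMap 𝒪 B (1 - c * y)) = 0 := by
      have hy' : IsLocalRing.residue B (algebraMap 𝒪 B y) = IsLocalRing.residue B (↑(hcB.unit⁻¹) : B) := hy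
      rw [map_sub, map_sub, map_one, map_one, map_mul, map_mul, hy', ← map_mul]
      have : algebraMap 𝒪 B c * (↑(hcB.unit⁻¹) : B) = 1 := hcB.mul_val_inv
      rw [this, map_one, sub_self]
    exact ((mem_maximalIdeal _).mp ((IsLocalRing.residue_eq_zero_iff _).mp h5)) h4
  have hu : IsUnit (a - algebraMap 𝒪 A c) := by
    by_contra h
    have h1 : a - algebraMap 𝒪 A c ∈ maximalIdeal A := (mem_maximalIdeal _).mpr h
    have h2 : algebraMap 𝒪 A c ∈ maximalIdeal A := by
      have := (maximalIdeal A).sub_mem ha h1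
      simpa using this
    exact ((mem_maximalIdeal _).mp h2) (hcO.map _)
  have h6 : IsUnit (φ (a - algebraMap 𝒪 A c)) := hu.map φ
  rw [map_sub, AlgHom.commutes] at h6
  exact ((mem_maximalIdeal _).mp hc') h6

theorem A5_map_pow_le
    {A B : Type} [CommRing A] [IsLocalRing A] [Algebra 𝒪 A] [CommRing B] [IsLocalRing B] [Algebra 𝒪 B]
    (hB : Function.Surjective (IsLocalRing.residue B ∘ algebraMap 𝒪 B))
    (φ : A →ₐ[𝒪] B) (n : ℕ) : (maximalIdeal A ^ n).map (φ : A →+* B) ≤ maximalIdeal B ^ n := by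
  rw [Ideal.map_pow]
  exact Ideal.pow_right_mono (Ideal.map_le_iff_le_comap.mpr fun a ha =>
    Ideal.mem_comap.mpr (A5_map_mem_maximalIdeal hB φ ha)) n

theorem A5_pow_le_ker
    {A B : Type} [CommRing A] [IsLocalRing A] [Algebra 𝒪 A] [CommRing B] [IsLocalRing B] [Algebra 𝒪 B]
    (hB : Function.Surjective (IsLocalRing.residue B ∘ algebraMap 𝒪 B))
    (φ : A →ₐ[𝒪] B) (n : ℕ) (hn : maximalIdeal B ^ n = ⊥) :
    maximalIdeal A ^ n ≤ RingHom.ker (φ : A →+* B) := by
  intro a ha
  have := A5_map_pow_le hB φ n (Ideal.mem_map_of_mem _ ha)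
  rw [hn] at this
  exact this

theorem A5_exists_pow_eq_bot {B : Type} [CommRing B] [IsLocalRing B] [Algebra 𝒪 B]
    (hB : IsArtinianTestAlgebra 𝒪 B) : ∃ N, maximalIdeal B ^ (N + 1) = ⊥ := by
  haveI := hB.isArtinian
  obtain ⟨n, hn⟩ := (isArtinianRing_iff_isNilpotent_maximalIdeal B).mp inferInstance
  refine ⟨n, ?_⟩
  rw [pow_succ, hn]
  simp

instance A5_nontrivial_quot (A : Type) [CommRing A] [IsLocalRing A] (n : ℕ) :
    Nontrivial (A ⧸ maximalIdeal A ^ (n + 1)) :=
  Ideal.Quotient.nontrivial_iff.mpr fun h =>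
    (Ideal.IsMaximal.ne_top (inferInstance : (maximalIdeal A).IsMaximal))
      (top_le_iff.mp (h ▸ Ideal.pow_le_self (Nat.succ_ne_zero n)))

instance A5_isLocalRing_quot (A : Type) [CommRing A] [IsLocalRing A] (n : ℕ) :
    IsLocalRing (A ⧸ maximalIdeal A ^ (n + 1)) :=
  IsLocalRing.of_surjective' (Ideal.Quotient.mk _) Ideal.Quotient.mk_surjective

theorem A5_maximalIdeal_quot (A : Type) [CommRing A] [IsLocalRing A] (n : ℕ) :
    maximalIdeal (A ⧸ maximalIdeal A ^ (n + 1)) =
      (maximalIdeal A).map (Ideal.Quotient.mk (maximalIdeal A ^ (n + 1))) := by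
  have hloc : IsLocalHom (Ideal.Quotient.mk (maximalIdeal A ^ (n + 1))) :=
    IsLocalHom.of_surjective _ Ideal.Quotient.mk_surjective
  apply le_antisymm
  · intro x hx
    obtain ⟨a, rfl⟩ := Ideal.Quotient.mk_surjective x
    apply Ideal.mem_map_of_mem
    rw [mem_maximalIdeal] at hx ⊢
    exact fun h => hx (h.map _)
  · rw [Ideal.map_le_iff_le_comap]
    intro a ha
    exact Ideal.mem_comap.mpr (map_nonunit _ a ha)

theorem A5_maximalIdeal_quot_pow (A : Type) [CommRing A] [IsLocalRing A] (n : ℕ) :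
    maximalIdeal (A ⧸ maximalIdeal A ^ (n + 1)) ^ (n + 1) = ⊥ := by
  rw [A5_maximalIdeal_quot, ← Ideal.map_pow, Ideal.map_quotient_self]

theorem A5_isArtinianTestAlgebra_quot (A : Type) [CommRing A] [IsLocalRing A] [IsNoetherianRing A]
    [Algebra 𝒪 A] (h1 : IsLocalHom (algebraMap 𝒪 A))
    (h2 : Function.Surjective (IsLocalRing.residue A ∘ algebraMap 𝒪 A)) (n : ℕ) :
    IsArtinianTestAlgebra 𝒪 (A ⧸ maximalIdeal A ^ (n + 1)) where
  isLocalHom := by
    have hloc : IsLocalHom (Ideal.Quotient.mk (maximalIdeal A ^ (n + 1))) :=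
      IsLocalHom.of_surjective _ Ideal.Quotient.mk_surjective
    have : algebraMap 𝒪 (A ⧸ maximalIdeal A ^ (n + 1)) =
        (Ideal.Quotient.mk (maximalIdeal A ^ (n + 1))).comp (algebraMap 𝒪 A) := rfl
    rw [this]
    exact RingHom.isLocalHom_comp _ _
  residue_surjective := by
    intro x
    obtain ⟨y, rfl⟩ := IsLocalRing.residue_surjective x
    obtain ⟨a, rfl⟩ := Ideal.Quotient.mk_surjective y
    obtain ⟨c, hc⟩ := h2 (IsLocalRing.residue A a)
    refine ⟨c, ?_⟩
    have hc' : algebraMap 𝒪 A c - a ∈ maximalIdeal A := by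
      rw [← IsLocalRing.residue_eq_zero_iff, map_sub, sub_eq_zero]
      exact hc
    show IsLocalRing.residue _ (Ideal.Quotient.mk _ (algebraMap 𝒪 A c)) = _
    rw [← sub_eq_zero, ← map_sub, ← map_sub, IsLocalRing.residue_eq_zero_iff, A5_maximalIdeal_quot]
    exact Ideal.mem_map_of_mem _ hc'
  isArtinian := by
    rw [isArtinianRing_iff_isNilpotent_maximalIdeal]
    exact ⟨n + 1, A5_maximalIdeal_quot_pow A n⟩

/-- Two algebra homs out of `R` that agree on a generating set are equal. -/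
theorem A5_algHom_ext_of_adjoin {X R B : Type} [CommRing R] [Algebra 𝒪 R] [CommRing B] [Algebra 𝒪 B]
    {u : X → R} (hu : Algebra.adjoin 𝒪 (Set.range u) = ⊤) {α β : R →ₐ[𝒪] B}
    (h : ∀ x, α (u x) = β (u x)) : α = β := by
  apply AlgHom.ext_of_adjoin_eq_top hu
  rintro _ ⟨x, rfl⟩
  exact h x

/-- Factor an algebra hom through a surjective one. -/
theorem A5_exists_factor {R R' B : Type} [CommRing R] [Algebra 𝒪 R] [CommRing R'] [Algebra 𝒪 R']
    [CommRing B] [Algebra 𝒪 B] (p : R →ₐ[𝒪] R') (hp : Function.Surjective p) (q : R →ₐ[𝒪] B)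
    (hker : RingHom.ker (p : R →+* R') ≤ RingHom.ker (q : R →+* B)) :
    ∃ q' : R' →ₐ[𝒪] B, q'.comp p = q := by
  refine ⟨(Ideal.Quotient.liftₐ (RingHom.ker (p : R →+* R')) q (fun a ha => hker ha)).comp
    (Ideal.quotientKerAlgEquivOfSurjective hp).symm.toAlgHom, ?_⟩
  ext a
  have : (Ideal.quotientKerAlgEquivOfSurjective hp).symm (p a) = Ideal.Quotient.mk _ a := by
    rw [AlgEquiv.symm_apply_eq]
    rfl
  show (Ideal.Quotient.liftₐ (RingHom.ker (p : R →+* R')) q (fun a ha => hker ha))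
    ((Ideal.quotientKerAlgEquivOfSurjective hp).symm (p a)) = q a
  rw [this]
  rfl

end Aux

theorem hasUniversal_of_isProRepData
    (𝒪 : Type) [CommRing 𝒪] [IsDomain 𝒪] [IsDiscreteValuationRing 𝒪]
    [IsAdicComplete (maximalIdeal 𝒪) 𝒪] [Finite (ResidueField 𝒪)] (X : Type)
    (F : ∀ (A : Type) [CommRing A] [IsLocalRing A] [Algebra 𝒪 A], Set (X → A))
    (u0 : X → 𝒪) (h : IsProRepData 𝒪 X F u0) : HasUniversal 𝒪 X F := by
  choose R i1 i2 i3 htest hpow u hu hgen huniv using
    fun n => exists_universal_level 𝒪 X F u0 h n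
  -- transition maps
  have hpow' : ∀ n, maximalIdeal (R n) ^ (n + 1 + 1) = ⊥ := fun n => by
    rw [pow_succ, hpow n]; simp
  choose t ht using fun n => huniv (n + 1) (R n) (htest n) (hpow' n) (u n) (hu n)
  have htsurj : ∀ n, Function.Surjective (t n) := by
    intro n
    rw [← AlgHom.range_eq_top, eq_top_iff, ← hgen n, Algebra.adjoin_le_iff]
    rintro _ ⟨x, rfl⟩
    exact ⟨u (n + 1) x, ht n x⟩
  have hker : ∀ n, RingHom.ker (t n) = maximalIdeal (R (n + 1)) ^ (n + 1) := by
    intro n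
    apply le_antisymm
    · haveI : IsNoetherianRing (R (n + 1)) := by
        haveI := (htest (n + 1)).isArtinian
        infer_instance
      have hQ := A5_isArtinianTestAlgebra_quot (𝒪 := 𝒪) (R (n + 1)) (htest (n + 1)).isLocalHom
        (htest (n + 1)).residue_surjective n
      obtain ⟨ψ, hψ⟩ := huniv n (R (n + 1) ⧸ maximalIdeal (R (n + 1)) ^ (n + 1)) hQ
        (A5_maximalIdeal_quot_pow _ n) _
        (h.map _ _ (htest (n + 1)) hQ (Ideal.Quotient.mkₐ 𝒪 _) (u (n + 1)) (hu (n + 1)))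
      have hcomp : ψ.comp (t n) = Ideal.Quotient.mkₐ 𝒪 (maximalIdeal (R (n + 1)) ^ (n + 1)) := by
        apply A5_algHom_ext_of_adjoin (hgen (n + 1))
        intro x
        rw [AlgHom.comp_apply, ht n x, hψ x]
      intro a ha
      have h1 : (ψ.comp (t n)) a = 0 := by
        rw [AlgHom.comp_apply, (RingHom.mem_ker).mp ha, map_zero]
      rw [hcomp] at h1
      exact Ideal.Quotient.eq_zero_iff_mem.mp h1
    · exact A5_pow_le_ker (htest n).residue_surjective (t n) (n + 1) (hpow n)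
  have h0 : maximalIdeal (R 0) = ⊥ := by simpa using hpow 0
  obtain ⟨Rinf, j1, j2, j3, j4, j5, j6, hsurj, p, hpsurj, hpt, hpker, hplift⟩ :=
    exists_limit 𝒪 R htest t htsurj hker h0
  choose uinf huinf using fun x => hplift (fun n => u n x) (fun n => ht n x)
  -- (*) maps into test algebras are determined by their values on `uinf`
  have hstar : ∀ (B : Type) [CommRing B] [IsLocalRing B] [Algebra 𝒪 B], IsArtinianTestAlgebra 𝒪 B →
      ∀ α β : Rinf →ₐ[𝒪] B, (∀ x, α (uinf x) = β (uinf x)) → α = β := by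
    intro B _ _ _ hB α β hαβ
    obtain ⟨N, hN⟩ := A5_exists_pow_eq_bot hB
    obtain ⟨α', hα'⟩ := A5_exists_factor (p N) (hpsurj N) α
      ((hpker N).le.trans (A5_pow_le_ker hB.residue_surjective α (N + 1) hN))
    obtain ⟨β', hβ'⟩ := A5_exists_factor (p N) (hpsurj N) β
      ((hpker N).le.trans (A5_pow_le_ker hB.residue_surjective β (N + 1) hN))
    have : α' = β' := by
      apply A5_algHom_ext_of_adjoin (hgen N)
      intro x
      rw [← huinf x N]
      have h1 : α' (p N (uinf x)) = α (uinf x) := by rw [← hα']; rfl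
      have h2 : β' (p N (uinf x)) = β (uinf x) := by rw [← hβ']; rfl
      rw [h1, h2, hαβ x]
    rw [← hα', ← hβ', this]
  -- (**) existence for test algebras
  have hstar2 : ∀ (B : Type) [CommRing B] [IsLocalRing B] [Algebra 𝒪 B], IsArtinianTestAlgebra 𝒪 B →
      ∀ w ∈ F B, ∃ α : Rinf →ₐ[𝒪] B, ∀ x, α (uinf x) = w x := by
    intro B _ _ _ hB w hw
    obtain ⟨N, hN⟩ := A5_exists_pow_eq_bot hB
    obtain ⟨φ, hφ⟩ := huniv N B hB hN w hw
    exact ⟨φ.comp (p N), fun x => by rw [AlgHom.comp_apply, huinf x N, hφ x]⟩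
  refine ⟨Rinf, j1, j2, j3, j4, j5, j6, hsurj, uinf, ?_, ?_⟩
  · -- `uinf ∈ F Rinf`
    rw [h.complete Rinf j6 hsurj]
    intro B _ _ _ hB q _
    obtain ⟨N, hN⟩ := A5_exists_pow_eq_bot hB
    obtain ⟨q', hq'⟩ := A5_exists_factor (p N) (hpsurj N) q
      ((hpker N).le.trans (A5_pow_le_ker hB.residue_surjective q (N + 1) hN))
    have : (fun x => q (uinf x)) = fun x => q' (u N x) := by
      funext x
      rw [← hq', AlgHom.comp_apply, huinf x N]
    rw [this]
    exact h.map _ _ (htest N) hB q' (u N) (hu N)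
  · intro A _ _ _ _ _ hA1 hA2 v hv
    have hQ := fun n => A5_isArtinianTestAlgebra_quot (𝒪 := 𝒪) A hA1 hA2 n
    have hvn : ∀ n, (fun x => Ideal.Quotient.mkₐ 𝒪 (maximalIdeal A ^ (n + 1)) (v x)) ∈
        F (A ⧸ maximalIdeal A ^ (n + 1)) := fun n =>
      (h.complete A hA1 hA2 v).mp hv _ (hQ n) (Ideal.Quotient.mkₐ 𝒪 _)
        (Ideal.Quotient.mkₐ_surjective 𝒪 _)
    choose g' hg' using fun n => hstar2 _ (hQ n) _ (hvn n)
    have hg'compat : ∀ {m n : ℕ} (hle : m ≤ n),
        (Ideal.Quotient.factorₐ 𝒪 (Ideal.pow_le_pow_right (I := maximalIdeal A)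
          (Nat.succ_le_succ hle))).comp (g' n) = g' m := by
      intro m n hle
      apply hstar _ (hQ m)
      intro x
      rw [AlgHom.comp_apply, hg' n x, hg' m x]
      rfl
    let g : (n : ℕ) → Rinf →ₐ[𝒪] A ⧸ maximalIdeal A ^ n := fun n =>
      (Ideal.Quotient.factorₐ 𝒪 (Ideal.pow_le_pow_right (I := maximalIdeal A) (Nat.le_succ n))).comp
        (g' n)
    have hg : ∀ {m n : ℕ} (hle : m ≤ n),
        (Ideal.Quotient.factorₐ 𝒪 (Ideal.pow_le_pow_right (I := maximalIdeal A) hle)).comp (g n)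
          = g m := by
      intro m n hle
      show _ = (Ideal.Quotient.factorₐ 𝒪 _).comp (g' m)
      rw [← hg'compat hle]
      ext a
      obtain ⟨b, hb⟩ := Ideal.Quotient.mk_surjective (g' n a)
      simp only [g, AlgHom.comp_apply, ← hb]
      rfl
    have hgv : ∀ n x, g n (uinf x) = Ideal.Quotient.mk _ (v x) := by
      intro n x
      simp only [g, AlgHom.comp_apply, hg' n x]
      rfl
    refine ⟨IsAdicComplete.liftAlgHom (maximalIdeal A) g hg, ?_, ?_⟩
    · intro x
      apply IsHausdorff.eq_iff_smodEq (I := maximalIdeal A) |>.mpr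
      intro n
      rw [SModEq, smul_eq_mul, Ideal.mul_top]
      have := IsAdicComplete.mk_liftAlgHom (maximalIdeal A) g hg n (uinf x)
      rw [hgv n x] at this
      exact this
    · intro φ' hφ'
      apply IsAdicComplete.algHom_ext (maximalIdeal A)
      intro n
      rw [IsAdicComplete.mkₐ_comp_liftAlgHom]
      -- reduce to level `n+1`
      have h1 : (Ideal.Quotient.mkₐ 𝒪 (maximalIdeal A ^ (n + 1))).comp φ' = g' n := by
        apply hstar _ (hQ n)
        intro x
        rw [AlgHom.comp_apply, hφ' x, hg' n x]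
      show _ = (Ideal.Quotient.factorₐ 𝒪 _).comp (g' n)
      rw [← h1]
      ext a
      rfl

end FADeform
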