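import Mathlib

/-!
# Burnside's theorem in dimension two
-/

set_option autoImplicit false

namespace FADeform

open Module

/-- Burnside's theorem for a two dimensional irreducible representation over an algebraically
closed field: the image spans the full endomorphism algebra. -/
theorem burnside_two {K W G : Type*} [Field K] [IsAlgClosed K] [AddCommGroup W] [Module K W]
    [Monoid G] (hW : Module.finrank K W = 2) (r : G →* Module.End K W)
    (hirr : ∀ U : Submodule K W, (∀ g, ∀ x ∈ U, r g x ∈ U) → U = ⊥ ∨ U = ⊤) :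
    Submodule.span K (Set.range r) = ⊤ := by
  have : FiniteDimensional K W := Module.finite_of_finrank_eq_succ hW
  have : Nontrivial W := Module.nontrivial_of_finrank_pos (R := K) (by omega)
  set S := Submodule.span K (Set.range r) with hS
  have hmem : ∀ g, r g ∈ S := fun g => Submodule.subset_span ⟨g, rfl⟩
  have hone : (1 : Module.End K W) ∈ S := by simpa using hmem 1
  have hmulr : ∀ g, ∀ s ∈ S, r g * s ∈ S := by
    intro g s hs
    induction hs using Submodule.span_induction with
    | mem x hx => obtain ⟨h, rfl⟩ := hx; rw [← map_mul]; exact hmem _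
    | zero => simp
    | add x y _ _ hx hy => rw [mul_add]; exact S.add_mem hx hy
    | smul a x _ hx => rw [mul_smul_comm]; exact S.smul_mem a hx
  have hmul : ∀ t ∈ S, ∀ s ∈ S, t * s ∈ S := by
    intro t ht s hs
    induction ht using Submodule.span_induction with
    | mem x hx => obtain ⟨h, rfl⟩ := hx; exact hmulr h s hs
    | zero => simp
    | add x y _ _ hx hy => rw [add_mul]; exact S.add_mem hx hy
    | smul a x _ hx => rw [smul_mul_assoc]; exact S.smul_mem a hx
  -- transitivity
  have htrans : ∀ w : W, w ≠ 0 → ∀ x : W, ∃ s ∈ S, s w = x := by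
    intro w hw x
    let U : Submodule K W := S.map (LinearMap.applyₗ w)
    have hU : U = ⊥ ∨ U = ⊤ := by
      apply hirr
      rintro g _ ⟨s, hs, rfl⟩
      exact ⟨r g * s, hmulr g s hs, rfl⟩
    have hwU : w ∈ U := ⟨1, hone, rfl⟩
    rcases hU with hU | hU
    · rw [hU] at hwU; exact absurd ((Submodule.mem_bot K).mp hwU) hw
    · have : x ∈ U := by rw [hU]; trivial
      obtain ⟨s, hs, hsx⟩ := this
      exact ⟨s, hs, hsx⟩
  -- a nonzero singular element
  obtain ⟨B, hBS, hB0, u, hu0, hBu⟩ : ∃ B ∈ S, B ≠ 0 ∧ ∃ u : W, u ≠ 0 ∧ B u = 0 := by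
    obtain ⟨v₀, hv₀⟩ := exists_ne (0 : W)
    have hline : ¬ (∀ g, ∀ x ∈ Submodule.span K {v₀}, r g x ∈ Submodule.span K {v₀}) := by
      intro h
      rcases hirr _ h with h | h
      · exact hv₀ ((Submodule.span_singleton_eq_bot).mp h)
      · have h1 := finrank_span_singleton (K := K) hv₀
        rw [h, finrank_top, hW] at h1
        omega
    push Not at hline
    obtain ⟨g, x, hx, hgx⟩ := hline
    obtain ⟨c, hc⟩ := Module.End.exists_eigenvalue (r g)
    obtain ⟨u, hu⟩ := hc.exists_hasEigenvector
    refine ⟨r g - c • 1, S.sub_mem (hmem g) (S.smul_mem c hone), ?_, u, hu.2, ?_⟩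
    · intro h0
      apply hgx
      have : r g x = c • x := by
        have := congrArg (fun T : Module.End K W => T x) h0
        simpa [sub_eq_zero] using this
      rw [this]
      exact Submodule.smul_mem _ c hx
    · simp [hu.apply_eq_smul]
  -- move `u` out of the kernel
  obtain ⟨s₀, hs₀, hBs₀⟩ : ∃ s₀ ∈ S, B (s₀ u) ≠ 0 := by
    obtain ⟨v, hv⟩ : ∃ v, B v ≠ 0 := by
      by_contra h
      push Not at h
      exact hB0 (LinearMap.ext h)
    obtain ⟨s, hs, hsu⟩ := htrans u hu0 v
    exact ⟨s, hs, by rwa [hsu]⟩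
  have hBninj : ¬ Function.Injective B := fun h => hu0 (h (by simpa using hBu))
  obtain ⟨u', hu'0, hu'⟩ : ∃ u' : W, u' ≠ 0 ∧ B (s₀ u') = 0 := by
    by_contra h
    push Not at h
    have hinj : Function.Injective (B * s₀) := by
      rw [← LinearMap.ker_eq_bot, LinearMap.ker_eq_bot']
      intro m hm
      by_contra hm0
      exact h m hm0 hm
    have hsurj : Function.Surjective (B * s₀) := LinearMap.injective_iff_surjective.mp hinj
    have : Function.Surjective B := fun y => by
      obtain ⟨z, hz⟩ := hsurj y
      exact ⟨s₀ z, hz⟩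
    exact hBninj (LinearMap.injective_iff_surjective.mpr this)
  have hli : LinearIndependent K ![u', u] := by
    rw [LinearIndependent.pair_iff]
    intro a b hab
    have h1 : b • B (s₀ u) = 0 := by
      have := congrArg (fun z => B (s₀ z)) hab
      simpa [hu'] using this
    have hb : b = 0 := by
      rcases smul_eq_zero.mp h1 with h | h
      · exact h
      · exact absurd h hBs₀
    subst hb
    have ha : a • u' = 0 := by simpa using hab
    rcases smul_eq_zero.mp ha with h | h
    · exact ⟨h, rfl⟩
    · exact absurd h hu'0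
  let bas : Basis (Fin 2) K W := basisOfLinearIndependentOfCardEqFinrank hli (by simp [hW])
  have hbas0 : bas 0 = u' := by simp [bas]
  have hbas1 : bas 1 = u := by simp [bas]
  have hBu' : B u' ≠ 0 := by
    intro h
    apply hB0
    apply bas.ext
    intro i
    fin_cases i
    · simpa [hbas0] using h
    · simpa [hbas1] using hBu
  rw [eq_top_iff]
  intro T _
  obtain ⟨s₁, hs₁, h1⟩ := htrans (B u') hBu' (T u')
  obtain ⟨s₂, hs₂, h2⟩ := htrans (B (s₀ u)) hBs₀ (T u)
  have hT : T = s₁ * B + s₂ * (B * s₀) := by
    apply bas.ext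
    intro i
    fin_cases i
    · simp [hbas0, h1, hu']
    · simp [hbas1, h2, hBu]
  rw [hT]
  exact S.add_mem (hmul _ hs₁ _ hBS) (hmul _ hs₂ _ (hmul _ hBS _ hs₀))

end FADeform
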