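import Mathlib
import Fermat.Prelude.Def_GaloisRep_DeformationRingData
import Fermat.Prelude.Def_GaloisRep_DeformationCondition

/-!
# Matrix dictionary for deformations: definitions (used by S53)
-/

set_option autoImplicit false

namespace FADeform

open IsLocalRing GaloisRep

/-- The absolute Galois group of `ℚ`. -/
abbrev GQ : Type := AlgebraicClosure ℚ ≃ₐ[ℚ] AlgebraicClosure ℚ

/-- `2 × 2` matrices. -/
abbrev M2 (A : Type) : Type := Matrix (Fin 2) (Fin 2) A

/-- Adic continuity of a matrix valued homomorphism. -/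
def MatCont (A : Type) [CommRing A] [IsLocalRing A] (r : GQ →* M2 A) : Prop :=
  ∀ n : ℕ, ∃ L : IntermediateField ℚ (AlgebraicClosure ℚ), FiniteDimensional ℚ L ∧
    ∀ σ : GQ, (∀ x ∈ L, σ x = x) → ∀ i j, (r σ - 1) i j ∈ maximalIdeal A ^ n

/-- A continuous matrix representation of `GQ`. -/
structure MatRep (A : Type) [CommRing A] [IsLocalRing A] where
  r : GQ →* M2 A
  cont : MatCont A r

namespace MatRep

variable {A : Type} [CommRing A] [IsLocalRing A]

@[ext] theorem ext' {r₁ r₂ : MatRep A} (h : ∀ g, r₁.r g = r₂.r g) : r₁ = r₂ := by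
  cases r₁; cases r₂; congr; exact MonoidHom.ext h

theorem isAdicContinuous_aux (r : MatRep A) :
    GaloisActionIsAdicContinuous A (V := Fin 2 → A)
      ((Matrix.toLinAlgEquiv' : M2 A ≃ₐ[A] _).toAlgHom.toRingHom.toMonoidHom.comp r.r) := by
  intro n
  obtain ⟨L, hL, h⟩ := r.cont n
  refine ⟨L, hL, fun σ hσ v => ?_⟩
  have h1 : ((Matrix.toLinAlgEquiv' : M2 A ≃ₐ[A] _).toAlgHom.toRingHom.toMonoidHom.comp r.r) σ v - v
      = (r.r σ - 1).mulVec v := by
    simp [Matrix.sub_mulVec]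
  rw [h1]
  have h2 : (r.r σ - 1).mulVec v = ∑ i, ∑ j, ((r.r σ - 1) i j) • (v j • (Pi.single i (1 : A) : Fin 2 → A)) := by
    ext i
    fin_cases i <;>
      simp [Matrix.mulVec, dotProduct, Finset.sum_apply, Pi.single_apply, Fin.sum_univ_two]
  rw [h2]
  refine Submodule.sum_mem _ fun i _ => Submodule.sum_mem _ fun j _ => ?_
  exact Submodule.smul_mem_smul (h σ hσ i j) Submodule.mem_top

/-- The `GaloisRepAdic` attached to a matrix representation. -/
noncomputable def toAdic (r : MatRep A) : GaloisRepAdic A where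
  V := Fin 2 → A
  finrank_eq := by simp
  ρ := (Matrix.toLinAlgEquiv' : M2 A ≃ₐ[A] _).toAlgHom.toRingHom.toMonoidHom.comp r.r
  isAdicContinuous := r.isAdicContinuous_aux

@[simp] theorem toAdic_ρ_apply (r : MatRep A) (g : GQ) (v : Fin 2 → A) :
    r.toAdic.ρ g v = (r.r g).mulVec v := rfl

/-- Push a matrix representation forward along a local homomorphism. -/
noncomputable def map {B : Type} [CommRing B] [IsLocalRing B] (φ : A →+* B) (hφ : IsLocalHom φ) (r : MatRep A) :
    MatRep B where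
  r := (φ.mapMatrix (m := Fin 2)).toMonoidHom.comp r.r
  cont := by
    intro n
    obtain ⟨L, hL, h⟩ := r.cont n
    refine ⟨L, hL, fun σ hσ i j => ?_⟩
    have hmap : (maximalIdeal A ^ n).map φ ≤ maximalIdeal B ^ n := by
      rw [Ideal.map_pow]
      exact Ideal.pow_right_mono (Ideal.map_le_iff_le_comap.mpr fun a ha =>
        Ideal.mem_comap.mpr (haveI := hφ; map_nonunit φ a ha)) n
    have : ((φ.mapMatrix (m := Fin 2)).toMonoidHom.comp r.r σ - 1) i j = φ ((r.r σ - 1) i j) := by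
      have h0 : ((φ.mapMatrix (m := Fin 2)).toMonoidHom.comp r.r σ) i j = φ (r.r σ i j) := rfl
      rw [Matrix.sub_apply, Matrix.sub_apply, map_sub, h0]
      congr 1
      by_cases hij : i = j
      · subst hij; simp
      · simp [Matrix.one_apply_ne hij]
    rw [this]
    exact hmap (Ideal.mem_map_of_mem φ (h σ hσ i j))

@[simp] theorem map_r_apply {B : Type} [CommRing B] [IsLocalRing B] (φ : A →+* B)
    (hφ : IsLocalHom φ) (r : MatRep A) (g : GQ) (i j : Fin 2) :
    (r.map φ hφ).r g i j = φ (r.r g i j) := rfl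

end MatRep

section Frame

variable (𝒪 : Type) [CommRing 𝒪] [IsLocalRing 𝒪]

/-- A choice of basis of `ρbar`, of lifts to `𝒪` of the matrix entries, and of two elements of the group
algebra mapping to the matrix units `E₁₁` and `E₂₁`. -/
structure Frame (ρbar : ResidualGaloisRep (ResidueField 𝒪)) where
  b : Module.Basis (Fin 2) (ResidueField 𝒪) ρbar.V
  u0 : GQ → M2 𝒪
  hu0 : ∀ g, (u0 g).map (residue 𝒪) = LinearMap.toMatrix b b (ρbar.ρ g)
  x11 : GQ →₀ 𝒪
  x21 : GQ →₀ 𝒪
  hx11 : (x11.sum fun g c => c • u0 g).map (residue 𝒪) = !![1, 0; 0, 0]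
  hx21 : (x21.sum fun g c => c • u0 g).map (residue 𝒪) = !![0, 0; 1, 0]

end Frame

section Lifts

variable {𝒪 : Type} [CommRing 𝒪] [IsLocalRing 𝒪]
  {ρbar : ResidualGaloisRep (ResidueField 𝒪)} (Fr : Frame 𝒪 ρbar)
  {A : Type} [CommRing A] [IsLocalRing A] [Algebra 𝒪 A]

/-- Evaluate an element of the group algebra under a matrix valued map. -/
noncomputable def gaEval (r : GQ → M2 A) (x : GQ →₀ 𝒪) : M2 A := x.sum fun g c => c • r g

/-- `r` reduces to `ρbar` (in the basis of the frame). -/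
def Frame.IsLift (r : MatRep A) : Prop :=
  ∀ g i j, r.r g i j - algebraMap 𝒪 A (Fr.u0 g i j) ∈ maximalIdeal A

/-- `r` is normalised with respect to the frame. -/
def Frame.IsNormalized (r : MatRep A) : Prop :=
  gaEval r.r Fr.x11 0 1 = 0 ∧ gaEval r.r Fr.x11 1 0 = 0 ∧ gaEval r.r Fr.x21 1 0 = 1

end Lifts

/-- The functor of normalised lifts of type `𝒟`, in coordinates. -/
def galF {𝒪 : Type} [CommRing 𝒪] [IsLocalRing 𝒪]
    {ρbar : ResidualGaloisRep (ResidueField 𝒪)} (Fr : Frame 𝒪 ρbar)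
    (𝒟 : ∀ ⦃A : Type⦄ [CommRing A] [IsLocalRing A] [Algebra 𝒪 A], GaloisRepAdic A → Prop)
    (A : Type) [CommRing A] [IsLocalRing A] [Algebra 𝒪 A] : Set (GQ × Fin 2 × Fin 2 → A) :=
  {u | ∃ r : MatRep A, (∀ g i j, u (g, i, j) = r.r g i j) ∧ Fr.IsLift r ∧ Fr.IsNormalized r ∧
    𝒟 r.toAdic}

end FADeform
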