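import Fermat.Agent.Deform.AbstractStmt
import Fermat.Agent.Deform.DictDefs

/-!
# S53: basic dictionary lemmas (WP-B, D2, D3, D5, cond_congr)
-/

set_option autoImplicit false

namespace FADeform

open IsLocalRing GaloisRep

/-- `𝒪`-algebra homs into local algebras with residue field `k` are local. -/
theorem isLocalHom_of_algHom {𝒪 : Type} [CommRing 𝒪] [IsLocalRing 𝒪]
    {A B : Type} [CommRing A] [IsLocalRing A] [Algebra 𝒪 A] [CommRing B] [IsLocalRing B] [Algebra 𝒪 B]
    (hB : Function.Surjective (IsLocalRing.residue B ∘ algebraMap 𝒪 B))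
    (φ : A →ₐ[𝒪] B) : IsLocalHom (φ : A →+* B) := by
  set ψ : A →+* ResidueField B := (IsLocalRing.residue B).comp (φ : A →+* B) with hψ
  have hsurj : Function.Surjective ψ := by
    intro y
    obtain ⟨c, hc⟩ := hB y
    refine ⟨algebraMap 𝒪 A c, ?_⟩
    rw [← hc]
    simp [hψ]
  have hmax : (RingHom.ker ψ).IsMaximal := RingHom.ker_isMaximal_of_surjective ψ hsurj
  have hker : RingHom.ker ψ = maximalIdeal A := IsLocalRing.eq_maximalIdeal hmax
  constructor
  intro a ha
  by_contra hna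
  have h1 : a ∈ maximalIdeal A := (IsLocalRing.mem_maximalIdeal a).2 hna
  rw [← hker, RingHom.mem_ker] at h1
  have h2 : (φ : A →+* B) a ∈ maximalIdeal B := (IsLocalRing.residue_eq_zero_iff _).1 h1
  exact ((IsLocalRing.mem_maximalIdeal _).1 h2) ha

theorem map_mem_maximalIdeal_of_isLocalHom {A B : Type} [CommRing A] [IsLocalRing A]
    [CommRing B] [IsLocalRing B] (φ : A →+* B) (hφ : IsLocalHom φ) {a : A}
    (ha : a ∈ maximalIdeal A) : φ a ∈ maximalIdeal B :=
  haveI := hφ
  map_nonunit φ a ha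

section Dict

variable {𝒪 : Type} [CommRing 𝒪] [IsLocalRing 𝒪]
  {ρbar : ResidualGaloisRep (ResidueField 𝒪)} (Fr : Frame 𝒪 ρbar)

omit [IsLocalRing 𝒪] in
theorem gaEval_apply {A : Type} [CommRing A] [Algebra 𝒪 A] (r : GQ → M2 A) (x : GQ →₀ 𝒪)
    (i j : Fin 2) : gaEval r x i j = x.sum fun g c => c • r g i j := by
  unfold gaEval Finsupp.sum
  rw [Matrix.sum_apply]
  rfl

theorem sum_u0_apply (x : GQ →₀ 𝒪) (i j : Fin 2) :
    (x.sum fun g c => c • Fr.u0 g) i j = x.sum fun g c => c * Fr.u0 g i j := by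
  unfold Finsupp.sum
  rw [Matrix.sum_apply]
  rfl

/-- For a lift, group algebra evaluations are congruent to the evaluations of `u0`. -/
theorem gaEval_sub_mem {A : Type} [CommRing A] [IsLocalRing A] [Algebra 𝒪 A] {r : MatRep A}
    (hl : Fr.IsLift r) (x : GQ →₀ 𝒪) (i j : Fin 2) :
    gaEval r.r x i j - algebraMap 𝒪 A ((x.sum fun g c => c • Fr.u0 g) i j) ∈ maximalIdeal A := by
  rw [gaEval_apply, sum_u0_apply]
  unfold Finsupp.sum
  rw [map_sum, ← Finset.sum_sub_distrib]
  refine Ideal.sum_mem _ fun g _ => ?_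
  have : x g • r.r g i j - algebraMap 𝒪 A (x g * Fr.u0 g i j)
      = algebraMap 𝒪 A (x g) * (r.r g i j - algebraMap 𝒪 A (Fr.u0 g i j)) := by
    rw [Algebra.smul_def, map_mul]; ring
  rw [this]
  exact Ideal.mul_mem_left _ _ (hl g i j)

theorem gaEval_x11_sub_mem {A : Type} [CommRing A] [IsLocalRing A] [Algebra 𝒪 A]
    [IsLocalHom (algebraMap 𝒪 A)] {r : MatRep A} (hl : Fr.IsLift r) (i j : Fin 2) :
    gaEval r.r Fr.x11 i j - (!![1, 0; 0, 0] : M2 A) i j ∈ maximalIdeal A := by
  have h1 := gaEval_sub_mem Fr hl Fr.x11 i j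
  have h2 : residue 𝒪 ((Fr.x11.sum fun g c => c • Fr.u0 g) i j)
      = (!![1, 0; 0, 0] : M2 (ResidueField 𝒪)) i j := by
    rw [← Fr.hx11]; rfl
  set z := (Fr.x11.sum fun g c => c • Fr.u0 g) i j with hz
  have h3 : z - (!![1, 0; 0, 0] : M2 𝒪) i j ∈ maximalIdeal 𝒪 := by
    rw [← IsLocalRing.residue_eq_zero_iff, map_sub, h2]
    fin_cases i <;> fin_cases j <;> simp
  have h4 := map_mem_maximalIdeal_of_isLocalHom (algebraMap 𝒪 A) inferInstance h3
  have h5 : algebraMap 𝒪 A ((!![1, 0; 0, 0] : M2 𝒪) i j) = (!![1, 0; 0, 0] : M2 A) i j := by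
    fin_cases i <;> fin_cases j <;> simp
  rw [map_sub, h5] at h4
  have := Ideal.add_mem _ h1 h4
  simpa using this

/-- D2: normalised lifts are rigid. -/
theorem normalized_unique {A : Type} [CommRing A] [IsLocalRing A] [Algebra 𝒪 A]
    [IsLocalHom (algebraMap 𝒪 A)] {r r' : MatRep A} (hl : Fr.IsLift r) (hn : Fr.IsNormalized r) (hl' : Fr.IsLift r')
    (hn' : Fr.IsNormalized r') (he : r.toAdic.IsEquiv r'.toAdic) : r = r' := by
  obtain ⟨e⟩ := he
  let e' : (Fin 2 → A) ≃ₗ[A] (Fin 2 → A) := e.toLinearEquiv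
  set M : M2 A := LinearMap.toMatrix' (e' : (Fin 2 → A) →ₗ[A] (Fin 2 → A)) with hM
  set M' : M2 A := LinearMap.toMatrix' (e'.symm : (Fin 2 → A) →ₗ[A] (Fin 2 → A)) with hM'
  have hMM' : M * M' = 1 := by
    rw [hM, hM', ← LinearMap.toMatrix'_comp]
    simp
  have hMv : ∀ v, M.mulVec v = e' v := fun v => by
    rw [hM, LinearMap.toMatrix'_mulVec]; rfl
  have hcomm : ∀ g, M * r.r g = r'.r g * M := by
    intro g
    apply Matrix.toLin'.injective
    apply LinearMap.ext
    intro v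
    rw [Matrix.toLin'_apply, Matrix.toLin'_apply, ← Matrix.mulVec_mulVec, ← Matrix.mulVec_mulVec,
      hMv, hMv]
    exact e.map_apply g v
  have hcommE : ∀ x : GQ →₀ 𝒪, M * gaEval r.r x = gaEval r'.r x * M := by
    intro x
    unfold gaEval Finsupp.sum
    rw [Finset.mul_sum, Finset.sum_mul]
    refine Finset.sum_congr rfl fun g _ => ?_
    rw [Matrix.mul_smul, Matrix.smul_mul, hcomm]
  obtain ⟨h01, h10, h21⟩ := hn
  obtain ⟨h01', h10', h21'⟩ := hn'
  have c11 := hcommE Fr.x11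
  have c21 := hcommE Fr.x21
  set X := gaEval r.r Fr.x11 with hX
  set X' := gaEval r'.r Fr.x11 with hX'
  set Y := gaEval r.r Fr.x21 with hY
  set Y' := gaEval r'.r Fr.x21 with hY'
  -- units
  have u1 : IsUnit (X 1 1 - X' 0 0) := by
    have a1 := gaEval_x11_sub_mem Fr hl 1 1
    have a2 := gaEval_x11_sub_mem Fr hl' 0 0
    simp only [Matrix.of_apply, Matrix.cons_val', Matrix.cons_val_one, Matrix.cons_val_zero,
      Matrix.cons_val_fin_one, sub_zero] at a1 a2
    have h : (X 1 1 - X' 0 0) + 1 ∈ maximalIdeal A := by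
      have := Ideal.sub_mem _ a1 a2
      have e1 : X 1 1 - X' 0 0 + 1 = X 1 1 - (X' 0 0 - 1) := by ring
      rw [e1]; exact this
    by_contra hnu
    have h' : (X 1 1 - X' 0 0) ∈ maximalIdeal A := (IsLocalRing.mem_maximalIdeal _).2 hnu
    have : (1 : A) ∈ maximalIdeal A := by
      have := Ideal.sub_mem _ h h'
      simp at this
    exact (Ideal.ne_top_iff_one _).1 (IsLocalRing.maximalIdeal.isMaximal A).ne_top this
  have u2 : IsUnit (X 0 0 - X' 1 1) := by
    have a1 := gaEval_x11_sub_mem Fr hl 0 0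
    have a2 := gaEval_x11_sub_mem Fr hl' 1 1
    simp only [Matrix.of_apply, Matrix.cons_val', Matrix.cons_val_one, Matrix.cons_val_zero,
      Matrix.cons_val_fin_one, sub_zero] at a1 a2
    have h : (X 0 0 - X' 1 1) - 1 ∈ maximalIdeal A := by
      have := Ideal.sub_mem _ a1 a2
      have e1 : X 0 0 - X' 1 1 - 1 = X 0 0 - 1 - X' 1 1 := by ring
      rw [e1]; exact this
    by_contra hnu
    have h' : (X 0 0 - X' 1 1) ∈ maximalIdeal A := (IsLocalRing.mem_maximalIdeal _).2 hnu
    have : (1 : A) ∈ maximalIdeal A := by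
      have := Ideal.sub_mem _ h' h
      simp at this
    exact (Ideal.ne_top_iff_one _).1 (IsLocalRing.maximalIdeal.isMaximal A).ne_top this
  have e01 := congrFun (congrFun c11 0) 1
  have e10 := congrFun (congrFun c11 1) 0
  have f10 := congrFun (congrFun c21 1) 0
  simp only [Matrix.mul_apply, Fin.sum_univ_two] at e01 e10 f10
  rw [h01, h01'] at e01
  rw [h10, h10'] at e10
  have hb : M 0 1 = 0 := by
    have : M 0 1 * (X 1 1 - X' 0 0) = 0 := by linear_combination e01
    exact (u1.mul_left_eq_zero).1 this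
  have hc : M 1 0 = 0 := by
    have : M 1 0 * (X 0 0 - X' 1 1) = 0 := by linear_combination e10
    exact (u2.mul_left_eq_zero).1 this
  rw [h21, h21', hc] at f10
  have had : M 1 1 = M 0 0 := by linear_combination f10
  have hMs : M = M 0 0 • (1 : M2 A) := by
    ext i j
    fin_cases i <;> fin_cases j <;> simp [hb, hc, had]
  have hunit : IsUnit (M 0 0) := by
    have := congrFun (congrFun hMM' 0) 0
    simp only [Matrix.mul_apply, Fin.sum_univ_two, hb, zero_mul, add_zero, Matrix.one_apply_eq]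
      at this
    exact IsUnit.of_mul_eq_one _ this
  apply MatRep.ext'
  intro g
  have hg := hcomm g
  rw [hMs, Matrix.smul_mul, Matrix.mul_smul, Matrix.one_mul, Matrix.mul_one] at hg
  ext i j
  have := congrFun (congrFun hg i) j
  simp only [Matrix.smul_apply, smul_eq_mul] at this
  exact hunit.mul_left_cancel this

theorem piScalarRight_baseChange_mulVec {A B : Type} [CommRing A] [CommRing B] [Algebra A B]
    (Mx : M2 A) (x : TensorProduct A B (Fin 2 → A)) :
    TensorProduct.piScalarRight A B B (Fin 2) ((Matrix.mulVecLin Mx).baseChange B x) =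
      (Mx.map (algebraMap A B)).mulVec (TensorProduct.piScalarRight A B B (Fin 2) x) := by
  induction x using TensorProduct.induction_on with
  | zero => simp
  | tmul b v =>
    rw [LinearMap.baseChange_tmul, TensorProduct.piScalarRight_apply,
      TensorProduct.piScalarRightHom_tmul, TensorProduct.piScalarRight_apply,
      TensorProduct.piScalarRightHom_tmul]
    ext i
    simp only [Matrix.mulVecLin_apply, Matrix.mulVec, dotProduct, Fin.sum_univ_two,
      Matrix.map_apply, Algebra.smul_def, map_add, map_mul]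
    ring
  | add x y hx hy =>
    rw [map_add, map_add, map_add, Matrix.mulVec_add, hx, hy]

/-- D3: base change in matrix form. -/
theorem toAdic_baseChangeAlong {A B : Type} [CommRing A] [IsLocalRing A] [CommRing B] [IsLocalRing B]
    (φ : A →+* B) (hφ : IsLocalHom φ) (r : MatRep A) :
    (r.toAdic.baseChangeAlong φ hφ).IsEquiv (r.map φ hφ).toAdic := by
  let _ : Algebra A B := φ.toAlgebra
  refine ⟨{ toLinearEquiv := TensorProduct.piScalarRight A B B (Fin 2), map_apply := ?_ }⟩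
  intro σ x
  exact piScalarRight_baseChange_mulVec (r.r σ) x

/-- D5: lifts and normalised lifts are preserved by `𝒪`-algebra maps. -/
theorem isLift_map {A B : Type} [CommRing A] [IsLocalRing A] [Algebra 𝒪 A]
    [CommRing B] [IsLocalRing B] [Algebra 𝒪 B] (φ : A →ₐ[𝒪] B) (hφ : IsLocalHom (φ : A →+* B))
    {r : MatRep A} (hl : Fr.IsLift r) : Fr.IsLift (r.map (φ : A →+* B) hφ) := by
  intro g i j
  have := map_mem_maximalIdeal_of_isLocalHom (φ : A →+* B) hφ (hl g i j)
  rw [map_sub] at this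
  simpa using this

omit [IsLocalRing 𝒪] in
theorem gaEval_map {A B : Type} [CommRing A] [IsLocalRing A] [Algebra 𝒪 A]
    [CommRing B] [IsLocalRing B] [Algebra 𝒪 B] (φ : A →ₐ[𝒪] B) (hφ : IsLocalHom (φ : A →+* B))
    (r : MatRep A) (x : GQ →₀ 𝒪) (i j : Fin 2) :
    gaEval (r.map (φ : A →+* B) hφ).r x i j = φ (gaEval r.r x i j) := by
  rw [gaEval_apply, gaEval_apply]
  unfold Finsupp.sum
  rw [map_sum]
  refine Finset.sum_congr rfl fun g _ => ?_
  rw [map_smul]
  rfl

theorem isNormalized_map {A B : Type} [CommRing A] [IsLocalRing A] [Algebra 𝒪 A]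
    [CommRing B] [IsLocalRing B] [Algebra 𝒪 B] (φ : A →ₐ[𝒪] B) (hφ : IsLocalHom (φ : A →+* B))
    {r : MatRep A} (hn : Fr.IsNormalized r) : Fr.IsNormalized (r.map (φ : A →+* B) hφ) := by
  obtain ⟨h1, h2, h3⟩ := hn
  refine ⟨?_, ?_, ?_⟩
  · rw [gaEval_map, h1, map_zero]
  · rw [gaEval_map, h2, map_zero]
  · rw [gaEval_map, h3, map_one]

end Dict

/-- `𝒟` is invariant under equivalence over complete local rings too. -/
theorem cond_congr_complete {𝒪 : Type} [CommRing 𝒪] [IsLocalRing 𝒪]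
    {𝒟 : ∀ ⦃A : Type⦄ [CommRing A] [IsLocalRing A] [Algebra 𝒪 A], GaloisRepAdic A → Prop}
    (h𝒟 : IsDeformationCondition 𝒪 𝒟)
    {A : Type} [CommRing A] [IsLocalRing A] [IsNoetherianRing A]
    [IsAdicComplete (maximalIdeal A) A] [Algebra 𝒪 A] (h1 : IsLocalHom (algebraMap 𝒪 A))
    (h2 : Function.Surjective (IsLocalRing.residue A ∘ algebraMap 𝒪 A))
    {ρ ρ' : GaloisRepAdic A} (he : ρ.IsEquiv ρ') (h : 𝒟 ρ) : 𝒟 ρ' := by
  obtain ⟨e⟩ := he
  rw [h𝒟.iff_forall_surjective h1 h2] at h ⊢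
  intro B _ _ _ hB q hq hsurj
  exact h𝒟.of_isEquiv hB ⟨e.baseChangeAlong (q : A →+* B) hq⟩ (h hB q hq hsurj)

end FADeform
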