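import Fermat.Agent.Deform.DictDefs
import Fermat.Agent.Deform.Burnside

/-!
# S53, package C: existence of a frame
-/

set_option autoImplicit false

namespace FADeform

open IsLocalRing GaloisRep Module
open scoped TensorProduct

/-- Descent of Burnside's theorem: if the base change of a family of endomorphisms to an extension
field spans the endomorphism algebra, the matrices of the family span the matrix algebra. -/
theorem span_toMatrix_eq_top_of_baseChange {k K V G : Type*} [Field k] [Field K] [Algebra k K]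
    [AddCommGroup V] [Module k V] (b : Basis (Fin 2) k V) (r : G → Module.End k V)
    (h : Submodule.span K (Set.range fun g => (r g).baseChange K) = ⊤) :
    Submodule.span k (Set.range fun g => LinearMap.toMatrix b b (r g)) = ⊤ := by
  by_contra hne
  obtain ⟨φ, hφ0, hφ⟩ := Submodule.exists_le_ker_of_lt_top _ (lt_top_iff_ne_top.mpr hne)
  let b' := Algebra.TensorProduct.basis K b
  let Φ : Module.End K (K ⊗[k] V) →ₗ[K] K :=
    ∑ i, ∑ j, (algebraMap k K (φ (Matrix.single i j 1))) •
      ((Matrix.entryLinearMap K K i j).comp (LinearMap.toMatrix b' b').toLinearMap)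
  have hΦ : ∀ T : Module.End k V, Φ (T.baseChange K) = algebraMap k K (φ (LinearMap.toMatrix b b T)) := by
    intro T
    have h1 : LinearMap.toMatrix b b T
        = ∑ i, ∑ j, (LinearMap.toMatrix b b T i j) • Matrix.single i j (1 : k) := by
      conv_lhs => rw [Matrix.matrix_eq_sum_single (LinearMap.toMatrix b b T)]
      simp [Matrix.smul_single]
    conv_rhs => rw [h1]
    simp only [Φ, LinearMap.sum_apply, LinearMap.smul_apply, LinearMap.comp_apply, map_sum, map_smul,
      LinearEquiv.coe_coe, Matrix.entryLinearMap_apply, b', LinearMap.toMatrix_baseChange,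
      Matrix.map_apply, smul_eq_mul, map_mul]
    refine Finset.sum_congr rfl fun i _ => Finset.sum_congr rfl fun j _ => mul_comm _ _
  have hker : (⊤ : Submodule K (Module.End K (K ⊗[k] V))) ≤ LinearMap.ker Φ := by
    rw [← h, Submodule.span_le]
    rintro _ ⟨g, rfl⟩
    simp only [SetLike.mem_coe, LinearMap.mem_ker]
    rw [hΦ, LinearMap.mem_ker.mp (hφ (Submodule.subset_span ⟨g, rfl⟩)), map_zero]
  apply hφ0
  ext M
  have h2 := hΦ (Matrix.toLin b b M)
  rw [LinearMap.mem_ker.mp (hker trivial), LinearMap.toMatrix_toLin] at h2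
  simpa using h2.symm

theorem exists_frame (𝒪 : Type) [CommRing 𝒪] [IsLocalRing 𝒪]
    (ρbar : ResidualGaloisRep (ResidueField 𝒪)) (habs : ρbar.IsAbsolutelyIrreducible) :
    Nonempty (Frame 𝒪 ρbar) := by
  classical
  let k := ResidueField 𝒪
  let b : Basis (Fin 2) k ρbar.V := finBasisOfFinrankEq k ρbar.V ρbar.finrank_eq
  have h1 := burnside_two (ρbar.baseChange (AlgebraicClosure k)).finrank_eq
    (ρbar.baseChange (AlgebraicClosure k)).ρ habs
  have h2 : Submodule.span k (Set.range fun g => LinearMap.toMatrix b b (ρbar.ρ g)) = ⊤ :=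
    span_toMatrix_eq_top_of_baseChange (K := AlgebraicClosure k) b (fun g => ρbar.ρ g) h1
  have hsurj : ∀ M : M2 k, ∃ N : M2 𝒪, N.map (residue 𝒪) = M := by
    intro M
    choose f hf using fun i j => residue_surjective (M i j)
    exact ⟨Matrix.of f, by ext i j; simp [hf]⟩
  choose u0 hu0 using fun g => hsurj (LinearMap.toMatrix b b (ρbar.ρ g))
  have key : ∀ M : M2 k, ∃ x : GQ →₀ 𝒪, (x.sum fun g c => c • u0 g).map (residue 𝒪) = M := by
    intro M
    have hM : M ∈ Submodule.span k (Set.range fun g => LinearMap.toMatrix b b (ρbar.ρ g)) := by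
      rw [h2]; trivial
    rw [Finsupp.mem_span_range_iff_exists_finsupp] at hM
    obtain ⟨c, hc⟩ := hM
    obtain ⟨x, rfl⟩ := Finsupp.mapRange_surjective (residue 𝒪) (map_zero _) residue_surjective c
    refine ⟨x, ?_⟩
    rw [← hc, Finsupp.sum_mapRange_index (by simp)]
    change (residue 𝒪).mapMatrix (x.sum fun g c => c • u0 g) = _
    rw [map_finsuppSum]
    refine Finsupp.sum_congr fun g _ => ?_
    rw [← hu0 g]
    ext i j
    simp
  obtain ⟨x11, hx11⟩ := key !![1, 0; 0, 0]
  obtain ⟨x21, hx21⟩ := key !![0, 0; 1, 0]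
  exact ⟨{ b := b, u0 := u0, hu0 := hu0, x11 := x11, x21 := x21, hx11 := hx11, hx21 := hx21 }⟩

end FADeform
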