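import Fermat.Agent.Deform.DictDefs

/-!
# S53, package D4: the residual representation of a lift
-/

set_option autoImplicit false

namespace FADeform

open IsLocalRing GaloisRep Module
open scoped TensorProduct

/-- Two endomorphisms with the same matrix in two bases are intertwined by the equivalence of
bases. -/
theorem basis_equiv_intertwine {R M N ι : Type*} [CommRing R] [AddCommGroup M] [Module R M]
    [AddCommGroup N] [Module R N] [Fintype ι] [DecidableEq ι] (b₁ : Basis ι R M) (b₂ : Basis ι R N)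
    (f : Module.End R M) (g : Module.End R N)
    (h : LinearMap.toMatrix b₁ b₁ f = LinearMap.toMatrix b₂ b₂ g) (x : M) :
    b₁.equiv b₂ (Equiv.refl ι) (f x) = g (b₁.equiv b₂ (Equiv.refl ι) x) := by
  have key : ((b₁.equiv b₂ (Equiv.refl ι)) : M →ₗ[R] N) ∘ₗ f
      = g ∘ₗ ((b₁.equiv b₂ (Equiv.refl ι)) : M →ₗ[R] N) := by
    apply b₁.ext
    intro j
    simp only [LinearMap.comp_apply, LinearEquiv.coe_coe, Basis.equiv_apply, Equiv.refl_apply]
    rw [← b₁.sum_repr (f (b₁ j)), ← b₂.sum_repr (g (b₂ j)), map_sum]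
    refine Finset.sum_congr rfl fun i _ => ?_
    rw [map_smul, Basis.equiv_apply, Equiv.refl_apply]
    congr 1
    have := congrFun (congrFun h i) j
    simpa [LinearMap.toMatrix_apply] using this
  exact congrArg (fun T : M →ₗ[R] N => T x) key

section Dict

variable {𝒪 : Type} [CommRing 𝒪] [IsLocalRing 𝒪]
  {ρbar : ResidualGaloisRep (ResidueField 𝒪)} (Fr : Frame 𝒪 ρbar)

/-- D4: the residual representation of a lift. -/
theorem residual_of_isLift {A : Type} [CommRing A] [IsLocalRing A] [Algebra 𝒪 A]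
    [IsLocalHom (algebraMap 𝒪 A)] {r : MatRep A} (hl : Fr.IsLift r) :
    r.toAdic.residual.IsEquiv (ρbar.baseChangeAlong (ResidueField.map (algebraMap 𝒪 A))) := by
  let _ : Algebra (ResidueField 𝒪) (ResidueField A) := (ResidueField.map (algebraMap 𝒪 A)).toAlgebra
  let b₁ : Basis (Fin 2) (ResidueField A) (ResidueField A ⊗[A] (Fin 2 → A)) :=
    Algebra.TensorProduct.basis (ResidueField A) (Pi.basisFun A (Fin 2))
  let b₂ : Basis (Fin 2) (ResidueField A)
      (ρbar.baseChangeAlong (ResidueField.map (algebraMap 𝒪 A))).V :=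
    Algebra.TensorProduct.basis (ResidueField A) Fr.b
  refine ⟨{ toLinearEquiv := b₁.equiv b₂ (Equiv.refl _), map_apply := ?_ }⟩
  intro σ x
  refine basis_equiv_intertwine b₁ b₂ ((Matrix.toLin' (r.r σ)).baseChange (ResidueField A))
    ((ρbar.ρ σ).baseChange (ResidueField A)) ?_ x
  have e1 : LinearMap.toMatrix b₁ b₁ ((Matrix.toLin' (r.r σ)).baseChange (ResidueField A))
      = (LinearMap.toMatrix (Pi.basisFun A (Fin 2)) (Pi.basisFun A (Fin 2))
          (Matrix.toLin' (r.r σ))).map (algebraMap A (ResidueField A)) :=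
    LinearMap.toMatrix_baseChange (ResidueField A) (Matrix.toLin' (r.r σ)) (Pi.basisFun A (Fin 2))
      (Pi.basisFun A (Fin 2))
  have e2 : LinearMap.toMatrix b₂ b₂ ((ρbar.ρ σ).baseChange (ResidueField A))
      = (LinearMap.toMatrix Fr.b Fr.b (ρbar.ρ σ)).map
          (algebraMap (ResidueField 𝒪) (ResidueField A)) :=
    LinearMap.toMatrix_baseChange (ResidueField A) (ρbar.ρ σ) Fr.b Fr.b
  refine e1.trans (Eq.trans ?_ e2.symm)
  rw [← Fr.hu0 σ, LinearMap.toMatrix_eq_toMatrix', LinearMap.toMatrix'_toLin']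
  ext i j
  rw [Matrix.map_apply, Matrix.map_apply, Matrix.map_apply]
  have h2 : algebraMap (ResidueField 𝒪) (ResidueField A) (residue 𝒪 (Fr.u0 σ i j))
      = residue A (algebraMap 𝒪 A (Fr.u0 σ i j)) := rfl
  rw [h2, ResidueField.algebraMap_eq, ← sub_eq_zero, ← map_sub, residue_eq_zero_iff]
  exact hl σ i j

end Dict

end FADeform
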