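import Fermat.Agent.Deform.AbstractStmt
import Fermat.Agent.Deform.DictDefs
import Fermat.Agent.Deform.DictBasic
import Fermat.Agent.Deform.TestAlg
import Fermat.Agent.Deform.Residual

/-!
# S53, WP-E: the functor of normalised lifts satisfies the hypotheses of the abstract theorem
-/

set_option autoImplicit false

namespace FADeform

open IsLocalRing GaloisRep

/-- The matrix valued function attached to coordinates. -/
def matOf {A : Type} (u : GQ × Fin 2 × Fin 2 → A) (g : GQ) : M2 A :=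
  Matrix.of fun i j => u (g, i, j)

@[simp] theorem matOf_apply {A : Type} (u : GQ × Fin 2 × Fin 2 → A) (g : GQ) (i j : Fin 2) :
    matOf u g i j = u (g, i, j) := rfl

section GalF

variable {𝒪 : Type} [CommRing 𝒪] [IsLocalRing 𝒪]
  {ρbar : ResidualGaloisRep (ResidueField 𝒪)} (Fr : Frame 𝒪 ρbar)
  (𝒟 : ∀ ⦃A : Type⦄ [CommRing A] [IsLocalRing A] [Algebra 𝒪 A], GaloisRepAdic A → Prop)

theorem mem_galF_of {A : Type} [CommRing A] [IsLocalRing A] [Algebra 𝒪 A]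
    (u : GQ × Fin 2 × Fin 2 → A)
    (h1 : matOf u 1 = 1) (hmul : ∀ g h, matOf u (g * h) = matOf u g * matOf u h)
    (hc : ∀ n : ℕ, ∃ L : IntermediateField ℚ (AlgebraicClosure ℚ), FiniteDimensional ℚ L ∧
      ∀ σ : GQ, (∀ x ∈ L, σ x = x) → ∀ i j, (matOf u σ - 1) i j ∈ maximalIdeal A ^ n)
    (hl : ∀ g i j, u (g, i, j) - algebraMap 𝒪 A (Fr.u0 g i j) ∈ maximalIdeal A)
    (hn : gaEval (matOf u) Fr.x11 0 1 = 0 ∧ gaEval (matOf u) Fr.x11 1 0 = 0 ∧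
      gaEval (matOf u) Fr.x21 1 0 = 1)
    (hD : ∀ r : MatRep A, (∀ g i j, u (g, i, j) = r.r g i j) → 𝒟 r.toAdic) :
    u ∈ galF Fr 𝒟 A := by
  let r : MatRep A := ⟨{ toFun := matOf u, map_one' := h1, map_mul' := hmul }, hc⟩
  exact ⟨r, fun _ _ _ => rfl, hl, hn, hD r fun _ _ _ => rfl⟩

/-- `u` is a normalised continuous representation modulo the ideal `I`. -/
structure ModRep {A : Type} [CommRing A] [Algebra 𝒪 A] (I : Ideal A)
    (u : GQ × Fin 2 × Fin 2 → A) : Prop where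
  one : ∀ i j, (matOf u 1 - 1) i j ∈ I
  mul : ∀ g h i j, (matOf u (g * h) - matOf u g * matOf u h) i j ∈ I
  n1 : gaEval (matOf u) Fr.x11 0 1 ∈ I
  n2 : gaEval (matOf u) Fr.x11 1 0 ∈ I
  n3 : gaEval (matOf u) Fr.x21 1 0 - 1 ∈ I
  cont : ∃ L : IntermediateField ℚ (AlgebraicClosure ℚ), FiniteDimensional ℚ L ∧
      ∀ σ : GQ, (∀ x ∈ L, σ x = x) → ∀ i j, (matOf u σ - 1) i j ∈ I

theorem ModRep.inf {A : Type} [CommRing A] [Algebra 𝒪 A] {I J : Ideal A}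
    {u : GQ × Fin 2 × Fin 2 → A} (hI : ModRep Fr I u) (hJ : ModRep Fr J u) :
    ModRep Fr (I ⊓ J) u where
  one i j := ⟨hI.one i j, hJ.one i j⟩
  mul g h i j := ⟨hI.mul g h i j, hJ.mul g h i j⟩
  n1 := ⟨hI.n1, hJ.n1⟩
  n2 := ⟨hI.n2, hJ.n2⟩
  n3 := ⟨hI.n3, hJ.n3⟩
  cont := by
    obtain ⟨L, hL, h⟩ := hI.cont
    obtain ⟨L', hL', h'⟩ := hJ.cont
    refine ⟨L ⊔ L', IntermediateField.finiteDimensional_sup L L', fun σ hσ i j => ⟨?_, ?_⟩⟩
    · exact h σ (fun x hx => hσ x ((le_sup_left : L ≤ L ⊔ L') hx)) i j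
    · exact h' σ (fun x hx => hσ x ((le_sup_right : L' ≤ L ⊔ L') hx)) i j

theorem mem_galF_of_modRep {A : Type} [CommRing A] [IsLocalRing A] [Algebra 𝒪 A]
    (u : GQ × Fin 2 × Fin 2 → A)
    (hsep : ∀ a : A, (∀ n, a ∈ maximalIdeal A ^ n) → a = 0)
    (h : ∀ n, ∃ I : Ideal A, I ≤ maximalIdeal A ^ n ∧ ModRep Fr I u)
    (hl : ∀ g i j, u (g, i, j) - algebraMap 𝒪 A (Fr.u0 g i j) ∈ maximalIdeal A)
    (hD : ∀ r : MatRep A, (∀ g i j, u (g, i, j) = r.r g i j) → 𝒟 r.toAdic) :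
    u ∈ galF Fr 𝒟 A := by
  refine mem_galF_of Fr 𝒟 u ?_ ?_ ?_ hl ⟨?_, ?_, ?_⟩ hD
  · rw [← sub_eq_zero]
    ext i j
    refine hsep _ fun n => ?_
    obtain ⟨I, hI, hm⟩ := h n
    exact hI (hm.one i j)
  · intro g g'
    rw [← sub_eq_zero]
    ext i j
    refine hsep _ fun n => ?_
    obtain ⟨I, hI, hm⟩ := h n
    exact hI (hm.mul g g' i j)
  · intro n
    obtain ⟨I, hI, hm⟩ := h n
    obtain ⟨L, hL, hc⟩ := hm.cont
    exact ⟨L, hL, fun σ hσ i j => hI (hc σ hσ i j)⟩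
  · refine hsep _ fun n => ?_
    obtain ⟨I, hI, hm⟩ := h n
    exact hI hm.n1
  · refine hsep _ fun n => ?_
    obtain ⟨I, hI, hm⟩ := h n
    exact hI hm.n2
  · rw [← sub_eq_zero]
    refine hsep _ fun n => ?_
    obtain ⟨I, hI, hm⟩ := h n
    exact hI hm.n3

omit [IsLocalRing 𝒪] in
theorem map_gaEval {A B : Type} [CommRing A] [Algebra 𝒪 A] [CommRing B] [Algebra 𝒪 B]
    (φ : A →ₐ[𝒪] B) (U : GQ → M2 A) (R : GQ → M2 B) (h : ∀ g i j, φ (U g i j) = R g i j)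
    (x : GQ →₀ 𝒪) (i j : Fin 2) : φ (gaEval U x i j) = gaEval R x i j := by
  rw [gaEval_apply, gaEval_apply]
  unfold Finsupp.sum
  rw [map_sum]
  refine Finset.sum_congr rfl fun g _ => ?_
  rw [map_smul, h]

/-- If the image of `u` in a test algebra `B` is a point of the functor, `u` is a representation
modulo the kernel. -/
theorem modRep_ker {A B : Type} [CommRing A] [Algebra 𝒪 A]
    [CommRing B] [IsLocalRing B] [Algebra 𝒪 B] (hB : IsArtinianTestAlgebra 𝒪 B)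
    (φ : A →ₐ[𝒪] B) (u : GQ × Fin 2 × Fin 2 → A) (hu : (fun x => φ (u x)) ∈ galF Fr 𝒟 B) :
    ModRep Fr (RingHom.ker (φ : A →+* B)) u := by
  obtain ⟨r, hr, -, ⟨hn1, hn2, hn3⟩, -⟩ := hu
  have e : ∀ g, (φ : A →+* B).mapMatrix (matOf u g) = r.r g := by
    intro g; ext i j; exact hr g i j
  have hg : ∀ (x : GQ →₀ 𝒪) (i j : Fin 2), φ (gaEval (matOf u) x i j) = gaEval r.r x i j :=
    fun x i j => map_gaEval φ (matOf u) r.r hr x i j
  refine ⟨?_, ?_, ?_, ?_, ?_, ?_⟩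
  · intro i j
    rw [RingHom.mem_ker]
    change ((φ : A →+* B).mapMatrix (matOf u 1 - 1)) i j = 0
    rw [map_sub, e, map_one, map_one, sub_self]; rfl
  · intro g h i j
    rw [RingHom.mem_ker]
    change ((φ : A →+* B).mapMatrix (matOf u (g * h) - matOf u g * matOf u h)) i j = 0
    rw [map_sub, map_mul, e, e, e, map_mul, sub_self]; rfl
  · rw [RingHom.mem_ker]; exact (hg _ _ _).trans hn1
  · rw [RingHom.mem_ker]; exact (hg _ _ _).trans hn2
  · rw [RingHom.mem_ker, map_sub, map_one, sub_eq_zero]; exact (hg _ _ _).trans hn3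
  · obtain ⟨n, hn⟩ := TestAlg.exists_pow_eq_bot hB
    obtain ⟨L, hL, hc⟩ := r.cont n
    refine ⟨L, hL, fun σ hσ i j => ?_⟩
    rw [RingHom.mem_ker]
    change ((φ : A →+* B).mapMatrix (matOf u σ - 1)) i j = 0
    rw [map_sub, e, map_one]
    have := hc σ hσ i j
    rwa [hn, Ideal.mem_bot] at this

theorem isLift_of_map {A B : Type} [CommRing A] [IsLocalRing A] [Algebra 𝒪 A]
    [CommRing B] [IsLocalRing B] [Algebra 𝒪 B]
    (φ : A →ₐ[𝒪] B) (u : GQ × Fin 2 × Fin 2 → A) (hu : (fun x => φ (u x)) ∈ galF Fr 𝒟 B) :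
    ∀ g i j, u (g, i, j) - algebraMap 𝒪 A (Fr.u0 g i j) ∈ maximalIdeal A := by
  obtain ⟨r, hr, hl, -, -⟩ := hu
  intro g i j
  rw [mem_maximalIdeal, mem_nonunits_iff]
  intro hunit
  have h1 := hl g i j
  rw [← hr, mem_maximalIdeal, mem_nonunits_iff] at h1
  apply h1
  have := hunit.map φ
  rwa [map_sub, AlgHom.commutes] at this

variable {𝒟}

theorem cond_baseChange_of_map (h𝒟 : IsDeformationCondition 𝒪 𝒟)
    {A B : Type} [CommRing A] [IsLocalRing A] [Algebra 𝒪 A]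
    [CommRing B] [IsLocalRing B] [Algebra 𝒪 B] (hB : IsArtinianTestAlgebra 𝒪 B)
    (φ : A →ₐ[𝒪] B) (hφ : IsLocalHom (φ : A →+* B))
    (u : GQ × Fin 2 × Fin 2 → A) (hu : (fun x => φ (u x)) ∈ galF Fr 𝒟 B)
    (r : MatRep A) (hr : ∀ g i j, u (g, i, j) = r.r g i j) :
    𝒟 (r.toAdic.baseChangeAlong (φ : A →+* B) hφ) := by
  obtain ⟨r', hr', -, -, hD⟩ := hu
  have : r.map (φ : A →+* B) hφ = r' := by
    apply MatRep.ext'
    intro g
    ext i j
    rw [MatRep.map_r_apply, ← hr, ← hr']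
    rfl
  obtain ⟨e⟩ := toAdic_baseChangeAlong (φ : A →+* B) hφ r
  rw [this] at e
  exact h𝒟.of_isEquiv hB ⟨e.symm⟩ hD

theorem galF_map (h𝒟 : IsDeformationCondition 𝒪 𝒟)
    {A B : Type} [CommRing A] [IsLocalRing A] [Algebra 𝒪 A]
    [CommRing B] [IsLocalRing B] [Algebra 𝒪 B] (hB : IsArtinianTestAlgebra 𝒪 B)
    (φ : A →ₐ[𝒪] B) (u : GQ × Fin 2 × Fin 2 → A)
    (r : MatRep A) (hr : ∀ g i j, u (g, i, j) = r.r g i j) (hl : Fr.IsLift r)
    (hn : Fr.IsNormalized r)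
    (hD : ∀ hφ : IsLocalHom (φ : A →+* B), 𝒟 (r.toAdic.baseChangeAlong (φ : A →+* B) hφ)) :
    (fun x => φ (u x)) ∈ galF Fr 𝒟 B := by
  have hφ : IsLocalHom (φ : A →+* B) := isLocalHom_of_algHom hB.residue_surjective φ
  refine ⟨r.map (φ : A →+* B) hφ, ?_, isLift_map Fr φ hφ hl, isNormalized_map Fr φ hφ hn, ?_⟩
  · intro g i j
    rw [MatRep.map_r_apply, ← hr]
    rfl
  · exact h𝒟.of_isEquiv hB (toAdic_baseChangeAlong (φ : A →+* B) hφ r) (hD hφ)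


theorem sep_of_testAlg {A : Type} [CommRing A] [IsLocalRing A] [Algebra 𝒪 A]
    (hA : IsArtinianTestAlgebra 𝒪 A) (a : A) (h : ∀ n, a ∈ maximalIdeal A ^ n) : a = 0 := by
  obtain ⟨n, hn⟩ := TestAlg.exists_pow_eq_bot hA
  have := h n
  rwa [hn, Ideal.mem_bot] at this

theorem galF_inj (h𝒟 : IsDeformationCondition 𝒪 𝒟)
    {A B : Type} [CommRing A] [IsLocalRing A] [Algebra 𝒪 A]
    [CommRing B] [IsLocalRing B] [Algebra 𝒪 B]
    (hA : IsArtinianTestAlgebra 𝒪 A) (hB : IsArtinianTestAlgebra 𝒪 B)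
    (φ : A →ₐ[𝒪] B) (hinj : Function.Injective φ) (u : GQ × Fin 2 × Fin 2 → A)
    (hu : (fun x => φ (u x)) ∈ galF Fr 𝒟 B) : u ∈ galF Fr 𝒟 A := by
  have hφ : IsLocalHom (φ : A →+* B) := isLocalHom_of_algHom hB.residue_surjective φ
  have hker : RingHom.ker (φ : A →+* B) = ⊥ := (RingHom.injective_iff_ker_eq_bot _).1 hinj
  refine mem_galF_of_modRep Fr 𝒟 u (sep_of_testAlg hA) (fun n => ⟨⊥, bot_le, ?_⟩)
    (isLift_of_map Fr 𝒟 φ u hu) ?_
  · rw [← hker]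
    exact modRep_ker Fr 𝒟 hB φ u hu
  · intro r hr
    exact h𝒟.of_baseChangeAlong_injective hA hB φ hφ hinj
      (cond_baseChange_of_map Fr h𝒟 hB φ hφ u hu r hr)

theorem galF_prod (h𝒟 : IsDeformationCondition 𝒪 𝒟)
    {A B C P : Type} [CommRing A] [IsLocalRing A] [Algebra 𝒪 A]
    [CommRing B] [IsLocalRing B] [Algebra 𝒪 B] [CommRing C] [IsLocalRing C] [Algebra 𝒪 C]
    [CommRing P] [IsLocalRing P] [Algebra 𝒪 P]
    (hA : IsArtinianTestAlgebra 𝒪 A) (hB : IsArtinianTestAlgebra 𝒪 B)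
    (hC : IsArtinianTestAlgebra 𝒪 C) (hP : IsArtinianTestAlgebra 𝒪 P)
    (f : A →ₐ[𝒪] C) (g : B →ₐ[𝒪] C) (pA : P →ₐ[𝒪] A) (pB : P →ₐ[𝒪] B)
    (hcomm : f.comp pA = g.comp pB)
    (hinj : Function.Injective (fun x => (pA x, pB x)))
    (hsurj : ∀ a b, f a = g b → ∃ x, pA x = a ∧ pB x = b)
    (u : GQ × Fin 2 × Fin 2 → P) (huA : (fun x => pA (u x)) ∈ galF Fr 𝒟 A)
    (huB : (fun x => pB (u x)) ∈ galF Fr 𝒟 B) : u ∈ galF Fr 𝒟 P := by
  have hpA : IsLocalHom (pA : P →+* A) := isLocalHom_of_algHom hA.residue_surjective pA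
  have hpB : IsLocalHom (pB : P →+* B) := isLocalHom_of_algHom hB.residue_surjective pB
  have hker : RingHom.ker (pA : P →+* A) ⊓ RingHom.ker (pB : P →+* B) = ⊥ := by
    rw [eq_bot_iff]
    rintro x ⟨h1, h2⟩
    rw [SetLike.mem_coe, RingHom.mem_ker] at h1 h2
    rw [Ideal.mem_bot]
    apply hinj
    change (pA x, pB x) = (pA 0, pB 0)
    rw [map_zero, map_zero]
    exact Prod.ext h1 h2
  refine mem_galF_of_modRep Fr 𝒟 u (sep_of_testAlg hP) (fun n => ⟨⊥, bot_le, ?_⟩)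
    (isLift_of_map Fr 𝒟 pA u huA) ?_
  · rw [← hker]
    exact (modRep_ker Fr 𝒟 hA pA u huA).inf Fr (modRep_ker Fr 𝒟 hB pB u huB)
  · intro r hr
    exact h𝒟.of_fibreProduct hA hB hC hP f g pA pB hpA hpB hcomm hinj hsurj
      (cond_baseChange_of_map Fr h𝒟 hA pA hpA u huA r hr)
      (cond_baseChange_of_map Fr h𝒟 hB pB hpB u huB r hr)

theorem galF_complete [Finite (ResidueField 𝒪)] (h𝒟 : IsDeformationCondition 𝒪 𝒟)
    {A : Type} [CommRing A] [IsLocalRing A] [IsNoetherianRing A]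
    [IsAdicComplete (maximalIdeal A) A] [Algebra 𝒪 A]
    (hl : IsLocalHom (algebraMap 𝒪 A))
    (hs : Function.Surjective (IsLocalRing.residue A ∘ algebraMap 𝒪 A))
    (u : GQ × Fin 2 × Fin 2 → A) :
    u ∈ galF Fr 𝒟 A ↔
      ∀ (B : Type) [CommRing B] [IsLocalRing B] [Algebra 𝒪 B], IsArtinianTestAlgebra 𝒪 B →
        ∀ (q : A →ₐ[𝒪] B), Function.Surjective q → (fun x => q (u x)) ∈ galF Fr 𝒟 B := by
  constructor
  · rintro ⟨r, hr, hlr, hnr, hDr⟩ B _ _ _ hB q hq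
    exact galF_map Fr h𝒟 hB q u r hr hlr hnr fun hφ =>
      (h𝒟.iff_forall_surjective hl hs r.toAdic).1 hDr hB q hφ hq
  · intro H
    have hne : ∀ n : ℕ, maximalIdeal A ^ (n + 1) ≠ ⊤ := by
      intro n h
      have h1 : maximalIdeal A ^ (n + 1) ≤ maximalIdeal A := Ideal.pow_le_self (Nat.succ_ne_zero n)
      rw [h, top_le_iff] at h1
      exact (IsLocalRing.maximalIdeal.isMaximal A).ne_top h1
    have key : ∀ n : ℕ, ModRep Fr (maximalIdeal A ^ (n + 1)) u ∧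
        ∀ g i j, u (g, i, j) - algebraMap 𝒪 A (Fr.u0 g i j) ∈ maximalIdeal A := by
      intro n
      have _ : IsLocalRing (A ⧸ maximalIdeal A ^ (n + 1)) := isLocalRing_quotient (hne n)
      have hB : IsArtinianTestAlgebra 𝒪 (A ⧸ maximalIdeal A ^ (n + 1)) :=
        isArtinianTestAlgebra_quotient hl hs le_rfl
      have hu := H (A ⧸ maximalIdeal A ^ (n + 1)) hB (Ideal.Quotient.mkₐ 𝒪 _)
        (Ideal.Quotient.mkₐ_surjective 𝒪 _)
      refine ⟨?_, isLift_of_map Fr 𝒟 _ u hu⟩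
      have := modRep_ker Fr 𝒟 hB _ u hu
      have hk : RingHom.ker ((Ideal.Quotient.mkₐ 𝒪 (maximalIdeal A ^ (n + 1)) :
          A →ₐ[𝒪] A ⧸ maximalIdeal A ^ (n + 1)) : A →+* A ⧸ maximalIdeal A ^ (n + 1))
          = maximalIdeal A ^ (n + 1) := Ideal.mk_ker
      rwa [hk] at this
    refine mem_galF_of_modRep Fr 𝒟 u ?_ (fun n => ⟨maximalIdeal A ^ (n + 1), ?_, (key n).1⟩)
      (key 0).2 ?_
    · intro a ha
      have h1 : a ∈ (⨅ i : ℕ, maximalIdeal A ^ i) := by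
        rw [Ideal.mem_iInf]; exact ha
      rwa [Ideal.iInf_pow_eq_bot_of_isLocalRing _ (IsLocalRing.maximalIdeal.isMaximal A).ne_top,
        Ideal.mem_bot] at h1
    · exact Ideal.pow_le_pow_right (Nat.le_succ n)
    · intro r hr
      rw [h𝒟.iff_forall_surjective hl hs]
      intro B _ _ _ hB q hq hsurj
      exact cond_baseChange_of_map Fr h𝒟 hB q hq u (H B hB q hsurj) r hr


/-- The residual representation in matrix form. -/
noncomputable def Frame.resRep : MatRep (ResidueField 𝒪) where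
  r := (LinearMap.toMatrixAlgEquiv Fr.b).toAlgHom.toRingHom.toMonoidHom.comp ρbar.ρ
  cont := by
    intro n
    obtain ⟨L, hL, h⟩ := ρbar.factorsThroughFiniteLevel
    refine ⟨L, hL, fun σ hσ i j => ?_⟩
    rw [MonoidHom.comp_apply, h σ hσ, map_one, sub_self]
    exact Ideal.zero_mem _

theorem Frame.resRep_apply (g : GQ) : Fr.resRep.r g = LinearMap.toMatrix Fr.b Fr.b (ρbar.ρ g) := rfl

theorem Frame.resRep_apply' (g : GQ) (i j : Fin 2) :
    Fr.resRep.r g i j = residue 𝒪 (Fr.u0 g i j) := by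
  rw [Fr.resRep_apply, ← Fr.hu0]; rfl

theorem gaEval_resRep (x : GQ →₀ 𝒪) (i j : Fin 2) :
    gaEval Fr.resRep.r x i j = ((x.sum fun g c => c • Fr.u0 g).map (residue 𝒪)) i j := by
  rw [gaEval_apply, Matrix.map_apply, sum_u0_apply]
  unfold Finsupp.sum
  rw [map_sum]
  refine Finset.sum_congr rfl fun g _ => ?_
  have h := Fr.resRep_apply' g i j
  change x g • Fr.resRep.r g i j = _
  rw [map_mul, h, Algebra.smul_def]
  rfl

theorem galF_base (h𝒟 : IsDeformationCondition 𝒪 𝒟)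
    (hbar : 𝒟 (GaloisRepAdic.ofResidualGaloisRep ρbar)) :
    (fun x : GQ × Fin 2 × Fin 2 => algebraMap 𝒪 (ResidueField 𝒪) (Fr.u0 x.1 x.2.1 x.2.2)) ∈
      galF Fr 𝒟 (ResidueField 𝒪) := by
  refine ⟨Fr.resRep, fun g i j => (Fr.resRep_apply' g i j).symm, ?_, ⟨?_, ?_, ?_⟩, ?_⟩
  · intro g i j
    rw [Fr.resRep_apply']
    have : residue 𝒪 (Fr.u0 g i j) - algebraMap 𝒪 (ResidueField 𝒪) (Fr.u0 g i j) = 0 :=
      sub_self _
    rw [this]
    exact Ideal.zero_mem _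
  · rw [gaEval_resRep, Fr.hx11]; rfl
  · rw [gaEval_resRep, Fr.hx11]; rfl
  · rw [gaEval_resRep, Fr.hx21]; rfl
  · refine h𝒟.of_isEquiv (isArtinianTestAlgebra_residueField 𝒪) ⟨?_⟩ hbar
    refine { toLinearEquiv := Fr.b.equivFun, map_apply := fun σ x => ?_ }
    change Fr.b.equivFun (ρbar.ρ σ x) =
      (LinearMap.toMatrix Fr.b Fr.b (ρbar.ρ σ)).mulVec (Fr.b.equivFun x)
    exact (LinearMap.toMatrix_mulVec_repr Fr.b Fr.b (ρbar.ρ σ) x).symm


theorem galF_tangent (hfin : TangentFinite 𝒪 ρbar 𝒟) :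
    letI := dualNumberAlgebra 𝒪
    (galF Fr 𝒟 (DualNumber (ResidueField 𝒪))).Finite := by
  let _ := dualNumberAlgebra 𝒪
  have hT := isArtinianTestAlgebra_dualNumber 𝒪
  have _ : IsLocalHom (algebraMap 𝒪 (DualNumber (ResidueField 𝒪))) := hT.isLocalHom
  have hmapeq : ResidueField.map (algebraMap 𝒪 (DualNumber (ResidueField 𝒪))) =
      (residue (DualNumber (ResidueField 𝒪))).comp
        (algebraMap (ResidueField 𝒪) (DualNumber (ResidueField 𝒪))) := by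
    ext x
    obtain ⟨c, rfl⟩ := residue_surjective x
    rfl
  let S : Setoid {ρ : GaloisRepAdic (DualNumber (ResidueField 𝒪)) //
      𝒟 ρ ∧ ρ.residual.IsEquiv (ρbar.baseChangeAlong
        ((residue (DualNumber (ResidueField 𝒪))).comp
          (algebraMap (ResidueField 𝒪) (DualNumber (ResidueField 𝒪))))) } :=
    ⟨fun ρ ρ' => ρ.1.IsEquiv ρ'.1, ⟨fun ρ => ⟨GaloisRepAdic.Equiv.refl ρ.1⟩,
        fun ⟨e⟩ => ⟨e.symm⟩, fun ⟨e⟩ ⟨e'⟩ => ⟨e.trans e'⟩⟩⟩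
  have hfin' : Finite (Quotient S) := hfin
  rw [← Set.finite_coe_iff]
  let f : galF Fr 𝒟 (DualNumber (ResidueField 𝒪)) → Quotient S := fun u =>
    Quotient.mk S ⟨u.2.choose.toAdic, u.2.choose_spec.2.2.2, by
      have := residual_of_isLift Fr u.2.choose_spec.2.1
      rwa [hmapeq] at this⟩
  refine Finite.of_injective f ?_
  intro u v huv
  have h1 : u.2.choose.toAdic.IsEquiv v.2.choose.toAdic := Quotient.exact huv
  have h2 : u.2.choose = v.2.choose :=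
    normalized_unique Fr u.2.choose_spec.2.1 u.2.choose_spec.2.2.1 v.2.choose_spec.2.1
      v.2.choose_spec.2.2.1 h1
  apply Subtype.ext
  funext ⟨g, i, j⟩
  rw [u.2.choose_spec.1, v.2.choose_spec.1, h2]

end GalF

theorem isProRepData_galF
    (𝒪 : Type) [CommRing 𝒪] [IsDomain 𝒪] [IsDiscreteValuationRing 𝒪]
    [IsAdicComplete (maximalIdeal 𝒪) 𝒪] [Finite (ResidueField 𝒪)]
    (ρbar : ResidualGaloisRep (ResidueField 𝒪))
    (𝒟 : ∀ ⦃A : Type⦄ [CommRing A] [IsLocalRing A] [Algebra 𝒪 A], GaloisRepAdic A → Prop)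
    (h𝒟 : IsDeformationCondition 𝒪 𝒟)
    (hbar : 𝒟 (GaloisRepAdic.ofResidualGaloisRep ρbar))
    (hfin : TangentFinite 𝒪 ρbar 𝒟) (Fr : Frame 𝒪 ρbar) :
    IsProRepData 𝒪 (GQ × Fin 2 × Fin 2) (fun A _ _ _ => galF Fr 𝒟 A)
      (fun x => Fr.u0 x.1 x.2.1 x.2.2) where
  res := by
    rintro A _ _ _ - u ⟨r, hr, hl, -, -⟩ ⟨g, i, j⟩
    rw [hr]
    exact hl g i j
  map := by
    rintro A B _ _ _ _ _ _ hA hB φ u ⟨r, hr, hl, hn, hD⟩
    exact galF_map Fr h𝒟 hB φ u r hr hl hn fun hφ => h𝒟.baseChangeAlong hA hB φ hφ hD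
  inj := by
    intro A B _ _ _ _ _ _ hA hB φ hinj u hu
    exact galF_inj Fr h𝒟 hA hB φ hinj u hu
  prod := by
    intro A B C P _ _ _ _ _ _ _ _ _ _ _ _ hA hB hC hP f g pA pB hcomm hinj hsurj u huA huB
    exact galF_prod Fr h𝒟 hA hB hC hP f g pA pB hcomm hinj hsurj u huA huB
  complete := by
    intro A _ _ _ _ _ hl hs u
    exact galF_complete Fr h𝒟 hl hs u
  tangent := galF_tangent Fr hfin
  base := galF_base Fr h𝒟 hbar

end FADeform
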