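import Fermat.Agent.Deform.DictDefs

/-!
# D1: every deformation over a complete local ring has a normalised matrix form
-/

set_option autoImplicit false
set_option linter.style.haveILetI false
set_option linter.unusedSectionVars false

namespace FADeform

open IsLocalRing GaloisRep Polynomial

/-- Hensel's lemma for a (not necessarily monic) quadratic polynomial. -/
theorem exists_root_quadratic {A : Type*} [CommRing A] [IsLocalRing A]
    [IsAdicComplete (maximalIdeal A) A] (c0 c1 c2 : A) (h0 : c0 ∈ maximalIdeal A)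
    (h1 : IsUnit c1) : ∃ y ∈ maximalIdeal A, c2 * y ^ 2 + c1 * y + c0 = 0 := by
  let f : A[X] := X ^ 2 + C c1 * X + C (c0 * c2)
  have hf : f.Monic := by
    have : f = X ^ 2 + (C c1 * X + C (c0 * c2)) := by simp only [f]; ring
    rw [this]
    apply Polynomial.monic_X_pow_add
    exact lt_of_le_of_lt Polynomial.degree_linear_le (by norm_num)
  have he : f.eval 0 ∈ maximalIdeal A := by
    simp only [f, eval_add, eval_pow, eval_X, eval_mul, eval_C]
    simpa using Ideal.mul_mem_right c2 _ h0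
  have hd : IsUnit (Ideal.Quotient.mk (maximalIdeal A) (f.derivative.eval 0)) := by
    have : f.derivative.eval 0 = c1 := by
      simp [f, derivative_add, derivative_pow, derivative_mul]
    rw [this]
    exact h1.map _
  obtain ⟨z, hz, hzm⟩ := HenselianRing.is_henselian (I := maximalIdeal A) f hf 0 he hd
  rw [sub_zero] at hzm
  have hz' : z ^ 2 + c1 * z + c0 * c2 = 0 := by
    simpa [f, IsRoot.def] using hz
  have ht : IsUnit (z + c1) := by
    by_contra hcon
    have h2 : z + c1 ∈ maximalIdeal A := (mem_maximalIdeal _).mpr hcon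
    have h3 : c1 ∈ maximalIdeal A := by
      have := (maximalIdeal A).sub_mem h2 hzm
      simpa using this
    exact ((mem_maximalIdeal _).mp h3) h1
  obtain ⟨t, ht⟩ := ht
  refine ⟨-c0 * ↑t⁻¹, Ideal.mul_mem_right _ _ ((maximalIdeal A).neg_mem h0), ?_⟩
  have h4 : (t : A) * ↑t⁻¹ = 1 := t.mul_inv
  have h5 : z * (t : A) = -(c0 * c2) := by rw [ht]; linear_combination hz'
  have h6 : c2 * (-c0 * ↑t⁻¹) = z := by
    calc c2 * (-c0 * ↑t⁻¹) = -(c0 * c2) * ↑t⁻¹ := by ring
      _ = z * (t : A) * ↑t⁻¹ := by rw [h5]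
      _ = z := by rw [mul_assoc, h4, mul_one]
  calc c2 * (-c0 * ↑t⁻¹) ^ 2 + c1 * (-c0 * ↑t⁻¹) + c0
      = (c2 * (-c0 * ↑t⁻¹) + c1) * (-c0 * ↑t⁻¹) + c0 := by ring
    _ = (z + c1) * (-c0 * ↑t⁻¹) + c0 := by rw [h6]
    _ = -c0 * ((t : A) * ↑t⁻¹) + c0 := by rw [← ht]; ring
    _ = 0 := by rw [h4]; ring

section Conj

variable {A : Type} [CommRing A] [IsLocalRing A]

/-- If all entries of `Y` lie in an ideal, so do the entries of `V * Y * U`. -/
theorem entries_mem_of_mul_mul (I : Ideal A) (V Y U : M2 A) (hY : ∀ i j, Y i j ∈ I) (i j : Fin 2) :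
    (V * Y * U) i j ∈ I := by
  rw [Matrix.mul_apply]
  refine Ideal.sum_mem _ fun k _ => Ideal.mul_mem_right _ _ ?_
  rw [Matrix.mul_apply]
  exact Ideal.sum_mem _ fun l _ => Ideal.mul_mem_left _ _ (hY l k)

/-- Conjugate of a matrix representation by an invertible matrix. -/
noncomputable def MatRep.conj (r : MatRep A) (U V : M2 A) (hUV : U * V = 1) (hVU : V * U = 1) :
    MatRep A where
  r :=
    { toFun := fun g => V * r.r g * U
      map_one' := by rw [map_one, mul_one, hVU]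
      map_mul' := fun g h => by
        rw [map_mul]
        calc V * (r.r g * r.r h) * U = V * r.r g * 1 * r.r h * U := by
              simp only [mul_one, mul_assoc]
          _ = V * r.r g * U * (V * r.r h * U) := by rw [← hUV]; simp only [mul_assoc] }
  cont := by
    intro n
    obtain ⟨L, hL, h⟩ := r.cont n
    refine ⟨L, hL, fun σ hσ i j => ?_⟩
    have : (V * r.r σ * U - 1 : M2 A) = V * (r.r σ - 1) * U := by
      rw [mul_sub, sub_mul, mul_one, hVU]
    show (V * r.r σ * U - 1 : M2 A) i j ∈ _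
    rw [this]
    exact entries_mem_of_mul_mul _ V _ U (h σ hσ) i j

@[simp] theorem MatRep.conj_r_apply (r : MatRep A) (U V : M2 A) (hUV : U * V = 1)
    (hVU : V * U = 1) (g : GQ) : (r.conj U V hUV hVU).r g = V * r.r g * U := rfl

theorem MatRep.conj_isEquiv (r : MatRep A) (U V : M2 A) (hUV : U * V = 1) (hVU : V * U = 1) :
    (r.conj U V hUV hVU).toAdic.IsEquiv r.toAdic := by
  let e0 : (Fin 2 → A) ≃ₗ[A] (Fin 2 → A) :=
    LinearEquiv.ofLinearMap (Matrix.toLin' U) (Matrix.toLin' V)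
      (by rw [← Matrix.toLin'_mul, hUV, Matrix.toLin'_one])
      (by rw [← Matrix.toLin'_mul, hVU, Matrix.toLin'_one])
  have key : ∀ (σ : GQ) (x : Fin 2 → A),
      U.mulVec ((V * r.r σ * U).mulVec x) = (r.r σ).mulVec (U.mulVec x) := by
    intro σ x
    rw [Matrix.mulVec_mulVec, Matrix.mulVec_mulVec, ← mul_assoc, ← mul_assoc, hUV, one_mul]
  exact ⟨{ toLinearEquiv := e0, map_apply := fun σ x => key σ x }⟩

variable {𝒪 : Type} [CommRing 𝒪] [IsLocalRing 𝒪] [Algebra 𝒪 A]
  {ρbar : ResidualGaloisRep (ResidueField 𝒪)} (Fr : Frame 𝒪 ρbar)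

theorem gaEval_conj (r : MatRep A) (U V : M2 A) (hUV : U * V = 1) (hVU : V * U = 1)
    (x : GQ →₀ 𝒪) : gaEval (r.conj U V hUV hVU).r x = V * gaEval r.r x * U := by
  simp only [gaEval, Finsupp.sum, MatRep.conj_r_apply, Finset.mul_sum, Finset.sum_mul,
    Matrix.mul_smul, Matrix.smul_mul]

theorem isLift_conj {r : MatRep A} (hl : Fr.IsLift r) (U V : M2 A) (hUV : U * V = 1)
    (hVU : V * U = 1) (hU : ∀ i j, (U - 1) i j ∈ maximalIdeal A)
    (hV : ∀ i j, (V - 1) i j ∈ maximalIdeal A) : Fr.IsLift (r.conj U V hUV hVU) := by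
  intro g i j
  have h1 : (V * r.r g * U) = r.r g + (1 * (V - 1) * (r.r g * U) + r.r g * (U - 1) * 1) := by
    simp only [one_mul, mul_one, sub_mul, mul_sub, mul_assoc]
    abel
  rw [MatRep.conj_r_apply, h1, Matrix.add_apply, Matrix.add_apply, add_sub_right_comm]
  refine Ideal.add_mem _ (hl g i j) (Ideal.add_mem _ ?_ ?_)
  · exact entries_mem_of_mul_mul _ _ _ _ hV i j
  · exact entries_mem_of_mul_mul _ _ _ _ hU i j

theorem gaEval_cong {r : MatRep A} (hl : Fr.IsLift r) (x : GQ →₀ 𝒪) (i j : Fin 2) :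
    gaEval r.r x i j - algebraMap 𝒪 A ((x.sum fun g c => c • Fr.u0 g) i j) ∈ maximalIdeal A := by
  have h1 : gaEval r.r x i j = ∑ g ∈ x.support, algebraMap 𝒪 A (x g) * r.r g i j := by
    simp only [gaEval, Finsupp.sum, Matrix.sum_apply, Matrix.smul_apply]
    simp only [Algebra.smul_def]
  have h2 : algebraMap 𝒪 A ((x.sum fun g c => c • Fr.u0 g) i j) =
      ∑ g ∈ x.support, algebraMap 𝒪 A (x g) * algebraMap 𝒪 A (Fr.u0 g i j) := by
    simp only [Finsupp.sum, Matrix.sum_apply, Matrix.smul_apply, smul_eq_mul, map_sum, map_mul]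
  rw [h1, h2, ← Finset.sum_sub_distrib]
  refine Ideal.sum_mem _ fun g _ => ?_
  rw [← mul_sub]
  exact Ideal.mul_mem_left _ _ (hl g i j)

theorem algebraMap_sub_mem [IsLocalHom (algebraMap 𝒪 A)] {s t : 𝒪}
    (h : residue 𝒪 s = residue 𝒪 t) :
    algebraMap 𝒪 A s - algebraMap 𝒪 A t ∈ maximalIdeal A := by
  rw [← map_sub]
  have h1 : s - t ∈ maximalIdeal 𝒪 := by
    rw [← residue_eq_zero_iff, map_sub, h, sub_self]
  exact map_nonunit (algebraMap 𝒪 A) _ h1

theorem gaEval_cong' [IsLocalHom (algebraMap 𝒪 A)] {r : MatRep A} (hl : Fr.IsLift r)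
    (x : GQ →₀ 𝒪) (E : M2 (ResidueField 𝒪))
    (hx : (x.sum fun g c => c • Fr.u0 g).map (residue 𝒪) = E) (i j : Fin 2) (t : 𝒪)
    (ht : E i j = residue 𝒪 t) :
    gaEval r.r x i j - algebraMap 𝒪 A t ∈ maximalIdeal A := by
  have h1 := gaEval_cong Fr hl x i j
  have h2 : residue 𝒪 ((x.sum fun g c => c • Fr.u0 g) i j) = residue 𝒪 t := by
    rw [← ht, ← hx]; rfl
  have h3 := algebraMap_sub_mem (A := A) h2
  have := Ideal.add_mem _ h1 h3
  simpa using this

theorem isUnit_of_sub_one_mem {w : A} (h : w - 1 ∈ maximalIdeal A) : IsUnit w := by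
  by_contra hcon
  have h2 : w ∈ maximalIdeal A := (mem_maximalIdeal _).mpr hcon
  have h3 : (1 : A) ∈ maximalIdeal A := by
    have := (maximalIdeal A).sub_mem h2 h
    simp at this
  exact ((mem_maximalIdeal _).mp h3) isUnit_one

/-- Steps (b) and (c): a lift can be conjugated into normalised form. -/
theorem exists_normalized_of_isLift [IsAdicComplete (maximalIdeal A) A]
    [IsLocalHom (algebraMap 𝒪 A)] {r : MatRep A} (hl : Fr.IsLift r) :
    ∃ r' : MatRep A, Fr.IsLift r' ∧ Fr.IsNormalized r' ∧ r'.toAdic.IsEquiv r.toAdic := by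
  -- step (b): diagonalise `x = r(x11)`
  set x := gaEval r.r Fr.x11 with hxdef
  have ha : x 0 0 - 1 ∈ maximalIdeal A := by
    simpa using gaEval_cong' Fr hl Fr.x11 _ Fr.hx11 0 0 1 (by simp)
  have hb : x 0 1 ∈ maximalIdeal A := by
    simpa using gaEval_cong' Fr hl Fr.x11 _ Fr.hx11 0 1 0 (by simp)
  have hc : x 1 0 ∈ maximalIdeal A := by
    simpa using gaEval_cong' Fr hl Fr.x11 _ Fr.hx11 1 0 0 (by simp)
  have hd : x 1 1 ∈ maximalIdeal A := by
    simpa using gaEval_cong' Fr hl Fr.x11 _ Fr.hx11 1 1 0 (by simp)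
  have had : IsUnit (x 0 0 - x 1 1) := by
    apply isUnit_of_sub_one_mem
    have := (maximalIdeal A).sub_mem ha hd
    convert this using 1
    ring
  have hda : IsUnit (x 1 1 - x 0 0) := by
    have := had.neg
    rwa [neg_sub] at this
  obtain ⟨q, hq, hq0⟩ := exists_root_quadratic (-x 1 0) (x 0 0 - x 1 1) (x 0 1)
    ((maximalIdeal A).neg_mem hc) had
  obtain ⟨p, hp, hp0⟩ := exists_root_quadratic (-x 0 1) (x 1 1 - x 0 0) (x 1 0)
    ((maximalIdeal A).neg_mem hb) hda
  have hδ : IsUnit (1 - p * q) := by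
    apply isUnit_of_sub_one_mem
    have := (maximalIdeal A).neg_mem (Ideal.mul_mem_right q _ hp)
    convert this using 1
    ring
  obtain ⟨δ, hδ⟩ := hδ
  have hδ1 : (δ : A) * ↑δ⁻¹ = 1 := δ.mul_inv
  have hδm : (↑δ⁻¹ : A) - 1 ∈ maximalIdeal A := by
    have h1 : (↑δ⁻¹ : A) - 1 = ↑δ⁻¹ * (p * q) := by
      have : (↑δ⁻¹ : A) * (1 - p * q) = 1 := by rw [← hδ]; exact δ.inv_mul
      linear_combination this
    rw [h1]
    exact Ideal.mul_mem_left _ _ (Ideal.mul_mem_right q _ hp)
  let U : M2 A := !![1, p; q, 1]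
  let V : M2 A := !![↑δ⁻¹, -(↑δ⁻¹ * p); -(↑δ⁻¹ * q), ↑δ⁻¹]
  have hinv : (↑δ⁻¹ : A) * (1 - p * q) = 1 := by rw [← hδ]; exact δ.inv_mul
  have hUV : U * V = 1 := by
    ext i j
    fin_cases i <;> fin_cases j <;>
      simp [U, V, Matrix.mul_apply, Fin.sum_univ_two] <;>
      first | linear_combination hinv | ring
  have hVU : V * U = 1 := by
    ext i j
    fin_cases i <;> fin_cases j <;>
      simp [U, V, Matrix.mul_apply, Fin.sum_univ_two] <;>
      linear_combination hinv
  have hU : ∀ i j, (U - 1) i j ∈ maximalIdeal A := by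
    intro i j
    fin_cases i <;> fin_cases j <;> simp [U, hp, hq]
  have hV : ∀ i j, (V - 1) i j ∈ maximalIdeal A := by
    intro i j
    fin_cases i <;> fin_cases j <;>
      simp [V, hδm, Ideal.mul_mem_left _ _ hp, Ideal.mul_mem_left _ _ hq]
  set r1 := r.conj U V hUV hVU with hr1
  have hl1 : Fr.IsLift r1 := isLift_conj Fr hl U V hUV hVU hU hV
  have hx1 : gaEval r1.r Fr.x11 = V * x * U := gaEval_conj r U V hUV hVU Fr.x11
  have hx101 : gaEval r1.r Fr.x11 0 1 = 0 := by
    rw [hx1]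
    simp only [U, V, Matrix.mul_apply, Fin.sum_univ_two, Matrix.of_apply, Matrix.cons_val_zero,
      Matrix.cons_val_one, Matrix.cons_val', Matrix.cons_val_fin_one]
    linear_combination (-(↑δ⁻¹ : A)) * hp0
  have hx110 : gaEval r1.r Fr.x11 1 0 = 0 := by
    rw [hx1]
    simp only [U, V, Matrix.mul_apply, Fin.sum_univ_two, Matrix.of_apply, Matrix.cons_val_zero,
      Matrix.cons_val_one, Matrix.cons_val', Matrix.cons_val_fin_one]
    linear_combination (-(↑δ⁻¹ : A)) * hq0
  -- step (c): rescale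
  have hw : gaEval r1.r Fr.x21 1 0 - 1 ∈ maximalIdeal A := by
    simpa using gaEval_cong' Fr hl1 Fr.x21 _ Fr.hx21 1 0 1 (by simp)
  obtain ⟨w, hw'⟩ := isUnit_of_sub_one_mem hw
  have hw1 : (w : A) * ↑w⁻¹ = 1 := w.mul_inv
  have hw2 : (↑w⁻¹ : A) * w = 1 := w.inv_mul
  have hwm : (↑w⁻¹ : A) - 1 ∈ maximalIdeal A := by
    have h1 : (↑w⁻¹ : A) - 1 = -(↑w⁻¹ * ((w : A) - 1)) := by linear_combination hw2
    rw [h1, hw']
    exact (maximalIdeal A).neg_mem (Ideal.mul_mem_left _ _ hw)
  let U' : M2 A := !![1, 0; 0, w]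
  let V' : M2 A := !![1, 0; 0, ↑w⁻¹]
  have hUV' : U' * V' = 1 := by
    ext i j
    fin_cases i <;> fin_cases j <;> simp [U', V', Matrix.mul_apply, Fin.sum_univ_two]
  have hVU' : V' * U' = 1 := by
    ext i j
    fin_cases i <;> fin_cases j <;> simp [U', V', Matrix.mul_apply, Fin.sum_univ_two]
  have hU' : ∀ i j, (U' - 1) i j ∈ maximalIdeal A := by
    intro i j
    fin_cases i <;> fin_cases j <;> simp [U']
    rw [hw']; exact hw
  have hV' : ∀ i j, (V' - 1) i j ∈ maximalIdeal A := by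
    intro i j
    fin_cases i <;> fin_cases j <;> simp [V']
    exact hwm
  refine ⟨r1.conj U' V' hUV' hVU', isLift_conj Fr hl1 U' V' hUV' hVU' hU' hV', ⟨?_, ?_, ?_⟩, ?_⟩
  · rw [gaEval_conj]
    simp only [U', V', Matrix.mul_apply, Fin.sum_univ_two, Matrix.of_apply, Matrix.cons_val_zero,
      Matrix.cons_val_one, Matrix.cons_val', Matrix.cons_val_fin_one, hx101, hx110]
    ring
  · rw [gaEval_conj]
    simp only [U', V', Matrix.mul_apply, Fin.sum_univ_two, Matrix.of_apply, Matrix.cons_val_zero,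
      Matrix.cons_val_one, Matrix.cons_val', Matrix.cons_val_fin_one, hx101, hx110]
    ring
  · rw [gaEval_conj]
    simp only [U', V', Matrix.mul_apply, Fin.sum_univ_two, Matrix.of_apply, Matrix.cons_val_zero,
      Matrix.cons_val_one, Matrix.cons_val', Matrix.cons_val_fin_one, ← hw']
    linear_combination hw2
  · obtain ⟨e1⟩ := r1.conj_isEquiv U' V' hUV' hVU'
    obtain ⟨e2⟩ := r.conj_isEquiv U V hUV hVU
    exact ⟨e1.trans e2⟩

end Conj

section Lift

open scoped TensorProduct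

variable {𝒪 : Type} [CommRing 𝒪] [IsLocalRing 𝒪]
  {ρbar : ResidualGaloisRep (ResidueField 𝒪)} (Fr : Frame 𝒪 ρbar)

theorem repr_mem_of_mem_smul_top {A V ι : Type*} [CommRing A] [AddCommGroup V] [Module A V]
    (B : Module.Basis ι A V) (I : Ideal A) {x : V} (hx : x ∈ I • (⊤ : Submodule A V)) (i : ι) :
    B.repr x i ∈ I := by
  refine Submodule.smul_induction_on hx ?_ ?_
  · intro a ha n _
    rw [map_smul, Finsupp.smul_apply, smul_eq_mul]
    exact I.mul_mem_right _ ha
  · intro x y hx hy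
    rw [map_add, Finsupp.add_apply]
    exact I.add_mem hx hy

/-- A basis of `ρ` induces a basis of a base change, with the expected matrices. -/
theorem exists_basis_baseChangeAlong {k k' : Type} [Field k] [Field k'] (φ : k →+* k')
    (ρ : ResidualGaloisRep k) (b : Module.Basis (Fin 2) k ρ.V) :
    ∃ bk : Module.Basis (Fin 2) k' (ρ.baseChangeAlong φ).V, ∀ (σ : GQ) (j : Fin 2),
      (ρ.baseChangeAlong φ).ρ σ (bk j) = ∑ i, φ (LinearMap.toMatrix b b (ρ.ρ σ) i j) • bk i := by
  letI : Algebra k k' := φ.toAlgebra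
  let bk : Module.Basis (Fin 2) k' (k' ⊗[k] ρ.V) := b.baseChange k'
  refine ⟨bk, fun σ j => ?_⟩
  show (ρ.ρ σ).baseChange k' (bk j) = ∑ i, φ (LinearMap.toMatrix b b (ρ.ρ σ) i j) • bk i
  simp only [bk, Module.Basis.baseChange_apply, LinearMap.baseChange_tmul]
  conv_lhs => rw [← b.sum_repr (ρ.ρ σ (b j))]
  rw [TensorProduct.tmul_sum]
  refine Finset.sum_congr rfl fun i _ => ?_
  rw [TensorProduct.tmul_smul, LinearMap.toMatrix_apply, TensorProduct.smul_tmul',
    TensorProduct.smul_tmul']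
  congr 1

/-- Step (a): a deformation has a matrix form lifting the frame. -/
theorem exists_isLift (A : Type) [CommRing A] [IsLocalRing A] [Algebra 𝒪 A]
    [IsLocalHom (algebraMap 𝒪 A)] (ρA : GaloisRepAdic A)
    (hres : ρA.residual.IsEquiv (ρbar.baseChangeAlong (ResidueField.map (algebraMap 𝒪 A)))) :
    ∃ r : MatRep A, Fr.IsLift r ∧ r.toAdic.IsEquiv ρA := by
  obtain ⟨e⟩ := hres
  obtain ⟨bk, hbk⟩ := exists_basis_baseChangeAlong (ResidueField.map (algebraMap 𝒪 A)) ρbar Fr.b
  let β : Module.Basis (Fin 2) (ResidueField A) (ResidueField A ⊗[A] ρA.V) :=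
    bk.map e.toLinearEquiv.symm
  have hβ : ∀ (σ : GQ) (j : Fin 2), (ρA.ρ σ).baseChange (ResidueField A) (β j) =
      ∑ i, (ResidueField.map (algebraMap 𝒪 A)) (LinearMap.toMatrix Fr.b Fr.b (ρbar.ρ σ) i j) •
        β i := by
    intro σ j
    have h1 := e.symm.map_apply σ (bk j)
    rw [hbk σ j, map_sum] at h1
    simp only [map_smul] at h1
    exact h1.symm
  have hsurj : Function.Surjective (TensorProduct.mk A (ResidueField A) ρA.V 1) :=
    TensorProduct.mk_surjective A ρA.V (ResidueField A) Ideal.Quotient.mk_surjective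
  choose v hv using fun i => hsurj (β i)
  have hv' : ∀ i, (1 : ResidueField A) ⊗ₜ[A] v i = β i := hv
  have hli : LinearIndependent A v := by
    apply Module.IsLocalRing.linearIndependent_of_flat
    have : (TensorProduct.mk A (ResidueField A) ρA.V 1 ∘ v) = β := funext hv
    rw [this]
    exact β.linearIndependent
  have hsp : Submodule.span A (Set.range v) = ⊤ :=
    IsLocalRing.span_eq_top_of_tmul_eq_basis v β hv'
  let B : Module.Basis (Fin 2) A ρA.V := Module.Basis.mk hli hsp.ge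
  have hB : ∀ i, B i = v i := fun i => Module.Basis.mk_apply hli hsp.ge i
  let r0 : GQ →* M2 A := (LinearMap.toMatrixAlgEquiv B).toAlgHom.toRingHom.toMonoidHom.comp ρA.ρ
  have hr0 : ∀ g i j, r0 g i j = B.repr (ρA.ρ g (B j)) i :=
    fun g i j => LinearMap.toMatrixAlgEquiv_apply B (ρA.ρ g) i j
  have hcont : MatCont A r0 := by
    intro n
    obtain ⟨L, hL, h⟩ := ρA.isAdicContinuous n
    refine ⟨L, hL, fun σ hσ i j => ?_⟩
    have h1 : (r0 σ - 1) i j = B.repr (ρA.ρ σ (B j) - B j) i := by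
      rw [Matrix.sub_apply, hr0, map_sub, Finsupp.sub_apply, B.repr_self, Finsupp.single_apply,
        Matrix.one_apply]
      simp only [eq_comm]
    rw [h1]
    exact repr_mem_of_mem_smul_top B _ (h σ hσ (B j)) i
  refine ⟨⟨r0, hcont⟩, ?_, ?_⟩
  · intro g i j
    show r0 g i j - algebraMap 𝒪 A (Fr.u0 g i j) ∈ maximalIdeal A
    rw [← residue_eq_zero_iff, map_sub, sub_eq_zero]
    have h1 : (ρA.ρ g).baseChange (ResidueField A) (β j) =
        ∑ i, residue A (r0 g i j) • β i := by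
      rw [← hv' j, LinearMap.baseChange_tmul, ← hB j, ← B.sum_repr (ρA.ρ g (B j)),
        TensorProduct.tmul_sum]
      refine Finset.sum_congr rfl fun i _ => ?_
      rw [TensorProduct.tmul_smul, ← hr0, hB i, ← hv' i, TensorProduct.smul_tmul',
        TensorProduct.smul_tmul', Algebra.smul_def, smul_eq_mul]
      rfl
    rw [hβ g j] at h1
    have h2 := congrArg (fun x => β.repr x i) h1
    simp only [map_sum, map_smul, Module.Basis.repr_self, Finsupp.coe_finsetSum, Finset.sum_apply,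
      Finsupp.smul_apply, Finsupp.single_apply, smul_eq_mul, mul_ite, mul_one, mul_zero,
      Finset.sum_ite_eq', Finset.mem_univ, if_true] at h2
    rw [← h2, ← Fr.hu0 g]
    rfl
  · have key : ∀ (σ : GQ) (x : Fin 2 → A),
        B.equivFun.symm ((r0 σ).mulVec x) = ρA.ρ σ (B.equivFun.symm x) := by
      intro σ x
      have h1 : ρA.ρ σ = Matrix.toLinAlgEquiv B (r0 σ) :=
        ((LinearMap.toMatrixAlgEquiv B).symm_apply_apply (ρA.ρ σ)).symm
      rw [h1, Matrix.toLinAlgEquiv_apply, Module.Basis.equivFun_symm_apply]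
      refine Finset.sum_congr rfl fun j _ => ?_
      congr 2
      have : (B.repr (B.equivFun.symm x) : Fin 2 → A) = x := B.equivFun.apply_symm_apply x
      rw [this]
    exact ⟨{ toLinearEquiv := B.equivFun.symm, map_apply := fun σ x => key σ x }⟩

/-- D1: every deformation over a complete local ring has a normalised matrix form. -/
theorem exists_normalized (A : Type) [CommRing A] [IsLocalRing A] [IsNoetherianRing A]
    [IsAdicComplete (maximalIdeal A) A] [Algebra 𝒪 A] [IsLocalHom (algebraMap 𝒪 A)]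
    (ρA : GaloisRepAdic A)
    (hres : ρA.residual.IsEquiv (ρbar.baseChangeAlong (ResidueField.map (algebraMap 𝒪 A)))) :
    ∃ r : MatRep A, Fr.IsLift r ∧ Fr.IsNormalized r ∧ r.toAdic.IsEquiv ρA := by
  obtain ⟨r, hl, ⟨e⟩⟩ := exists_isLift Fr A ρA hres
  obtain ⟨r', hl', hn', ⟨e'⟩⟩ := exists_normalized_of_isLift Fr hl
  exact ⟨r', hl', hn', ⟨e'.trans e⟩⟩

end Lift

end FADeform
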