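import Mathlib
import Fermat.Agent.Deform.TestAlg

/-!
# Universal pair of level `n` (work package A3 of S53), assuming the cardinality bound (A2)
-/

set_option autoImplicit false
set_option linter.style.haveILetI false
set_option linter.unusedSectionVars false

namespace FADeform

open IsLocalRing GaloisRep

/-- A3, with the cardinality bound A2 as a hypothesis. -/
theorem exists_universal_level_of_bound
    (𝒪 : Type) [CommRing 𝒪] [IsLocalRing 𝒪]
    [Finite (ResidueField 𝒪)] (X : Type)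
    (F : ∀ (A : Type) [CommRing A] [IsLocalRing A] [Algebra 𝒪 A], Set (X → A))
    (u0 : X → 𝒪) (h : IsProRepData 𝒪 X F u0) (n : ℕ)
    (hbound : ∃ c : ℕ, ∀ (A : Type) [CommRing A] [IsLocalRing A] [Algebra 𝒪 A],
      IsArtinianTestAlgebra 𝒪 A → maximalIdeal A ^ (n + 1) = ⊥ → ∀ u ∈ F A,
        Algebra.adjoin 𝒪 (Set.range u) = ⊤ → Nat.card A ≤ c) :
    ∃ (R : Type) (_ : CommRing R) (_ : IsLocalRing R) (_ : Algebra 𝒪 R),
      IsArtinianTestAlgebra 𝒪 R ∧ maximalIdeal R ^ (n + 1) = ⊥ ∧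
      ∃ u ∈ F R, Algebra.adjoin 𝒪 (Set.range u) = ⊤ ∧
        ∀ (A : Type) [CommRing A] [IsLocalRing A] [Algebra 𝒪 A], IsArtinianTestAlgebra 𝒪 A →
          maximalIdeal A ^ (n + 1) = ⊥ → ∀ v ∈ F A, ∃ φ : R →ₐ[𝒪] A, ∀ x, φ (u x) = v x := by
  classical
  obtain ⟨c, hc⟩ := hbound
  -- the set of cardinalities of minimal pairs
  let S : Set ℕ := {m | ∃ (A : Type) (_ : CommRing A) (_ : IsLocalRing A) (_ : Algebra 𝒪 A),
    IsArtinianTestAlgebra 𝒪 A ∧ maximalIdeal A ^ (n + 1) = ⊥ ∧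
      ∃ u ∈ F A, Algebra.adjoin 𝒪 (Set.range u) = ⊤ ∧ Nat.card A = m}
  have hSne : S.Nonempty := by
    refine ⟨Nat.card (ResidueField 𝒪), ResidueField 𝒪, inferInstance, inferInstance, inferInstance,
      isArtinianTestAlgebra_residueField 𝒪, ?_, _, h.base, adjoin_residueField_eq_top 𝒪 _, rfl⟩
    rw [maximalIdeal_residueField, pow_succ, Ideal.mul_bot]
  have hSbdd : BddAbove S := by
    refine ⟨c, ?_⟩
    rintro m ⟨A, _, _, _, hA, hAn, u, hu, hgen, rfl⟩
    exact hc A hA hAn u hu hgen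
  obtain ⟨R, iR1, iR2, iR3, hR, hRn, u, hu, hgen, hcard⟩ := Nat.sSup_mem hSne hSbdd
  refine ⟨R, iR1, iR2, iR3, hR, hRn, u, hu, hgen, ?_⟩
  intro A _ _ _ hA hAn v hv
  -- the fibre product
  haveI : IsLocalRing (fibProd 𝒪 R A) := fibProd.isLocalRing hR hA
  have hP : IsArtinianTestAlgebra 𝒪 (fibProd 𝒪 R A) := fibProd.isArtinianTestAlgebra hR hA
  have hPn : maximalIdeal (fibProd 𝒪 R A) ^ (n + 1) = ⊥ := fibProd.pow_eq_bot hR hA hRn hAn
  let w : X → fibProd 𝒪 R A := fun x => ⟨(u x, v x), u0 x, h.res R hR u hu x, h.res A hA v hv x⟩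
  have hw : w ∈ F (fibProd 𝒪 R A) :=
    h.prod R A (ResidueField 𝒪) (fibProd 𝒪 R A) hR hA (isArtinianTestAlgebra_residueField 𝒪) hP
      (TestAlg.resk hR) (TestAlg.resk hA) (fibProd.fst 𝒪 R A) (fibProd.snd 𝒪 R A)
      (fibProd.resk_comp hR hA) fibProd.injective_pair (fibProd.exists_of_resk_eq hR hA) w hu hv
  -- the subalgebra generated by `w`
  let E : Subalgebra 𝒪 (fibProd 𝒪 R A) := Algebra.adjoin 𝒪 (Set.range w)
  haveI : IsLocalRing E := TestAlg.isLocalRing_subalgebra hP E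
  have hE : IsArtinianTestAlgebra 𝒪 E := TestAlg.subalgebra hP E
  have hEn : maximalIdeal E ^ (n + 1) = ⊥ :=
    TestAlg.pow_eq_bot_of_injective hE E.val Subtype.val_injective hPn
  let w' : X → E := fun x => ⟨w x, Algebra.subset_adjoin ⟨x, rfl⟩⟩
  have hw' : w' ∈ F E := h.inj E (fibProd 𝒪 R A) hE hP E.val Subtype.val_injective w' hw
  have hgenE : Algebra.adjoin 𝒪 (Set.range w') = ⊤ := by
    have h1 : Set.range w' = (Subtype.val ⁻¹' (Set.range w) : Set E) := by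
      ext y
      constructor
      · rintro ⟨x, rfl⟩
        exact ⟨x, rfl⟩
      · rintro ⟨x, hx⟩
        exact ⟨x, Subtype.ext hx⟩
    rw [h1]
    exact Algebra.adjoin_adjoin_coe_preimage
  have hcardE : Nat.card E ≤ Nat.card R := by
    rw [hcard]
    exact le_csSup hSbdd ⟨E, inferInstance, inferInstance, inferInstance, hE, hEn, w', hw', hgenE, rfl⟩
  -- the first projection is bijective
  let p₁ : E →ₐ[𝒪] R := (fibProd.fst 𝒪 R A).comp E.val
  let p₂ : E →ₐ[𝒪] A := (fibProd.snd 𝒪 R A).comp E.val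
  have hp₁surj : Function.Surjective p₁ := by
    rw [← AlgHom.range_eq_top, eq_top_iff, ← hgen, Algebra.adjoin_le_iff]
    rintro _ ⟨x, rfl⟩
    exact ⟨w' x, rfl⟩
  haveI : Finite E := TestAlg.finite hE
  have hp₁bij : Function.Bijective p₁ := hp₁surj.bijective_of_nat_card_le hcardE
  let e : E ≃ₐ[𝒪] R := AlgEquiv.ofBijective p₁ hp₁bij
  refine ⟨p₂.comp e.symm.toAlgHom, fun x => ?_⟩
  have h1 : e.symm (u x) = w' x := by
    rw [AlgEquiv.symm_apply_eq]
    rfl
  show p₂ (e.symm (u x)) = v x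
  rw [h1]
  rfl

end FADeform
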